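import Mathlib.RingTheory.Ideal.Operations
import Mathlib.Algebra.Algebra.Subalgebra.Basic
import Mathlib.Tactic.Ring

/-!
# Successive approximation of a unit by a product

In an algebra `T` which is the sum of two subalgebras and the span of a finite family `η`, an
element congruent to one modulo `I` is, modulo every power of `I`, a product
`α β (1 + ∑ cᵢ ηᵢ)` with `α`, `β` in the subalgebras and congruent to one, and `cᵢ ∈ I`.
-/

set_option autoImplicit false

namespace Fermat.Agent.OrdinaryAtP

variable {R B : Type*} [CommRing R] [CommRing B] [Algebra R B]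

theorem mul_mem_pow_smul (T : Subalgebra R B) {I J : Ideal R} {x y : B}
    (hx : x ∈ I • Subalgebra.toSubmodule T) (hy : y ∈ J • Subalgebra.toSubmodule T) :
    x * y ∈ (I * J) • Subalgebra.toSubmodule T := by
  refine Submodule.smul_induction_on hx (fun r hr a ha => ?_) fun a b ha hb => ?_
  · refine Submodule.smul_induction_on hy (fun r' hr' b hb => ?_) fun b b' hb hb' => ?_
    · rw [smul_mul_smul_comm]
      exact Submodule.smul_mem_smul (Ideal.mul_mem_mul hr hr') (T.mul_mem ha hb)
    · rw [mul_add]; exact add_mem hb hb'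
  · rw [add_mul]; exact add_mem ha hb

theorem mul_mem_smul_left (T : Subalgebra R B) {I : Ideal R} {x y : B}
    (hx : x ∈ T) (hy : y ∈ I • Subalgebra.toSubmodule T) :
    x * y ∈ I • Subalgebra.toSubmodule T := by
  refine Submodule.smul_induction_on hy (fun r hr a ha => ?_) fun a b ha hb => ?_
  · rw [mul_smul_comm]
    exact Submodule.smul_mem_smul hr (T.mul_mem hx ha)
  · rw [mul_add]; exact add_mem ha hb

variable {κ : Type*} [Fintype κ]

/-- `1 + ∑ cᵢ ηᵢ`. -/
def linUnit (η : κ → B) (c : κ → R) : B := 1 + ∑ i, c i • η i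

variable (T P Q : Subalgebra R B) (η : κ → B)

/-- A decomposition of the algebra respects ideals. -/
theorem exists_split (hT : ∀ t ∈ T, ∃ a ∈ P, ∃ b ∈ Q, ∃ d : κ → R, t = a + b + ∑ i, d i • η i)
    {I : Ideal R} {t : B} (ht : t ∈ I • Subalgebra.toSubmodule T) :
    ∃ a ∈ I • Subalgebra.toSubmodule P, ∃ b ∈ I • Subalgebra.toSubmodule Q, ∃ d : κ → R,
      (∀ i, d i ∈ I) ∧ t = a + b + ∑ i, d i • η i := by
  refine Submodule.smul_induction_on ht (fun r hr x hx => ?_) fun x y hx hy => ?_
  · obtain ⟨a, ha, b, hb, d, rfl⟩ := hT x hx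
    refine ⟨r • a, Submodule.smul_mem_smul hr ha, r • b, Submodule.smul_mem_smul hr hb,
      fun i => r * d i, fun i => I.mul_mem_right _ hr, ?_⟩
    simp only [smul_add, Finset.smul_sum, smul_smul]
  · obtain ⟨a, ha, b, hb, d, hd, rfl⟩ := hx
    obtain ⟨a', ha', b', hb', d', hd', rfl⟩ := hy
    refine ⟨a + a', add_mem ha ha', b + b', add_mem hb hb', fun i => d i + d' i,
      fun i => I.add_mem (hd i) (hd' i), ?_⟩
    simp only [add_smul, Finset.sum_add_distrib]
    abel

/-- An element congruent to one modulo `I` is, modulo `I ^ (k + 1)`, a product of such elements of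
`P` and of `Q` and of a `1 + ∑ cᵢ ηᵢ` with coefficients in `I`. -/
theorem exists_approx (hP : P ≤ T) (hQ : Q ≤ T) (hη : ∀ i, η i ∈ T)
    (hT : ∀ t ∈ T, ∃ a ∈ P, ∃ b ∈ Q, ∃ d : κ → R, t = a + b + ∑ i, d i • η i)
    (I : Ideal R) {E : B} (hE : E - 1 ∈ I • Subalgebra.toSubmodule T) (k : ℕ) :
    ∃ c : κ → R, (∀ i, c i ∈ I) ∧ ∃ α β : B,
      α - 1 ∈ I • Subalgebra.toSubmodule P ∧ β - 1 ∈ I • Subalgebra.toSubmodule Q ∧
      E - α * β * linUnit η c ∈ I ^ (k + 1) • Subalgebra.toSubmodule T := by
  induction k with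
  | zero =>
    refine ⟨0, fun i => I.zero_mem, 1, 1, by simp, by simp, ?_⟩
    rw [zero_add, pow_one]
    simpa [linUnit] using hE
  | succ k ih =>
    obtain ⟨c, hc, α, β, hα, hβ, hrest⟩ := ih
    -- Split the error and absorb the three parts into the three factors.
    obtain ⟨a, ha, b, hb, d, hd, hab⟩ := exists_split T P Q η hT hrest
    have hle : I ^ (k + 1) ≤ I := Ideal.pow_le_self (by omega)
    refine ⟨c + d, fun i => I.add_mem (hc i) (hle (hd i)), α + a, β + b, ?_, ?_, ?_⟩
    · rw [add_sub_right_comm]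
      exact add_mem hα (Submodule.smul_mono_left hle ha)
    · rw [add_sub_right_comm]
      exact add_mem hβ (Submodule.smul_mono_left hle hb)
    set S := Subalgebra.toSubmodule T with hS
    have hlin : ∀ {J : Ideal R} (e : κ → R), (∀ i, e i ∈ J) → ∑ i, e i • η i ∈ J • S :=
      fun e he => sum_mem fun i _ => Submodule.smul_mem_smul (he i) (hη i)
    have hmono : ∀ {J : Ideal R}, J • Subalgebra.toSubmodule P ≤ J • S ∧
        J • Subalgebra.toSubmodule Q ≤ J • S :=
      fun {J} => ⟨Submodule.smul_mono le_rfl hP, Submodule.smul_mono le_rfl hQ⟩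
    have hmem : ∀ {J : Ideal R} {x : B}, x ∈ J • S → x ∈ T := fun {J x} hx =>
      (Submodule.smul_le_right : J • S ≤ S) hx
    have hαT : α ∈ T := by
      have := T.add_mem (hmem (hmono.1 hα)) T.one_mem
      rwa [sub_add_cancel] at this
    have hβT : β ∈ T := by
      have := T.add_mem (hmem (hmono.2 hβ)) T.one_mem
      rwa [sub_add_cancel] at this
    have hL : linUnit η c - 1 ∈ I • S := by
      rw [linUnit, add_sub_cancel_left]; exact hlin c hc
    have hLT : linUnit η c ∈ T := by
      have := T.add_mem (hmem hL) T.one_mem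
      rwa [sub_add_cancel] at this
    have hadd : linUnit η (c + d) = linUnit η c + ∑ i, d i • η i := by
      simp only [linUnit, Pi.add_apply, add_smul, Finset.sum_add_distrib]
      rw [add_assoc]
    set e := ∑ i, d i • η i with he
    have hd' : e ∈ I ^ (k + 1) • S := hlin d hd
    -- What remains is a sum of products of terms in `I` and `I ^ (k + 1)`.
    have key : E - (α + a) * (β + b) * linUnit η (c + d) =
        -((β - 1) * (a * linUnit η c) + a * (linUnit η c - 1) + (α - 1) * (b * linUnit η c) +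
          b * (linUnit η c - 1) + (α * (β - 1) + (α - 1)) * e + a * b * linUnit η c +
          (a * β + α * b + a * b) * e) := by
      rw [hadd]
      rw [sub_eq_iff_eq_add.mp hab]
      ring
    rw [key]
    have hpow : ∀ {x y : B}, x ∈ I • S → y ∈ I ^ (k + 1) • S → x * y ∈ I ^ (k + 1 + 1) • S :=
      fun hx hy => by rw [pow_succ']; exact mul_mem_pow_smul T hx hy
    have ha' := hmono.1 ha
    have hb' := hmono.2 hb
    have haL : a * linUnit η c ∈ I ^ (k + 1) • S := by
      rw [mul_comm]; exact mul_mem_smul_left T hLT ha'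
    have hbL : b * linUnit η c ∈ I ^ (k + 1) • S := by
      rw [mul_comm]; exact mul_mem_smul_left T hLT hb'
    refine neg_mem (add_mem (add_mem (add_mem (add_mem (add_mem (add_mem ?_ ?_) ?_) ?_) ?_) ?_) ?_)
    · exact hpow (hmono.2 hβ) haL
    · rw [mul_comm]; exact hpow hL ha'
    · exact hpow (hmono.1 hα) hbL
    · rw [mul_comm]; exact hpow hL hb'
    · exact hpow (add_mem (mul_mem_smul_left T hαT (hmono.2 hβ)) (hmono.1 hα)) hd'
    · rw [mul_assoc]
      exact hpow (Submodule.smul_mono_left hle ha') hbL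
    · refine hpow (Submodule.smul_mono_left hle ?_) hd'
      refine add_mem (add_mem ?_ (mul_mem_smul_left T hαT hb'))
        (mul_mem_smul_left T (hmem ha') hb')
      rw [mul_comm]; exact mul_mem_smul_left T hβT ha'

end Fermat.Agent.OrdinaryAtP
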