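import Fermat.Agent.OrdinaryAtP.Charts
import Fermat.Agent.FiniteFlat.Descent
import Fermat.Agent.Mazur.Eisenstein.Ord

/-!
# Functions congruent to one

Integral functions with both reductions one, and the sizes of nonunits.
-/

set_option autoImplicit false

noncomputable section

namespace Fermat.Agent.OrdinaryAtP

open Semistable
open Arith (QBar GQ)

variable {A : ValuationSubring QBar} {p : ℕ}

/-- `γ` divides `a`. -/
abbrev DvdA (A : ValuationSubring QBar) (γ a : QBar) : Prop := γ⁻¹ * a ∈ A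

/-- Divisibility in `A` is transitive. -/
theorem DvdA.trans {γ δ a : QBar} (hδ : δ ≠ 0) (h : DvdA A γ δ) (h' : DvdA A δ a) :
    DvdA A γ a := by
  have : γ⁻¹ * a = (γ⁻¹ * δ) * (δ⁻¹ * a) := by
    rw [mul_assoc, ← mul_assoc δ, mul_inv_cancel₀ hδ, one_mul]
  show γ⁻¹ * a ∈ A
  rw [this]; exact mul_mem h h'

theorem DvdA.add {γ a b : QBar} (h : DvdA A γ a) (h' : DvdA A γ b) : DvdA A γ (a + b) := by
  show γ⁻¹ * (a + b) ∈ A
  rw [mul_add]; exact add_mem h h'

/-- A multiple of a nonunit is a nonunit. -/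
theorem DvdA.mem_nonunits {γ a : QBar} (hγ : γ ≠ 0) (hγn : γ ∈ A.nonunits) (h : DvdA A γ a) :
    a ∈ A.nonunits := by
  have : a = (γ⁻¹ * a) * γ := by rw [mul_comm γ⁻¹, mul_assoc, inv_mul_cancel₀ hγ, mul_one]
  rw [this]; exact Arith.nonunits_mul_left h hγn

/-- A nonunit dividing finitely many nonunits. -/
theorem exists_dvd_all (hA : A.LiesOverPrime p) (hp : p.Prime) (s : Finset QBar)
    (hs : ∀ a ∈ s, a ∈ A.nonunits) :
    ∃ ν : QBar, ν ≠ 0 ∧ ν ∈ A.nonunits ∧ ∀ a ∈ s, DvdA A ν a := by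
  classical
  induction s using Finset.induction with
  | empty => exact ⟨p, by exact_mod_cast hp.ne_zero, hA, by simp⟩
  | insert b s hb ih =>
    obtain ⟨ν, hν0, hνn, hν⟩ := ih fun a ha => hs a (Finset.mem_insert_of_mem ha)
    rcases A.mem_or_inv_mem (ν⁻¹ * b) with h | h
    · refine ⟨ν, hν0, hνn, fun a ha => ?_⟩
      rcases Finset.mem_insert.mp ha with rfl | ha
      exacts [h, hν a ha]
    · rw [mul_inv, inv_inv, mul_comm] at h
      rcases eq_or_ne b 0 with rfl | hb0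
      · exact ⟨ν, hν0, hνn, fun a ha => (Finset.mem_insert.mp ha).elim
          (fun e => by subst e; show ν⁻¹ * 0 ∈ A; rw [mul_zero]; exact zero_mem A) (hν a)⟩
      refine ⟨b, hb0, hs b (Finset.mem_insert_self b s), fun a ha => ?_⟩
      rcases Finset.mem_insert.mp ha with rfl | ha
      · show a⁻¹ * a ∈ A
        rw [inv_mul_cancel₀ hb0]; exact one_mem A
      · exact DvdA.trans hν0 h (hν a ha)

/-- A high power of a nonunit is divisible by a given nonzero number. -/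
theorem exists_pow_dvd (hA : A.LiesOverPrime p) (hp : p.Prime) {ν : QBar}
    (hν : ν ∈ A.nonunits) {γ : QBar} (hγ : γ ≠ 0) : ∃ N : ℕ, ∀ n, N ≤ n → DvdA A γ (ν ^ n) := by
  rcases eq_or_ne ν 0 with rfl | hν0
  · refine ⟨1, fun n hn => ?_⟩
    show γ⁻¹ * (0 : QBar) ^ n ∈ A
    rw [zero_pow (by omega), mul_zero]; exact zero_mem A
  obtain ⟨n, k, hn, hk⟩ := Mazur.Eisenstein.exists_pow_eq_zpow hA hp hν0
  obtain ⟨s, hs⟩ := FiniteFlat.exists_natCast_pow_mul_mem hA hp γ⁻¹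
  have hv0 : A.valuation (p : QBar) ≠ 0 :=
    (Valuation.ne_zero_iff _).mpr (by exact_mod_cast hp.ne_zero)
  have hv1 : A.valuation (p : QBar) < 1 := (ValuationSubring.mem_nonunits_iff A).mp hA
  have hk1 : 1 ≤ k := by
    by_contra hk0
    have h1 : A.valuation ν ^ n < 1 :=
      pow_lt_one₀ zero_le ((ValuationSubring.mem_nonunits_iff A).mp hν) hn.ne'
    rw [hk] at h1
    exact absurd h1 (not_lt.mpr (one_le_zpow_of_nonpos₀ (zero_lt_iff.mpr hv0) hv1.le (by omega)))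
  refine ⟨n * s, fun m hm => ?_⟩
  obtain ⟨r, rfl⟩ := Nat.exists_eq_add_of_le hm
  have h1 : ν ^ (n * s) * ((p : QBar) ^ s)⁻¹ ∈ A := by
    rw [← A.valuation_le_one_iff, map_mul, map_inv₀, map_pow, map_pow, pow_mul, hk,
      mul_inv_le_iff₀ (pow_pos (zero_lt_iff.mpr hv0) _), one_mul]
    refine pow_le_pow_left₀ zero_le ?_ s
    exact (zpow_le_zpow_right_of_le_one₀ (zero_lt_iff.mpr hv0) hv1.le hk1).trans (zpow_one _).le
  show γ⁻¹ * ν ^ (n * s + r) ∈ A
  have hps : ((p : QBar) ^ s) ≠ 0 := pow_ne_zero _ (by exact_mod_cast hp.ne_zero)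
  have e : γ⁻¹ * ν ^ (n * s + r) =
      ((p : QBar) ^ s * γ⁻¹) * (ν ^ (n * s) * ((p : QBar) ^ s)⁻¹) * ν ^ r := by
    rw [pow_add]; field_simp
  rw [e]
  exact mul_mem (mul_mem hs h1) (pow_mem (Arith.mem_of_mem_nonunits hν) r)

variable {M : ℕ} [NeZero M] [hp : Fact p.Prime] (h : Setup A M p)
include h

/-- Integral with both reductions one. -/
def IsOne (z : FB (p * M)) : Prop := ∃ hz : z ∈ Oh h, redh h ⟨z, hz⟩ = 1

/-- `1` is congruent to one. -/
theorem isOne_one : IsOne h 1 := ⟨one_mem _, map_one _⟩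

/-- Functions congruent to one are closed under products. -/
theorem IsOne.mul {z w : FB (p * M)} (hz : IsOne h z) (hw : IsOne h w) : IsOne h (z * w) :=
  ⟨mul_mem hz.1 hw.1, by
    rw [show (⟨z * w, mul_mem hz.1 hw.1⟩ : Oh h) = ⟨z, hz.1⟩ * ⟨w, hw.1⟩ from rfl, map_mul,
      hz.2, hw.2, one_mul]⟩

/-- Functions congruent to one are closed under powers. -/
theorem IsOne.pow {z : FB (p * M)} (hz : IsOne h z) : ∀ n : ℕ, IsOne h (z ^ n)
  | 0 => by rw [pow_zero]; exact isOne_one h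
  | n + 1 => by rw [pow_succ]; exact (hz.pow n).mul h hz

/-- A function congruent to one is nonzero. -/
theorem IsOne.ne_zero {z : FB (p * M)} (hz : IsOne h z) : z ≠ 0 := by
  rintro rfl
  have := hz.2
  rw [show (⟨0, hz.1⟩ : Oh h) = 0 from rfl, map_zero] at this
  exact zero_ne_one this

/-- Functions congruent to one are closed under inverses. -/
theorem IsOne.inv {z : FB (p * M)} (hz : IsOne h z) : IsOne h z⁻¹ := by
  obtain ⟨hi, hi'⟩ := inv_mem_loc2 (iota2 M p h.hqM) ⟨z, hz.1⟩ fun s => by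
    show redh h ⟨z, hz.1⟩ s ≠ 0
    rw [hz.2]; exact one_ne_zero
  exact ⟨hi, funext fun s => by
    rw [show redh h ⟨z⁻¹, hi⟩ s = _ from hi' s]
    show (redh h ⟨z, hz.1⟩ s)⁻¹ = _
    rw [hz.2, Pi.one_apply, inv_one]⟩

/-- A small perturbation of a function congruent to one is congruent to one. -/
theorem IsOne.of_sub_small {z w : FB (p * M)} (hz : IsOne h z) {γ : QBar} (hγ : γ ≠ 0)
    (hγn : γ ∈ A.nonunits) (hd : w - z ∈ small A (iota2 M p h.hqM) γ) : IsOne h w := by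
  have hw : w ∈ Oh h := by
    have := add_mem (mem_loc2_of_small hγ (Arith.mem_of_mem_nonunits hγn) hd) hz.1
    rwa [sub_add_cancel] at this
  exact ⟨hw, (red2_eq_of_small hγ hγn (x := ⟨w, hw⟩) (y := ⟨z, hz.1⟩) hd).trans hz.2⟩

/-- Every function has a multiple which is integral. -/
theorem exists_mem_small (z : FB (p * M)) :
    ∃ δ : QBar, δ ≠ 0 ∧ z ∈ small A (iota2 M p h.hqM) δ := by
  rcases eq_or_ne z 0 with rfl | hz
  · exact ⟨1, one_ne_zero, zero_mem _⟩
  choose c hc0 hcz hcr using fun s => exists_scale h.hA hp.out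
    (iota2_fracS (A := A) M p h.hqM s z) ((_root_.map_ne_zero _).mpr hz)
  obtain ⟨s, hs⟩ := FiniteFlat.exists_natCast_pow_mul_mem h.hA hp.out (c 0)⁻¹
  obtain ⟨t, ht⟩ := FiniteFlat.exists_natCast_pow_mul_mem h.hA hp.out (c 1)⁻¹
  have hp0 : (p : QBar) ≠ 0 := by exact_mod_cast hp.out.ne_zero
  refine ⟨((p : QBar) ^ (s + t))⁻¹, inv_ne_zero (pow_ne_zero _ hp0), ?_⟩
  rw [mem_small, inv_inv]
  refine (mem_loc2 _).mpr fun i => ?_
  have hi : (p : QBar) ^ (s + t) * (c i)⁻¹ ∈ A := by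
    fin_cases i
    · show (p : QBar) ^ (s + t) * (c 0)⁻¹ ∈ A
      rw [pow_add, mul_right_comm]; exact mul_mem hs (pow_mem (natCast_mem A p) t)
    · show (p : QBar) ^ (s + t) * (c 1)⁻¹ ∈ A
      rw [pow_add, mul_assoc]; exact mul_mem (pow_mem (natCast_mem A p) s) ht
  have e : iota2 M p h.hqM i ((p : QBar) ^ (s + t) • z) =
      algebraMap QBar LSer ((p : QBar) ^ (s + t) * (c i)⁻¹) *
        (algebraMap QBar LSer (c i) * iota2 M p h.hqM i z) := by
    rw [← mul_assoc, ← map_mul, mul_assoc, inv_mul_cancel₀ (hc0 i), mul_one, Algebra.smul_def,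
      map_mul, AlgHom.commutes]
  rw [e]
  exact mul_mem (algebraMap_mem_locS hi) (hcz i)

/-- Reduction zero means divisible by a nonunit. -/
theorem exists_small_of_red_zero (z : Oh h) (hz : redh h z = 0) :
    ∃ ν : QBar, ν ≠ 0 ∧ ν ∈ A.nonunits ∧ (z : FB (p * M)) ∈ small A (iota2 M p h.hqM) ν := by
  classical
  rcases eq_or_ne (z : FB (p * M)) 0 with h0 | h0
  · exact ⟨p, by exact_mod_cast hp.out.ne_zero, h.hA, by rw [h0]; exact zero_mem _⟩
  choose c hc0 hcz hcr using fun s => exists_scale h.hA hp.out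
    (iota2_fracS (A := A) M p h.hqM s (z : FB (p * M))) ((_root_.map_ne_zero _).mpr h0)
  have hcn : ∀ s, (c s)⁻¹ ∈ A.nonunits := by
    intro s
    have hnA : c s ∉ A := fun hcA => hcr s (by
      rw [redL_congr _ (mul_mem (algebraMap_mem_locS hcA) ((mem_loc2 _).mp z.2 s))
        (rfl : algebraMap QBar LSer (c s) * iota2 M p h.hqM s (z : FB (p * M)) = _)]
      change redL A (⟨_, algebraMap_mem_locS hcA⟩ * ⟨_, (mem_loc2 _).mp z.2 s⟩) = 0
      rw [map_mul, show redL A ⟨_, (mem_loc2 _).mp z.2 s⟩ = 0 from congrFun hz s, mul_zero])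
    rw [ValuationSubring.mem_nonunits_iff, map_inv₀]
    exact inv_lt_one_of_one_lt₀ (not_le.mp fun h1 => hnA ((A.valuation_le_one_iff _).mp h1))
  obtain ⟨ν, hν0, hνn, hν⟩ := exists_dvd_all h.hA hp.out (Finset.univ.image fun s => (c s)⁻¹)
    (fun a ha => by obtain ⟨s, -, rfl⟩ := Finset.mem_image.mp ha; exact hcn s)
  refine ⟨ν, hν0, hνn, (mem_loc2 _).mpr fun s => ?_⟩
  show iota2 M p h.hqM s (ν⁻¹ • (z : FB (p * M))) ∈ locS A
  have e : iota2 M p h.hqM s (ν⁻¹ • (z : FB (p * M))) =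
      algebraMap QBar LSer (ν⁻¹ * (c s)⁻¹) *
        (algebraMap QBar LSer (c s) * iota2 M p h.hqM s (z : FB (p * M))) := by
    rw [← mul_assoc, ← map_mul, mul_assoc, inv_mul_cancel₀ (hc0 s), mul_one, Algebra.smul_def,
      map_mul, AlgHom.commutes]
  rw [e]
  exact mul_mem (algebraMap_mem_locS (hν _ (Finset.mem_image.mpr ⟨s, Finset.mem_univ s, rfl⟩)))
    (hcz s)

/-- The truncated inverse of a function congruent to one. -/
theorem exists_trunc_inv {G : FB (p * M)} (hG : IsOne h G) :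
    ∃ ν : QBar, ν ≠ 0 ∧ ν ∈ A.nonunits ∧ ∀ N : ℕ,
      G * (∑ i ∈ Finset.range N, (1 - G) ^ i) - 1 ∈ small A (iota2 M p h.hqM) (ν ^ N) := by
  obtain ⟨ν, hν0, hνn, hν⟩ := exists_small_of_red_zero h (1 - ⟨G, hG.1⟩) (by
    rw [map_sub, map_one, hG.2, sub_self])
  refine ⟨ν, hν0, hνn, fun N => ?_⟩
  have e : G * (∑ i ∈ Finset.range N, (1 - G) ^ i) - 1 = -(1 - G) ^ N := by
    have := mul_neg_geom_sum (1 - G) N
    rw [sub_sub_cancel] at this
    rw [this]; ring
  rw [e]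
  refine neg_mem ?_
  clear e
  induction N with
  | zero => rw [pow_zero, pow_zero, mem_small_one]; exact one_mem _
  | succ N ih => rw [pow_succ, pow_succ]; exact mul_mem_small ih hν

theorem isOne_trunc {G : FB (p * M)} (hG : IsOne h G) {N : ℕ} (hN : 1 ≤ N) :
    IsOne h (∑ i ∈ Finset.range N, (1 - G) ^ i) := by
  refine ⟨sum_mem fun i _ => pow_mem (sub_mem (one_mem _) hG.1) i, ?_⟩
  have e : (⟨∑ i ∈ Finset.range N, (1 - G) ^ i,
      sum_mem fun i _ => pow_mem (sub_mem (one_mem _) hG.1) i⟩ : Oh h) =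
      ∑ i ∈ Finset.range N, ((1 : Oh h) - ⟨G, hG.1⟩) ^ i := by
    refine Subtype.ext ?_
    rw [AddSubmonoidClass.coe_finsetSum]
    rfl
  rw [e, map_sum, Finset.sum_eq_single 0]
  · rw [pow_zero, map_one]
  · intro i _ hi
    rw [map_pow, map_sub, map_one, hG.2, sub_self, zero_pow hi]
  · intro h0
    exact absurd (Finset.mem_range.mpr hN) h0

end Fermat.Agent.OrdinaryAtP

end
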