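import Fermat.Agent.OrdinaryAtP.Fixed
import Fermat.Agent.OrdinaryAtP.Units

/-!
# Averaging over a finite quotient of inertia

An algebra of equivariant functions on a finite set whose values separate points to precision `γ`
contains every equivariant function divisible by a fixed multiple of a power of `γ`.
-/

set_option autoImplicit false

noncomputable section

namespace Fermat.Agent.OrdinaryAtP

open Arith (QBar GQ)

variable {A : ValuationSubring QBar}

theorem inertia_mem {τ : GQ} (hτ : τ ∈ A.inertiaSubgroupIn ℚ) {a : QBar} (ha : a ∈ A) :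
    τ a ∈ A :=
  Arith.map_mem_of_mem_decomposition (Arith.mem_inertia_iff_forall_mem.mp hτ).1 ha

variable {X : Type} [MulAction (A.inertiaSubgroupIn ℚ) X]
  (N : Subgroup (A.inertiaSubgroupIn ℚ)) [Fintype (A.inertiaSubgroupIn ℚ ⧸ N)]

/-- Commutes with inertia. -/
def IsEquiv (A : ValuationSubring QBar) {X : Type} [MulAction (A.inertiaSubgroupIn ℚ) X]
    (F : X → QBar) : Prop :=
  ∀ (σ : A.inertiaSubgroupIn ℚ) (x : X), F (σ • x) = (σ : GQ) (F x)

/-- The values are fixed by `N`. -/
def FixVal (F : X → QBar) : Prop := ∀ n ∈ N, ∀ x, (n : GQ) (F x) = F x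

/-- The sum of the conjugates. -/
def avg : (X → QBar) →+ (X → QBar) where
  toFun F x := ∑ q : A.inertiaSubgroupIn ℚ ⧸ N, (q.out : GQ) (F (q.out⁻¹ • x))
  map_zero' := funext fun x => by simp
  map_add' F G := funext fun x => by simp [Finset.sum_add_distrib]

theorem avg_apply (F : X → QBar) (x : X) :
    avg N F x = ∑ q : A.inertiaSubgroupIn ℚ ⧸ N, (q.out : GQ) (F (q.out⁻¹ • x)) := rfl

variable {N}

omit [Fintype (↥(ValuationSubring.inertiaSubgroupIn ℚ A) ⧸ N)] in
theorem term_mk {F : X → QBar} (hF : FixVal N F) (hX : ∀ n ∈ N, ∀ x : X, n • x = x)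
    (a : A.inertiaSubgroupIn ℚ) (x : X) :
    ((QuotientGroup.mk a : A.inertiaSubgroupIn ℚ ⧸ N).out : GQ)
        (F ((QuotientGroup.mk a : A.inertiaSubgroupIn ℚ ⧸ N).out⁻¹ • x)) =
      (a : GQ) (F (a⁻¹ • x)) := by
  obtain ⟨⟨n, hn⟩, hne⟩ := QuotientGroup.mk_out_eq_mul N a
  rw [hne]
  show ((a : GQ) * (n : GQ)) (F ((a * n)⁻¹ • x)) = _
  rw [mul_inv_rev, mul_smul, hX _ (inv_mem hn), AlgEquiv.mul_apply, hF n hn]

/-- The sum of the conjugates is equivariant. -/
theorem isEquiv_avg {F : X → QBar} (hF : FixVal N F) (hX : ∀ n ∈ N, ∀ x : X, n • x = x) :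
    IsEquiv A (avg N F) := by
  intro σ x
  rw [avg_apply, avg_apply, map_sum]
  refine (Fintype.sum_equiv (MulAction.toPerm σ) _ _ fun q => ?_).symm
  induction q using QuotientGroup.induction_on with
  | H a =>
    rw [MulAction.toPerm_apply, show σ • (QuotientGroup.mk a : A.inertiaSubgroupIn ℚ ⧸ N) =
      QuotientGroup.mk (σ * a) from rfl, term_mk hF hX, term_mk hF hX]
    show (σ : GQ) ((a : GQ) (F (a⁻¹ • x))) = ((σ : GQ) * (a : GQ)) (F ((σ * a)⁻¹ • σ • x))
    rw [mul_inv_rev, mul_smul, inv_smul_smul, AlgEquiv.mul_apply]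

theorem avg_of_isEquiv {F : X → QBar} (hF : IsEquiv A F) (x : X) :
    avg N F x = (Fintype.card (A.inertiaSubgroupIn ℚ ⧸ N) : QBar) * F x := by
  rw [avg_apply, Finset.sum_congr rfl fun q _ => by rw [← hF, smul_inv_smul]]
  simp

variable (N) in
/-- The trace of a number. -/
def trN (a : QBar) : QBar := ∑ q : A.inertiaSubgroupIn ℚ ⧸ N, (q.out : GQ) a

theorem avg_smul {r : X → QBar} (hr : IsEquiv A r) (a : QBar) : avg N (a • r) = trN N a • r := by
  funext x
  rw [avg_apply, Pi.smul_apply, smul_eq_mul, trN, Finset.sum_mul]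
  exact Finset.sum_congr rfl fun q _ => by
    rw [Pi.smul_apply, smul_eq_mul, map_mul, ← hr, smul_inv_smul]

theorem trN_mem {a : QBar} (ha : a ∈ A) (hfix : ∀ n ∈ N, (n : GQ) a = a) :
    trN N a ∈ fixRing A := by
  refine ⟨sum_mem fun q _ => inertia_mem q.out.2 ha, fun τ hτ => ?_⟩
  rw [trN, map_sum]
  refine Fintype.sum_equiv (MulAction.toPerm (⟨τ, hτ⟩ : A.inertiaSubgroupIn ℚ)) _ _ fun q => ?_
  induction q using QuotientGroup.induction_on with
  | H b =>
    have key : ∀ c : A.inertiaSubgroupIn ℚ,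
        ((QuotientGroup.mk c : A.inertiaSubgroupIn ℚ ⧸ N).out : GQ) a = (c : GQ) a := fun c => by
      obtain ⟨⟨n, hn⟩, hne⟩ := QuotientGroup.mk_out_eq_mul N c
      rw [hne]
      show ((c : GQ) * (n : GQ)) a = _
      rw [AlgEquiv.mul_apply, hfix n hn]
    rw [MulAction.toPerm_apply, show (⟨τ, hτ⟩ : A.inertiaSubgroupIn ℚ) •
      (QuotientGroup.mk b : A.inertiaSubgroupIn ℚ ⧸ N) =
      QuotientGroup.mk (⟨τ, hτ⟩ * b) from rfl, key, key]
    rfl

omit [Fintype (A.inertiaSubgroupIn ℚ ⧸ N)] in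
/-- An equivariant function has values fixed by `N` when `N` acts trivially on the points. -/
private theorem fixVal_of_isEquiv {F : X → QBar} (hX : ∀ n ∈ N, ∀ x : X, n • x = x)
    (hF : IsEquiv A F) : FixVal N F :=
  fun n hn x => by rw [← hF, hX n hn]

/-- In an algebra `S` of integral equivariant functions, the average of a fixed scalar times a
product of translates `f - f b` of elements of `S` lies in `S`. -/
private theorem avg_smul_prod_mem (hX : ∀ n ∈ N, ∀ x : X, n • x = x)
    (S : Subalgebra (fixRing A) (X → QBar)) (hSA : ∀ f ∈ S, ∀ x, f x ∈ A)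
    (hSe : ∀ f ∈ S, IsEquiv A f) {ι : Type*} (T : Finset ι) (f : ι → X → QBar) (b : ι → X)
    (hf : ∀ i ∈ T, f i ∈ S) :
    ∀ a ∈ A, (∀ n ∈ N, (n : GQ) a = a) → ∀ r ∈ S,
      avg N (a • (r * ∏ i ∈ T, fun y => f i y - f i (b i))) ∈ S := by
  classical
  induction T using Finset.induction with
  | empty =>
    intro a ha hfix r hr
    rw [Finset.prod_empty, mul_one, avg_smul (hSe r hr)]
    exact S.smul_mem hr ⟨_, trN_mem ha hfix⟩
  | insert j T hj ih =>
    intro a ha hfix r hr
    have hfj := hf j (Finset.mem_insert_self j T)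
    have ih' := ih fun i hi => hf i (Finset.mem_insert_of_mem hi)
    -- `a r (f - f b) = a (r f) - (a f b) r`
    have hleft := ih' a ha hfix (r * f j) (S.mul_mem hr hfj)
    have hright := ih' (a * f j (b j)) (mul_mem ha (hSA _ hfj _)) (fun n hn => by
      rw [map_mul, hfix n hn, fixVal_of_isEquiv hX (hSe _ hfj) n hn]) r hr
    have hdiff := S.sub_mem hleft hright
    rw [← map_sub] at hdiff
    rw [Finset.prod_insert hj]
    convert hdiff using 2
    funext y
    simp only [Pi.smul_apply, Pi.mul_apply, Pi.sub_apply, smul_eq_mul, Finset.prod_apply]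
    ring

/-- **Interpolation**: equivariant functions divisible by a high enough number lie in an algebra of
integral equivariant functions separating the points. -/
theorem mem_of_separated [Fintype X] (hX : ∀ n ∈ N, ∀ x : X, n • x = x)
    (S : Subalgebra (fixRing A) (X → QBar)) (hSA : ∀ f ∈ S, ∀ x, f x ∈ A)
    (hSe : ∀ f ∈ S, IsEquiv A f) {γ : QBar} (hγ : γ ≠ 0) (hγA : γ ∈ A)
    (hsep : ∀ x x', x ≠ x' → ∃ f ∈ S, ¬ DvdA A γ (f x - f x')) {F : X → QBar} (hF : IsEquiv A F)
    (hFv : ∀ x, DvdA A ((Fintype.card (A.inertiaSubgroupIn ℚ ⧸ N) : QBar) *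
      γ ^ Fintype.card X) (F x)) : F ∈ S := by
  classical
  have hfix := fun {f : X → QBar} (hf : IsEquiv A f) => fixVal_of_isEquiv (N := N) hX hf
  -- `f x x'` separates `x` from `x'`
  have hsep' : ∀ x x', ∃ f ∈ S, x ≠ x' → ¬ DvdA A γ (f x - f x') := fun x x' => by
    rcases eq_or_ne x x' with h | h
    · exact ⟨1, S.one_mem, absurd h⟩
    · obtain ⟨f, hfS, hfs⟩ := hsep x x' h
      exact ⟨f, hfS, fun _ => hfs⟩
  choose f hfS hfs using hsep'
  -- the Lagrange product `e x` vanishes away from `x`; `e x x` divides `γ ^ #X`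
  let e : X → X → QBar := fun x => ∏ x' ∈ Finset.univ.erase x, fun y => f x x' y - f x x' x'
  have he0 : ∀ x y, y ≠ x → e x y = 0 := fun x y hy => by
    simp only [e, Finset.prod_apply]
    exact Finset.prod_eq_zero (Finset.mem_erase.mpr ⟨hy, Finset.mem_univ y⟩) (sub_self _)
  have hne : ∀ x x', x ≠ x' → f x x' x - f x x' x' ≠ 0 := fun x x' hx h0 => hfs x x' hx (by
    show γ⁻¹ * (f x x' x - f x x' x') ∈ A
    rw [h0, mul_zero]; exact zero_mem A)
  have hex : ∀ x, e x x ≠ 0 ∧ γ ^ Fintype.card X * (e x x)⁻¹ ∈ A := by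
    intro x
    simp only [e, Finset.prod_apply]
    refine ⟨Finset.prod_ne_zero_iff.mpr fun x' hx' => hne _ _ (Finset.ne_of_mem_erase hx').symm,
      ?_⟩
    obtain ⟨d, hd⟩ := Nat.exists_eq_add_of_le (Finset.card_le_univ (Finset.univ.erase x))
    rw [hd, pow_add, ← Finset.prod_const, mul_right_comm, ← Finset.prod_inv_distrib,
      ← Finset.prod_mul_distrib]
    refine mul_mem (prod_mem fun x' hx' => ?_) (pow_mem hγA d)
    have := (A.mem_or_inv_mem (γ⁻¹ * (f x x' x - f x x' x'))).resolve_left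
      (hfs _ _ (Finset.ne_of_mem_erase hx').symm)
    rwa [mul_inv, inv_inv] at this
  set card : QBar := (Fintype.card (A.inertiaSubgroupIn ℚ ⧸ N) : QBar) with hcard
  have hc0 : card ≠ 0 := by rw [hcard]; exact_mod_cast Fintype.card_ne_zero
  -- the average of `card⁻¹ F x (e x x)⁻¹ e x` lies in `S`
  have hmem : ∀ x, avg N ((card⁻¹ * F x * (e x x)⁻¹) • e x) ∈ S := by
    intro x
    have hprod := avg_smul_prod_mem hX S hSA hSe (Finset.univ.erase x) (f x) id
      (fun x' _ => hfS x x') (card⁻¹ * F x * (e x x)⁻¹) ?_ (fun n hn => ?_) 1 S.one_mem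
    · rwa [one_mul] at hprod
    · have : card⁻¹ * F x * (e x x)⁻¹ = ((card * γ ^ Fintype.card X)⁻¹ * F x) *
          (γ ^ Fintype.card X * (e x x)⁻¹) := by
        have := pow_ne_zero (Fintype.card X) hγ
        field_simp
      rw [this]
      exact mul_mem (hFv x) (hex x).2
    · rw [map_mul, map_mul, map_inv₀, map_inv₀, hcard, map_natCast, hfix hF n hn]
      congr 2
      simp only [e, Finset.prod_apply, map_prod, map_sub]
      exact Finset.prod_congr rfl fun x' _ => by
        rw [hfix (hSe _ (hfS x x')) n hn, hfix (hSe _ (hfS x x')) n hn]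
  -- and these averages add up to `F`
  have hsum : avg N (∑ x, (card⁻¹ * F x * (e x x)⁻¹) • e x) = F := by
    have hsingle : (∑ x, (card⁻¹ * F x * (e x x)⁻¹) • e x) = card⁻¹ • F := by
      funext y
      rw [Finset.sum_apply, Finset.sum_eq_single y]
      · simp only [Pi.smul_apply, smul_eq_mul]
        rw [mul_assoc, inv_mul_cancel₀ (hex y).1, mul_one]
      · intro x _ hx
        rw [Pi.smul_apply, he0 x y hx.symm, smul_zero]
      · exact fun hy => absurd (Finset.mem_univ y) hy
    have hF' : IsEquiv A (card⁻¹ • F) := fun σ x => by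
      simp only [Pi.smul_apply, smul_eq_mul, map_mul, map_inv₀, hcard, map_natCast, hF σ x]
    rw [hsingle]
    funext y
    rw [avg_of_isEquiv hF', Pi.smul_apply, smul_eq_mul, ← hcard, ← mul_assoc,
      mul_inv_cancel₀ hc0, one_mul]
  rw [← hsum, map_sum]
  exact S.sum_mem fun x _ => hmem x

end Fermat.Agent.OrdinaryAtP

end
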