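import Fermat.Agent.JacTorsion.Kummer
import Fermat.Agent.Semistable.Spaces

/-!
# Classes with trivial reduction on both components

A `p`-torsion class of the Jacobian of level `p M` is flat if it has a Kummer function which is
integral for both Gauss valuations with both reductions equal to one.

The same classes occur under several names: "flat" and "with unit reductions" (`IsFlatClass`),
"with trivial gluing", "connected" and "with a Kummer function congruent to one" (`ConnClass`,
`Kummer`); `connClass_of_isFlatClass` passes from the first form to the second. They play the
part of the `p`-torsion of the connected part of a Néron model.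
-/

set_option autoImplicit false

noncomputable section

namespace Fermat.Agent.OrdinaryAtP

open AlgebraicCurve Semistable JacTorsion
open Arith (QBar GQ)

variable (A : ValuationSubring QBar) (M p : ℕ) [NeZero M] [Fact p.Prime] (hpM : ¬ p ∣ M)

/-- The function is integral at both Gauss valuations with both reductions one. -/
def HasUnitRed (f : FB (p * M)) : Prop :=
  ∃ h : f ∈ loc2 A (iota2 M p hpM), red2 A (iota2 M p hpM) ⟨f, h⟩ = 1

/-- The class has a Kummer function with both reductions one. -/
def IsFlatClass (y : Pic0 QBar (FB (p * M))) : Prop :=
  ∃ f : divGrp QBar (FB (p * M)) p, (toTorsion (Additive.ofMul f)).1 = y ∧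
    HasUnitRed A M p hpM ((f : (FB (p * M))ˣ) : FB (p * M))

end Fermat.Agent.OrdinaryAtP

end
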