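import Fermat.Agent.OrdinaryAtP.Quot
import Fermat.Agent.OrdinaryAtP.Approx

/-!
# Units congruent to one on the intersection of the charts

A combination congruent to one of fixed functions on the intersection is, to any precision, a
product of units on the two charts and `1 + ∑ cᵢ ηᵢ`, the coefficients lying in any ring of
functions of the parameters containing the data.
-/

set_option autoImplicit false

noncomputable section

namespace Fermat.Agent.OrdinaryAtP

open Semistable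
open Arith (QBar GQ)

variable {A : ValuationSubring QBar} {p M : ℕ} [NeZero M] [hp : Fact p.Prime]
  [FF.IsFunctionField (Res A) (KM A M)] (h : Setup A M p)
include h

/-- The integral functions on both charts fixed by `H`. -/
def ovFix (H : Subgroup GQ) : Submonoid (FB (p * M)) where
  carrier := {z | z ∈ Oh h ∧ FixBy H z ∧ ∃ k, z ∈ ovSp h 0 k}
  one_mem' := ⟨one_mem _, fun _ _ => map_one _, 0, (isChart_ov h).one_mem 0⟩
  mul_mem' := by
    rintro x y ⟨hx, hxf, k, hxk⟩ ⟨hy, hyf, l, hyl⟩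
    refine ⟨mul_mem hx hy, fun τ hτ => by rw [map_mul, hxf τ hτ, hyf τ hτ], k + l, ?_⟩
    have := mul_mem_ovSp h hxk hyl
    rwa [add_zero] at this

variable {g : ℕ} {η : Fin g → FB (p * M)} (hη : Completes h η)
include hη

omit hη [FF.IsFunctionField (Res A) (KM A M)] in
/-- Membership in a chart passes from constant generators to the algebra they generate. -/
private theorem mem_chart_of_mem_adjoin {Ω : Type} {R : Type*} [CommRing R]
    [Algebra R (Ω → FB (p * M))] (val : R → Ω → QBar)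
    (hmap : ∀ r ω, algebraMap R (Ω → FB (p * M)) r ω = algebraMap QBar (FB (p * M)) (val r ω))
    (hval : ∀ r ω, val r ω ∈ A) {V : ℕ → Submodule QBar (FB (p * M))} (hone : 1 ∈ V 0)
    (hmono : ∀ {k l : ℕ}, k ≤ l → V k ≤ V l)
    (hmul : ∀ {k l : ℕ} {x y : FB (p * M)}, x ∈ V k → y ∈ V l → x * y ∈ V (k + l))
    {G : Set (Ω → FB (p * M))} (hG : ∀ F ∈ G, ∀ ω, F ω ∈ Oh h ∧ ∃ k, F ω ∈ V k)
    {F : Ω → FB (p * M)} (hF : F ∈ Algebra.adjoin R G) (ω : Ω) :
    F ω ∈ Oh h ∧ ∃ k, F ω ∈ V k := by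
  induction hF using Algebra.adjoin_induction with
  | mem x hx => exact hG x hx ω
  | algebraMap r =>
    rw [hmap]
    refine ⟨algebraMap_mem_loc2 _ (hval r ω), 0, ?_⟩
    rw [Algebra.algebraMap_eq_smul_one]
    exact Submodule.smul_mem _ _ hone
  | add x y _ _ hx hy =>
    obtain ⟨k, hk⟩ := hx.2
    obtain ⟨l, hl⟩ := hy.2
    exact ⟨add_mem hx.1 hy.1, k + l, add_mem (hmono (Nat.le_add_right k l) hk)
      (hmono (Nat.le_add_left l k) hl)⟩
  | mul x y _ _ hx hy =>
    obtain ⟨k, hk⟩ := hx.2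
    obtain ⟨l, hl⟩ := hy.2
    exact ⟨mul_mem hx.1 hy.1, k + l, hmul hk hl⟩

omit [NeZero M] hp [FF.IsFunctionField (Res A) (KM A M)] h hη in
/-- The functions of the parameters divisible by `δ`. -/
private def dvdIdeal {Ω : Type} (R : Subring (Ω → QBar)) (hRA : ∀ r ∈ R, ∀ ω, r ω ∈ A) (δ : QBar) :
    Ideal R where
  carrier := {r | ∀ ω, DvdA A δ ((r : Ω → QBar) ω)}
  add_mem' := fun hr hs ω => DvdA.add (hr ω) (hs ω)
  zero_mem' := fun ω => by
    show δ⁻¹ * (0 : QBar) ∈ A
    rw [mul_zero]; exact zero_mem A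
  smul_mem' := fun r s hs ω => by
    show δ⁻¹ * ((r : Ω → QBar) ω * (s : Ω → QBar) ω) ∈ A
    rw [mul_left_comm]; exact mul_mem (hRA _ r.2 ω) (hs ω)

omit [NeZero M] hp [FF.IsFunctionField (Res A) (KM A M)] h hη in
/-- Powers of the ideal of multiples are multiples of the power. -/
private theorem dvdIdeal_pow_le {Ω : Type} (R : Subring (Ω → QBar))
    (hRA : ∀ r ∈ R, ∀ ω, r ω ∈ A) (ν : QBar) (n : ℕ) :
    dvdIdeal R hRA ν ^ n ≤ dvdIdeal R hRA (ν ^ n) := by
  induction n with
  | zero =>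
    intro r _ ω
    show (ν ^ 0)⁻¹ * (r : Ω → QBar) ω ∈ A
    rw [pow_zero, inv_one, one_mul]; exact hRA _ r.2 ω
  | succ n ih =>
    rw [pow_succ]
    refine Ideal.mul_le.mpr fun r hr s hs ω => ?_
    show (ν ^ (n + 1))⁻¹ * ((r : Ω → QBar) ω * (s : Ω → QBar) ω) ∈ A
    rw [pow_succ, mul_inv, mul_mul_mul_comm]
    exact mul_mem (ih hr ω) (hs ω)

omit hη [FF.IsFunctionField (Res A) ↥(KM A M)] in
/-- Generators of the first chart are integral functions on both charts. -/
private theorem mem_ovFix_of_mem_finGen {H : Subgroup GQ} (hH : H ≤ A.inertiaSubgroupIn ℚ)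
    {z : FB (p * M)} (hz : z ∈ finGen h) : z ∈ ovFix h H :=
  let ⟨m, hm⟩ := hz.2.2
  ⟨hz.1, fun τ hτ => hz.2.1 τ (hH hτ), m, fin_le_ovSp h 0 m hm⟩

omit hη [FF.IsFunctionField (Res A) ↥(KM A M)] in
/-- Generators of the chart at infinity are integral functions on both charts. -/
private theorem mem_ovFix_of_mem_infGen {H : Subgroup GQ} (hH : H ≤ A.inertiaSubgroupIn ℚ)
    {z : FB (p * M)} (hz : z ∈ infGen h) : z ∈ ovFix h H :=
  let ⟨m, hm⟩ := hz.2.2
  ⟨hz.1, fun τ hτ => hz.2.1 τ (hH hτ), m, infSp_le_ovSp h 0 m hm⟩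

omit [FF.IsFunctionField (Res A) ↥(KM A M)] in
/-- The completing functions are integral functions on both charts. -/
private theorem mem_ovFix_completes {H : Subgroup GQ} (hH : H ≤ A.inertiaSubgroupIn ℚ) (i : Fin g) :
    η i ∈ ovFix h H :=
  let ⟨m, hm⟩ := (hη.mem i).2.2
  ⟨(hη.mem i).1, fun τ hτ => (hη.mem i).2.1 τ (hH hτ), m, hm⟩

omit [FF.IsFunctionField (Res A) ↥(KM A M)] in
/-- The algebra of the functions on both charts is spanned by those of the two charts and the
completing functions, over a ring containing the constants fixed by `H`. -/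
private theorem exists_split_of_mem_adjoin {Ω : Type} {R : Type*} [CommRing R]
    [Algebra R (Ω → FB (p * M))] {H : Subgroup GQ} (hH : H ≤ A.inertiaSubgroupIn ℚ)
    (hconst : ∀ a ∈ A, (∀ τ ∈ H, τ a = a) →
      ∃ r : R, ∀ (F : Ω → FB (p * M)) (ω : Ω), (r • F) ω = a • F ω)
    {F : Ω → FB (p * M)}
    (hF : F ∈ Algebra.adjoin R
      (Pi.constMonoidHom Ω (FB (p * M)) '' (ovFix h H : Set (FB (p * M))))) :
    ∃ a ∈ Algebra.adjoin R (Pi.constMonoidHom Ω (FB (p * M)) '' finGen h),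
      ∃ b ∈ Algebra.adjoin R (Pi.constMonoidHom Ω (FB (p * M)) '' infGen h),
        ∃ d : Fin g → R, F = a + b + ∑ i, d i • Pi.constMonoidHom Ω (FB (p * M)) (η i) := by
  let cst := Pi.constMonoidHom Ω (FB (p * M))
  let P : Subalgebra R (Ω → FB (p * M)) := Algebra.adjoin R (cst '' finGen h)
  let Q : Subalgebra R (Ω → FB (p * M)) := Algebra.adjoin R (cst '' infGen h)
  let T : Subalgebra R (Ω → FB (p * M)) :=
    Algebra.adjoin R (cst '' (ovFix h H : Set (FB (p * M))))
  -- The algebra is spanned by the fixed functions themselves.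
  have hF' : F ∈ Submodule.span R (cst '' (ovFix h H : Set (FB (p * M)))) := by
    have h1 : F ∈ Subalgebra.toSubmodule T := hF
    rw [Algebra.adjoin_eq_span, ← Submonoid.coe_map, Submonoid.closure_eq] at h1
    exact h1
  clear hF
  induction hF' using Submodule.span_induction with
  | mem x hx =>
    obtain ⟨z, hz, rfl⟩ := hx
    obtain ⟨hzO, hzf, k, hzk⟩ := hz
    -- Each of these splits by the completing family.
    obtain ⟨m, e', a, he', ha, -, hz'⟩ := hη.split H hH z hzO hzf k hzk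
    let S : Submodule R (Ω → FB (p * M)) :=
      Subalgebra.toSubmodule P ⊔ Subalgebra.toSubmodule Q ⊔
        Submodule.span R (Set.range fun i => cst (η i))
    have hS : cst z ∈ S := by
      choose r hr using fun i => hconst _ (ha i).1 (ha i).2
      have ez : cst z = ∑ i, r i • cst (e' i) := by
        funext ω
        rw [Finset.sum_apply]
        simp only [hr]
        exact hz'
      rw [ez]
      refine sum_mem fun i _ => S.smul_mem _ ?_
      rcases he' i with h1 | h1 | ⟨j, hj⟩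
      · exact Submodule.mem_sup_left (Submodule.mem_sup_left
          (Algebra.subset_adjoin ⟨_, h1, rfl⟩))
      · exact Submodule.mem_sup_left (Submodule.mem_sup_right
          (Algebra.subset_adjoin ⟨_, h1, rfl⟩))
      · exact Submodule.mem_sup_right (Submodule.subset_span ⟨j, by rw [← hj]⟩)
    obtain ⟨u, hu, w, hw, huw⟩ := Submodule.mem_sup.mp hS
    obtain ⟨P', hP', Q', hQ', huv⟩ := Submodule.mem_sup.mp hu
    obtain ⟨d, hd⟩ := (Submodule.mem_span_range_iff_exists_fun R).mp hw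
    exact ⟨P', hP', Q', hQ', d, by rw [← huw, ← huv, hd]⟩
  | zero =>
    refine ⟨0, zero_mem P, 0, zero_mem Q, 0, ?_⟩
    funext ω
    simp only [Pi.add_apply, Pi.zero_apply, zero_add,
      zero_smul, Finset.sum_const_zero]
  | add x y _ _ hx hy =>
    obtain ⟨a, ha, b, hb, d, rfl⟩ := hx
    obtain ⟨a', ha', b', hb', d', rfl⟩ := hy
    exact ⟨a + a', add_mem ha ha', b + b', add_mem hb hb', d + d', by
      simp only [Pi.add_apply, add_smul, Finset.sum_add_distrib]; abel⟩
  | smul r x _ hx =>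
    obtain ⟨a, ha, b, hb, d, rfl⟩ := hx
    exact ⟨r • a, P.smul_mem ha r, r • b, Q.smul_mem hb r, fun i => r * d i, by
      simp only [smul_add, Finset.smul_sum, smul_smul]⟩

omit [FF.IsFunctionField (Res A) ↥(KM A M)] in
/-- `1` plus a combination, with coefficients divisible by `ν`, of functions on both charts is, to
any precision, a product of units on the two charts and a linear unit in the completing
functions. -/
theorem exists_chart_approx {Ω κ : Type} [Fintype κ] {H : Subgroup GQ}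
    (hH : H ≤ A.inertiaSubgroupIn ℚ) (R : Subring (Ω → QBar)) (hRA : ∀ r ∈ R, ∀ ω, r ω ∈ A)
    (hconst : ∀ a ∈ A, (∀ τ ∈ H, τ a = a) → (fun _ => a) ∈ R) {ν : QBar} (hν0 : ν ≠ 0)
    (hνn : ν ∈ A.nonunits) (ρ : κ → Ω → QBar) (hρR : ∀ j, ρ j ∈ R)
    (hρν : ∀ j ω, DvdA A ν (ρ j ω)) (e : κ → FB (p * M)) (he : ∀ j, e j ∈ ovFix h H) (N : ℕ) :
    ∃ (c : Fin g → Ω → QBar) (α β : Ω → FB (p * M)),
      (∀ i, c i ∈ R ∧ ∀ ω, DvdA A ν (c i ω)) ∧
      (∀ ω, IsOne h (α ω) ∧ ∃ k, α ω ∈ HD M p 0 k) ∧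
      (∀ ω, IsOne h (β ω) ∧ ∃ k, β ω ∈ infSp h 0 k) ∧
      ∀ ω, (1 + ∑ j, ρ j ω • e j) - α ω * β ω * linUnit η (fun i => c i ω) ∈
        small A (iota2 M p h.hqM) (ν ^ (N + 1)) := by
  classical
  -- functions of the parameters with values in the function field, an algebra over `R`
  let inst : Algebra R (Ω → FB (p * M)) := (RingHom.pi fun ω => (algebraMap QBar (FB (p * M))).comp
    ((Pi.evalRingHom (fun _ => QBar) ω).comp R.subtype)).toAlgebra
  let iD : Module R (Ω → FB (p * M)) := inst.toModule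
  let iM : MulAction R (Ω → FB (p * M)) := iD.toDistribMulAction.toMulAction
  let iA : DistribMulAction R (Ω → FB (p * M)) := iD.toDistribMulAction
  let iS : SMul R (Ω → FB (p * M)) := inst.toSMul
  let iT : IsScalarTower R R (Ω → FB (p * M)) := IsScalarTower.left R
  have hsmul : ∀ (r : R) (F : Ω → FB (p * M)) (ω : Ω),
      (r • F) ω = (r : Ω → QBar) ω • F ω := fun r F ω =>
    (Algebra.smul_def ((r : Ω → QBar) ω) (F ω)).symm
  have hamap : ∀ (r : R) (ω : Ω), algebraMap R (Ω → FB (p * M)) r ω =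
      algebraMap QBar (FB (p * M)) ((r : Ω → QBar) ω) := fun r ω => rfl
  let cst := Pi.constMonoidHom Ω (FB (p * M))
  -- `P`, `Q` the functions on the two charts and `T` those on the intersection,
  -- `T = P + Q + ∑ R ηᵢ`
  let P : Subalgebra R (Ω → FB (p * M)) := Algebra.adjoin R (cst '' finGen h)
  let Q : Subalgebra R (Ω → FB (p * M)) := Algebra.adjoin R (cst '' infGen h)
  let T : Subalgebra R (Ω → FB (p * M)) :=
    Algebra.adjoin R (cst '' (ovFix h H : Set (FB (p * M))))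
  have hmemP : ∀ F ∈ P, ∀ ω, F ω ∈ Oh h ∧ ∃ k, F ω ∈ HD M p 0 k := fun F hF =>
    mem_chart_of_mem_adjoin h (fun (r : R) => (r : Ω → QBar)) hamap (fun r => hRA _ r.2)
      (isChart_fin.one_mem 0) (fun hkl => HD_mono 0 hkl)
      (fun hk hl => by simpa using mul_mem_HD hk hl)
      (by rintro _ ⟨z, hz, rfl⟩; exact fun ω => ⟨hz.1, hz.2.2⟩) hF
  have hmemQ : ∀ F ∈ Q, ∀ ω, F ω ∈ Oh h ∧ ∃ k, F ω ∈ infSp h 0 k := fun F hF =>
    mem_chart_of_mem_adjoin h (fun (r : R) => (r : Ω → QBar)) hamap (fun r => hRA _ r.2)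
      ((isChart_inf h).one_mem 0) (fun hkl => infSp_mono h 0 hkl)
      (fun hk hl => by simpa using mul_mem_infSp h hk hl)
      (by rintro _ ⟨z, hz, rfl⟩; exact fun ω => ⟨hz.1, hz.2.2⟩) hF
  have hmemT : ∀ F ∈ T, ∀ ω, F ω ∈ Oh h := by
    intro F hF
    induction hF using Algebra.adjoin_induction with
    | mem x hx => obtain ⟨z, hz, rfl⟩ := hx; exact fun ω => hz.1
    | algebraMap r => intro ω; rw [hamap]; exact algebraMap_mem_loc2 _ (hRA _ r.2 ω)
    | add x y _ _ hx hy => exact fun ω => add_mem (hx ω) (hy ω)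
    | mul x y _ _ hx hy => exact fun ω => mul_mem (hx ω) (hy ω)
  have hT : ∀ F ∈ T, ∃ a ∈ P, ∃ b ∈ Q, ∃ d : Fin g → R,
      F = a + b + ∑ i, d i • cst (η i) := fun F hF =>
    exists_split_of_mem_adjoin (Ω := Ω) (R := R) h hη hH
      (fun a ha hfix => ⟨⟨_, hconst a ha hfix⟩, fun F ω => hsmul _ F ω⟩) hF
  let J : QBar → Ideal R := dvdIdeal R hRA
  have hsmall : ∀ {δ : QBar} {U : Subalgebra R (Ω → FB (p * M))} {F : Ω → FB (p * M)},
      (∀ F ∈ U, ∀ ω, F ω ∈ Oh h) → F ∈ J δ • Subalgebra.toSubmodule U →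
      ∀ ω, F ω ∈ small A (iota2 M p h.hqM) δ := by
    intro δ U F hU hF ω
    refine Submodule.smul_induction_on hF (fun r hr y hy => ?_) fun x y hx hy => ?_
    · rw [hsmul]; exact smul_mem_small (hr ω) (hU y hy ω)
    · exact add_mem hx hy
  -- approximate `E` modulo the powers of the ideal of `ν`, then evaluate at each parameter
  set E : Ω → FB (p * M) := 1 + ∑ j, (⟨ρ j, hρR j⟩ : R) • cst (e j) with hE
  obtain ⟨c, hc, α, β, hα, hβ, hres⟩ := exists_approx (R := R) T P Q (fun i => cst (η i))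
    (Algebra.adjoin_mono (Set.image_mono fun z hz => mem_ovFix_of_mem_finGen h hH hz))
    (Algebra.adjoin_mono (Set.image_mono fun z hz => mem_ovFix_of_mem_infGen h hH hz))
    (fun i => Algebra.subset_adjoin ⟨_, mem_ovFix_completes h hη hH i, rfl⟩) hT (J ν) (E := E) (by
      rw [hE, add_sub_cancel_left]
      exact sum_mem fun j _ => Submodule.smul_mem_smul (hρν j)
        (Algebra.subset_adjoin ⟨_, he j, rfl⟩)) N
  have hone : ∀ {U : Subalgebra R (Ω → FB (p * M))} {F : Ω → FB (p * M)},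
      (∀ F ∈ U, ∀ ω, F ω ∈ Oh h) → F - 1 ∈ J ν • Subalgebra.toSubmodule U →
      ∀ ω, IsOne h (F ω) := fun {U F} hU hF ω =>
    (isOne_one h).of_sub_small h hν0 hνn (hsmall hU hF ω)
  have hmem : ∀ {U : Subalgebra R (Ω → FB (p * M))} {F : Ω → FB (p * M)},
      F - 1 ∈ J ν • Subalgebra.toSubmodule U → F ∈ U := fun {U F} hF => by
    have := U.add_mem ((Submodule.smul_le_right :
      J ν • Subalgebra.toSubmodule U ≤ Subalgebra.toSubmodule U) hF) U.one_mem
    rwa [sub_add_cancel] at this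
  refine ⟨fun i => (c i : Ω → QBar), α, β, fun i => ⟨(c i).2, hc i⟩,
    fun ω => ⟨hone (fun F hF ω => (hmemP F hF ω).1) hα ω, (hmemP α (hmem hα) ω).2⟩,
    fun ω => ⟨hone (fun F hF ω => (hmemQ F hF ω).1) hβ ω, (hmemQ β (hmem hβ) ω).2⟩,
    fun ω => ?_⟩
  have hfin := hsmall hmemT (Submodule.smul_mono_left (dvdIdeal_pow_le R hRA ν (N + 1)) hres) ω
  simp only [hE, Pi.sub_apply, Pi.add_apply, Pi.mul_apply, Pi.one_apply, Finset.sum_apply, hsmul,
    linUnit] at hfin
  exact hfin

end Fermat.Agent.OrdinaryAtP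

end
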