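import Fermat.Agent.Semistable.Spaces

/-!
# Congruences in the ring of functions integral at the Gauss valuations

`small A ι γ` consists of the functions `z` with `γ⁻¹ z` integral. A finite family of integral
functions with independent reductions reads off the divisibility of a combination from its
coefficients.
-/

set_option autoImplicit false

noncomputable section

namespace Fermat.Agent.OrdinaryAtP

open Semistable
open Arith (QBar)

variable (A : ValuationSubring QBar) {F : Type*} [Field F] [Algebra QBar F] {S : Type*}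
  (ι : S → (F →ₐ[QBar] LSer))

/-- The functions divisible by `γ`. -/
def small (γ : QBar) : AddSubgroup F :=
  (loc2 A ι).toAddSubgroup.comap (DistribSMul.toAddMonoidHom F γ⁻¹)

variable {A ι}

/-- A function is divisible by `γ` iff `γ⁻¹` times it is integral. -/
theorem mem_small {γ : QBar} {z : F} : z ∈ small A ι γ ↔ γ⁻¹ • z ∈ loc2 A ι := Iff.rfl

/-- Integral functions are stable under integral scalars. -/
theorem smul_mem_loc2 {a : QBar} (ha : a ∈ A) {z : F} (hz : z ∈ loc2 A ι) :
    a • z ∈ loc2 A ι := by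
  rw [Algebra.smul_def]
  exact mul_mem (algebraMap_mem_loc2 ι ha) hz

theorem mem_small_one {z : F} : z ∈ small A ι 1 ↔ z ∈ loc2 A ι := by
  rw [mem_small, inv_one, one_smul]

/-- A product is divisible by the product of the divisors. -/
theorem mul_mem_small {γ δ : QBar} {z w : F} (hz : z ∈ small A ι γ) (hw : w ∈ small A ι δ) :
    z * w ∈ small A ι (γ * δ) := by
  rw [mem_small, mul_inv, ← smul_mul_smul_comm]
  exact mul_mem hz hw

theorem mul_right_mem_small {γ : QBar} {z w : F} (hz : z ∈ small A ι γ) (hw : w ∈ loc2 A ι) :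
    z * w ∈ small A ι γ := by
  have := mul_mem_small hz (mem_small_one.mpr hw)
  rwa [mul_one] at this

/-- Integral multiples of functions divisible by `γ` are divisible by `γ`. -/
theorem mul_left_mem_small {γ : QBar} {z w : F} (hw : w ∈ loc2 A ι) (hz : z ∈ small A ι γ) :
    w * z ∈ small A ι γ := by
  rw [mul_comm]; exact mul_right_mem_small hz hw

/-- A scalar divisible by `γ` times an integral function is divisible by `γ`. -/
theorem smul_mem_small {γ c : QBar} {z : F} (hc : γ⁻¹ * c ∈ A) (hz : z ∈ loc2 A ι) :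
    c • z ∈ small A ι γ := by
  rw [mem_small, smul_smul]
  exact smul_mem_loc2 hc hz

/-- Divisibility by `δ` implies divisibility by a divisor `γ` of `δ`. -/
theorem small_mono {γ δ : QBar} (hδ : δ ≠ 0) (h : γ⁻¹ * δ ∈ A) {z : F} (hz : z ∈ small A ι δ) :
    z ∈ small A ι γ := by
  have : δ • (δ⁻¹ • z) ∈ small A ι γ := smul_mem_small (ι := ι) h hz
  rwa [smul_smul, mul_inv_cancel₀ hδ, one_smul] at this

theorem mem_loc2_of_small {γ : QBar} (hγ : γ ≠ 0) (hγA : γ ∈ A) {z : F}
    (hz : z ∈ small A ι γ) : z ∈ loc2 A ι :=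
  mem_small_one.mp (small_mono hγ (by rwa [inv_one, one_mul]) hz)

/-- Reduction of integral functions is semilinear for the residue map. -/
theorem red2_smul {a : QBar} (ha : a ∈ A) (z : loc2 A ι) :
    red2 A ι ⟨a • (z : F), smul_mem_loc2 ha z.2⟩ =
      IsLocalRing.residue A ⟨a, ha⟩ • red2 A ι z := by
  have e : (⟨a • (z : F), smul_mem_loc2 ha z.2⟩ : loc2 A ι) =
      ⟨_, algebraMap_mem_loc2 ι ha⟩ * z := Subtype.ext (Algebra.smul_def a (z : F))
  funext s
  rw [e, map_mul, Pi.mul_apply, Pi.smul_apply, Igusa.hsmul_eq]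
  exact congrArg (· * _) (red2_const ι (c := ⟨a, ha⟩) s)

/-- A multiple by a nonunit reduces to zero. -/
theorem red2_eq_zero_of_small {γ : QBar} (hγ : γ ≠ 0) (hγn : γ ∈ A.nonunits) {z : loc2 A ι}
    (hz : (z : F) ∈ small A ι γ) : red2 A ι z = 0 := by
  have hγA := Arith.mem_of_mem_nonunits hγn
  have e : z = ⟨γ • (γ⁻¹ • (z : F)), smul_mem_loc2 hγA hz⟩ :=
    Subtype.ext (show (z : F) = γ • (γ⁻¹ • (z : F)) by rw [smul_smul, mul_inv_cancel₀ hγ, one_smul])
  rw [e]
  refine (red2_smul (ι := ι) hγA ⟨γ⁻¹ • (z : F), hz⟩).trans ?_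
  rw [(residue_eq_zero_iff hγA).mpr hγn, zero_smul]

theorem red2_eq_of_small {γ : QBar} (hγ : γ ≠ 0) (hγn : γ ∈ A.nonunits) {x y : loc2 A ι}
    (h : (x : F) - y ∈ small A ι γ) : red2 A ι x = red2 A ι y := by
  rw [← sub_eq_zero, ← map_sub]
  exact red2_eq_zero_of_small hγ hγn h

section Coords

variable {κ : Type*} [Fintype κ] {w : κ → loc2 A ι}

/-- Coefficients of an integral combination of a family with independent reductions are integral. -/
theorem coords_mem (hw : LinearIndependent (Res A) fun k => red2 A ι (w k)) {c : κ → QBar}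
    (h : ∑ k, c k • (w k : F) ∈ loc2 A ι) (k : κ) : c k ∈ A := by
  classical
  have : Nonempty κ := ⟨k⟩
  obtain ⟨m, -, hm⟩ := Finset.exists_max_image Finset.univ (fun i => A.valuation (c i))
    Finset.univ_nonempty
  by_contra hk
  have hcm : ¬ A.valuation (c m) ≤ 1 := fun h1 =>
    hk ((A.valuation_le_one_iff _).mp ((hm k (Finset.mem_univ k)).trans h1))
  have hcm0 : c m ≠ 0 := fun h0 => hcm (by rw [h0, map_zero]; exact zero_le)
  have hpos : (0 : A.ValueGroup) < A.valuation (c m) :=
    zero_lt_iff.mpr ((Valuation.ne_zero_iff _).mpr hcm0)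
  have ha : ∀ i, c i / c m ∈ A := fun i => (A.valuation_le_one_iff _).mp (by
    rw [map_div₀, div_le_one₀ hpos]; exact hm i (Finset.mem_univ i))
  let Z : loc2 A ι := ⟨_, h⟩
  have hinv : (c m)⁻¹ ∈ A.nonunits := by
    rw [ValuationSubring.mem_nonunits_iff, map_inv₀]
    exact inv_lt_one_of_one_lt₀ (not_le.mp hcm)
  have e : (∑ i, ⟨(c i / c m) • (w i : F), smul_mem_loc2 (ha i) (w i).2⟩ : loc2 A ι) =
      ⟨(c m)⁻¹ • (Z : F), smul_mem_loc2 (Arith.mem_of_mem_nonunits hinv) Z.2⟩ := by
    refine Subtype.ext ?_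
    simp only [AddSubmonoidClass.coe_finsetSum, Z, Finset.smul_sum, smul_smul]
    exact Finset.sum_congr rfl fun i _ => by rw [div_eq_inv_mul]
  have h1 := congrArg (red2 A ι) e
  have hzero : red2 A ι ⟨(c m)⁻¹ • (Z : F), smul_mem_loc2 (Arith.mem_of_mem_nonunits hinv) Z.2⟩ =
      0 := by
    rw [red2_smul (Arith.mem_of_mem_nonunits hinv) Z,
      (residue_eq_zero_iff (Arith.mem_of_mem_nonunits hinv)).mpr hinv,
        zero_smul]
  rw [map_sum, hzero] at h1
  simp only [red2_smul (ha _)] at h1
  have h2 := Fintype.linearIndependent_iff.mp hw _ h1 m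
  have h3 : (⟨c m / c m, ha m⟩ : A) = 1 := Subtype.ext (div_self hcm0)
  rw [h3, map_one] at h2
  exact one_ne_zero h2

/-- With independent reductions, a combination divisible by `γ` has coefficients divisible by it. -/
theorem coords_small (hw : LinearIndependent (Res A) fun k => red2 A ι (w k)) {γ : QBar}
    {c : κ → QBar} (h : ∑ k, c k • (w k : F) ∈ small A ι γ) (k : κ) : γ⁻¹ * c k ∈ A := by
  refine coords_mem hw (c := fun k => γ⁻¹ * c k) ?_ k
  simp only [mul_smul, ← Finset.smul_sum]
  exact h

theorem coords_eq_zero (hw : LinearIndependent (Res A) fun k => red2 A ι (w k))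
    {c : κ → QBar} (h : ∑ k, c k • (w k : F) = 0) (k : κ) : c k = 0 := by
  by_contra hk
  have hall : ∀ (d : QBar) (i : κ), d * c i ∈ A := fun d i =>
    coords_mem hw (c := fun i => d * c i) (by
      simp only [mul_smul, ← Finset.smul_sum, h, smul_zero]
      exact zero_mem _) i
  have hc : ∀ i, (c k)⁻¹ * c i ∈ A := hall _
  have e : (∑ i, ⟨((c k)⁻¹ * c i) • (w i : F), smul_mem_loc2 (hc i) (w i).2⟩ : loc2 A ι) = 0 :=
    Subtype.ext (by
      simp only [AddSubmonoidClass.coe_finsetSum, mul_smul, ← Finset.smul_sum, h, smul_zero,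
        ZeroMemClass.coe_zero])
  have h2 := congrArg (red2 A ι) e
  rw [map_sum, map_zero] at h2
  simp only [red2_smul (hc _)] at h2
  have h3 := Fintype.linearIndependent_iff.mp hw _ h2 k
  have h4 : (⟨(c k)⁻¹ * c k, hc k⟩ : A) = 1 := Subtype.ext (inv_mul_cancel₀ hk)
  rw [h4, map_one] at h3
  exact one_ne_zero h3

/-- A family with independent reductions and as many members as the dimension spans. -/
theorem span_eq_of_card (hw : LinearIndependent (Res A) fun k => red2 A ι (w k))
    (V : Submodule QBar F) [FiniteDimensional QBar V] (hV : ∀ k, (w k : F) ∈ V)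
    (hcard : Module.finrank QBar V ≤ Fintype.card κ) :
    Submodule.span QBar (Set.range fun k => (w k : F)) = V := by
  have hli : LinearIndependent QBar fun k => (w k : F) :=
    Fintype.linearIndependent_iff.mpr fun c h => coords_eq_zero hw h
  exact Submodule.eq_of_le_of_finrank_le (Submodule.span_le.mpr (by rintro _ ⟨k, rfl⟩; exact hV k))
    (by rwa [finrank_span_eq_card hli])

end Coords

end Fermat.Agent.OrdinaryAtP

end
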