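import Fermat.Agent.RT.Mazur.Poles
import Fermat.Agent.OrdinaryAtP.Lattice

/-!
# The two charts of level `p M`

For the powers `J ^ k` of the `j`-function of level `M`, the spaces `L(k ∞ + D)` and
`J ^ (-k) L(k ∞ + D)` of functions regular on either chart, and the space `J ^ (-k) L(2 k ∞ + D)`
of functions regular on their intersection.  For `D = 0` and large bounds, after reduction the
sum of the first two meets a bounded piece of the third only in the bounded pieces
(`exists_indep`).
-/

set_option autoImplicit false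

noncomputable section

namespace Fermat.Agent.OrdinaryAtP

open ModularCurve AlgebraicCurve Semistable RT.Mazur
open Arith (QBar)

variable {A : ValuationSubring QBar} {p : ℕ} [hp : Fact p.Prime]
  {M : ℕ} [NeZero M] (h : Setup A M p)

variable (M p) in
/-- The `j`-function of level `M`. -/
def jF : FB (p * M) := upF M p (jM M)

include h

/-- The integral functions of level `p M`. -/
abbrev Oh : Subring (FB (p * M)) := loc2 A (iota2 M p h.hqM)

/-- The reductions. -/
abbrev redh : Oh h →+* (Fin 2 → LaurentSeries (Res A)) := red2 A (iota2 M p h.hqM)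

/-- The `j`-function as an integral function. -/
def jO : Oh h := upParam M h.hqM ⟨jM M, jM_mem M⟩

/-- Its inverse as an integral function. -/
def jOi : Oh h := upParam M h.hqM ⟨(jM M)⁻¹, jM_inv_mem M⟩

theorem coe_jO : (jO h : FB (p * M)) = jF p M := rfl

/-- `jOi` is the inverse of `jF`. -/
theorem coe_jOi : (jOi h : FB (p * M)) = (jF p M)⁻¹ := map_inv₀ (upF M p) (jM M)

omit h in
/-- The `j`-function of level `M` is nonzero at level `p M`. -/
theorem jF_ne_zero : jF p M ≠ 0 := by
  intro h0
  refine transcendental_upF_jM M p ?_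
  show IsAlgebraic QBar (jF p M)
  rw [h0]; exact isAlgebraic_zero

theorem jO_mul_jOi : jO h * jOi h = 1 :=
  Subtype.ext (by rw [Subring.coe_mul, coe_jO, coe_jOi, mul_inv_cancel₀ (jF_ne_zero)]; rfl)

/-- The powers of `j` reduce to the powers of the reduced `j`. -/
theorem redh_jO_pow (k : ℕ) : redh h (jO h ^ k) = jPow A p k := by
  have e : redh h (jO h) = ![jqModC (Res A), qExpand (Res A) p (jqModC (Res A))] :=
    (red2_upF M p h.hqM ⟨jM M, jM_mem M⟩).trans (by rw [red1_jM])
  rw [map_pow, e]
  funext s; fin_cases s <;> simp [jPow]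

/-- The reductions of the powers of `j` and of its inverse are inverse to each other. -/
theorem jPow_mul_redh_jOi_pow (k : ℕ) : jPow A p k * redh h (jOi h ^ k) = 1 := by
  rw [← redh_jO_pow h k, ← map_mul, ← mul_pow, jO_mul_jOi, one_pow, map_one]

omit h in
/-- Multiplication by a power of the reduced `j` is cancellable. -/
theorem jPow_cancel {k : ℕ} {a b : Fin 2 → LaurentSeries (Res A)}
    (e : jPow A p k * a = jPow A p k * b) : a = b :=
  funext fun s => mul_left_cancel₀ (jPow_ne_zero k s) (congrFun e s)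

/-- The functions regular on the chart containing `∞`, bounded. -/
def infSp (_h : Setup A M p) (D : Divisor QBar (FB (p * M))) (k : ℕ) :
    Submodule QBar (FB (p * M)) :=
  (HD M p D k).comap (LinearMap.mulLeft QBar (jF p M ^ k))

/-- The functions regular on both charts, bounded. -/
def ovSp (_h : Setup A M p) (D : Divisor QBar (FB (p * M))) (k : ℕ) : Submodule QBar (FB (p * M)) :=
  (HD M p D (k + k)).comap (LinearMap.mulLeft QBar (jF p M ^ k))

/-- A function is in the bounded space at infinity iff `j ^ k` times it is in the finite one. -/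
theorem mem_infSp {D : Divisor QBar (FB (p * M))} {k : ℕ} {z : FB (p * M)} :
    z ∈ infSp h D k ↔ jF p M ^ k * z ∈ HD M p D k := Iff.rfl

/-- A function is in the space of both charts iff `j ^ k` times it is in that of the finite one. -/
theorem mem_ovSp {D : Divisor QBar (FB (p * M))} {k : ℕ} {z : FB (p * M)} :
    z ∈ ovSp h D k ↔ jF p M ^ k * z ∈ HD M p D (k + k) := Iff.rfl

omit h in
/-- `j ^ k` is regular on the finite chart with pole order at most `k`. -/
theorem jF_pow_mem (k : ℕ) : jF p M ^ k ∈ HD M p 0 k := by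
  rw [HD_zero]
  induction k with
  | zero => rw [pow_zero]; exact one_mem_polesSpace _ _
  | succ k ih =>
    rw [pow_succ]
    refine mul_mem_polesSpace ih ?_
    rw [RedTorsion.mem_polesSpace]
    intro v
    refine FF.mem_ordGe_of_le v ?_
    show _ ≤ v.ord (upF M p (jM M))
    rw [FF.poles_apply, Nat.cast_one, one_mul]
    omega

omit h in
theorem jF_pow_mul_mem {D : Divisor QBar (FB (p * M))} {k m : ℕ} {z : FB (p * M)}
    (hz : z ∈ HD M p D k) : jF p M ^ m * z ∈ HD M p D (m + k) := by
  have := mul_mem_HD (jF_pow_mem m) hz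
  rwa [zero_add] at this

/-- The bounded space of the finite chart lies in that of both charts. -/
theorem fin_le_ovSp (D : Divisor QBar (FB (p * M))) (k : ℕ) : HD M p D k ≤ ovSp h D k :=
  fun _ hz => jF_pow_mul_mem hz

/-- The bounded space of the chart at infinity lies in that of both charts. -/
theorem infSp_le_ovSp (D : Divisor QBar (FB (p * M))) (k : ℕ) : infSp h D k ≤ ovSp h D k :=
  fun _ hz => HD_mono D (Nat.le_add_left k k) hz

/-- The spaces at infinity increase with the bound. -/
theorem infSp_mono (D : Divisor QBar (FB (p * M))) {a b : ℕ} (hab : a ≤ b) :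
    infSp h D a ≤ infSp h D b := by
  intro z hz
  obtain ⟨m, rfl⟩ := Nat.exists_eq_add_of_le hab
  show jF p M ^ (a + m) * z ∈ HD M p D (a + m)
  rw [pow_add, mul_comm (jF p M ^ a), mul_assoc, add_comm a m]
  exact jF_pow_mul_mem hz

/-- The spaces on the intersection increase with the bound. -/
theorem ovSp_mono (D : Divisor QBar (FB (p * M))) {a b : ℕ} (hab : a ≤ b) :
    ovSp h D a ≤ ovSp h D b := by
  intro z hz
  obtain ⟨m, rfl⟩ := Nat.exists_eq_add_of_le hab
  show jF p M ^ (a + m) * z ∈ HD M p D _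
  rw [pow_add, mul_comm (jF p M ^ a), mul_assoc]
  exact HD_mono D (by omega) (jF_pow_mul_mem hz)

/-- The spaces at infinity are multiplicative. -/
theorem mul_mem_infSp {D D' : Divisor QBar (FB (p * M))} {a b : ℕ} {x y : FB (p * M)}
    (hx : x ∈ infSp h D a) (hy : y ∈ infSp h D' b) : x * y ∈ infSp h (D + D') (a + b) := by
  rw [mem_infSp] at hx hy ⊢
  rw [pow_add, mul_mul_mul_comm]
  exact mul_mem_HD hx hy

/-- Products of functions regular on both charts add the bounds. -/
theorem mul_mem_ovSp {D D' : Divisor QBar (FB (p * M))} {a b : ℕ} {x y : FB (p * M)}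
    (hx : x ∈ ovSp h D a) (hy : y ∈ ovSp h D' b) : x * y ∈ ovSp h (D + D') (a + b) := by
  rw [mem_ovSp] at hx hy ⊢
  rw [pow_add, mul_mul_mul_comm, show a + b + (a + b) = (a + a) + (b + b) by omega]
  exact mul_mem_HD hx hy

omit h in
/-- `1` lies in every space of the finite chart. -/
theorem one_mem_HD (k : ℕ) : (1 : FB (p * M)) ∈ HD M p 0 k := by
  rw [HD_zero]; exact one_mem_polesSpace _ _

/-- `1` lies in every space at infinity. -/
theorem one_mem_infSp (k : ℕ) : (1 : FB (p * M)) ∈ infSp h 0 k := by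
  rw [mem_infSp, mul_one]; exact jF_pow_mem k

/-- The space on both charts is finite dimensional, at most as big as the bounded functions. -/
theorem finrank_ovSp_le (D : Divisor QBar (FB (p * M))) (k : ℕ) :
    FiniteDimensional QBar (ovSp h D k) ∧
      Module.finrank QBar (ovSp h D k) ≤ Module.finrank QBar (HD M p D (k + k)) := by
  have : FiniteDimensional QBar (HD M p D (k + k)) := inferInstance
  let L : ovSp h D k →ₗ[QBar] HD M p D (k + k) :=
    ((LinearMap.mulLeft QBar (jF p M ^ k)).comp (ovSp h D k).subtype).codRestrict _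
      fun z => (mem_ovSp h).mp z.2
  have hL : Function.Injective L := fun a b e => by
    have e' : jF p M ^ k * (a : FB (p * M)) = jF p M ^ k * (b : FB (p * M)) :=
      congrArg Subtype.val e
    exact Subtype.ext (mul_left_cancel₀ (pow_ne_zero k (jF_ne_zero)) e')
  exact ⟨Module.Finite.of_injective L hL, LinearMap.finrank_le_finrank_of_injective hL⟩

/-- The reductions increase with the space. -/
theorem redSub_le {W W' : Submodule QBar (FB (p * M))} (hle : W ≤ W') :
    redSub A (iota2 M p h.hqM) W ≤ redSub A (iota2 M p h.hqM) W' := fun r hr => by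
  obtain ⟨x, hx, rfl⟩ := mem_redSub.mp hr
  exact mem_redSub.mpr ⟨x, hle hx, rfl⟩

/-- Integral functions in the chart at infinity reduce to `J ^ (-k)` times reductions. -/
theorem exists_inf_lift {D : Divisor QBar (FB (p * M))} {k : ℕ}
    {s : Fin 2 → LaurentSeries (Res A)} (hs : s ∈ LD A h.hqM D k) :
    ∃ t : Oh h, (t : FB (p * M)) ∈ infSp h D k ∧ jPow A p k * redh h t = s := by
  obtain ⟨x, hx, rfl⟩ := mem_redSub.mp hs
  refine ⟨jOi h ^ k * x, ?_, ?_⟩
  · rw [mem_infSp, Subring.coe_mul, SubmonoidClass.coe_pow, coe_jOi, ← mul_assoc, ← mul_pow,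
      mul_inv_cancel₀ (jF_ne_zero), one_pow, one_mul]
    exact hx
  · rw [map_mul, ← mul_assoc, jPow_mul_redh_jOi_pow, one_mul]

/-- Reductions from the chart at infinity, times powers of `j`, are bounded on both sides. -/
theorem jPow_redh_inf {D : Divisor QBar (FB (p * M))} {k : ℕ} {t : Oh h}
    (ht : (t : FB (p * M)) ∈ infSp h D k) : jPow A p k * redh h t ∈ LD A h.hqM D k := by
  rw [← redh_jO_pow h k, ← map_mul]
  exact mem_redSub.mpr ⟨jO h ^ k * t, by rw [Subring.coe_mul, SubmonoidClass.coe_pow]; exact ht,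
    rfl⟩

/-- Reductions from both charts, times powers of `j`, are bounded on both sides. -/
theorem jPow_redh_ov {D : Divisor QBar (FB (p * M))} {k : ℕ} {t : Oh h}
    (ht : (t : FB (p * M)) ∈ ovSp h D k) : jPow A p k * redh h t ∈ LD A h.hqM D (k + k) := by
  rw [← redh_jO_pow h k, ← map_mul]
  exact mem_redSub.mpr ⟨jO h ^ k * t, by rw [Subring.coe_mul, SubmonoidClass.coe_pow]; exact ht,
    rfl⟩

/-- For the zero divisor the reduced space is the bounded piece. -/
theorem Bn_eq_LD_zero (k : ℕ) : LD A h.hqM 0 k = Bn A M p h.hqM k := by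
  rw [LD, HD_zero]

/-- Reduced functions on both charts which sum to one bounded on the intersection are bounded. -/
theorem exists_indep [FF.IsFunctionField (Res A) (KM A M)] [CharP (Res A) p] :
    ∃ n₁ : ℕ, ∀ n, n₁ ≤ n → ∀ k, n ≤ k →
    ∀ r ∈ Bn A M p h.hqM k, ∀ s ∈ Bn A M p h.hqM k, ∀ X ∈ Bn A M p h.hqM (n + n),
      jPow A p k * r + s = jPow A p (k - n) * X →
        r ∈ Bn A M p h.hqM n ∧ ∃ s' ∈ Bn A M p h.hqM n, s = jPow A p (k - n) * s' := by
  obtain ⟨n₁, hn₁⟩ := h.exists_descend
  refine ⟨n₁, fun n hn k hk r hr s hs X hX e => ?_⟩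
  have hPk : ∀ {m : ℕ} {e : Fin 2 → LaurentSeries (Res A)}, e ∈ Bn A M p h.hqM m →
      e ∈ Pk A M p m := fun he => Bn_le_Pk M p h.hqM h.hA h.hM _ he
  have hr' : r ∈ Pk A M p n := by
    refine cancel_jPow (k := k) (b := k + n) (hPk hr) ?_ le_rfl
    rw [eq_sub_of_add_eq e]
    refine sub_mem (Pk_mono A M p (by omega) (mul_mem_Pk (jPow_mem_Pk (k - n)) (hPk hX))) ?_
    exact Pk_mono A M p (by omega) (hPk hs)
  have hrn := hn₁ n hn k hk r hr hr'
  refine ⟨hrn, ?_⟩
  set Y := X - jPow A p n * r with hY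
  have hYB : Y ∈ Bn A M p h.hqM (n + n) := by
    refine sub_mem hX (h.mul_mem_Bn ?_ hrn)
    rw [← Bn_eq_LD_zero h]
    exact mem_redSub.mpr ⟨jO h ^ n, by
      rw [SubmonoidClass.coe_pow]; exact jF_pow_mem n, redh_jO_pow h n⟩
  have hs' : s = jPow A p (k - n) * Y := by
    rw [hY, mul_sub, ← e, ← mul_assoc, ← jPow_add, Nat.sub_add_cancel hk]
    abel
  refine ⟨Y, hn₁ n hn (n + n) (by omega) Y hYB ?_, hs'⟩
  exact cancel_jPow (k := k - n) (b := k) (hPk hYB) (hs' ▸ hPk hs) (by omega)

/-- Reductions regular on both charts are constants. -/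
theorem exists_const_of_both [FF.IsFunctionField (Res A) (KM A M)] [CharP (Res A) p]
    [Nonempty (Pt h)] : ∃ n₁ : ℕ, ∀ n, n₁ ≤ n →
    ∀ r ∈ Bn A M p h.hqM n, jPow A p n * r ∈ Bn A M p h.hqM n → ∃ β : Res A, r = β • 1 := by
  obtain ⟨n₁, hn₁⟩ := exists_smul_one_of_nonempty h
  refine ⟨n₁, fun n hn r hr hjr => hn₁ n hn r hr ?_⟩
  exact cancel_jPow (Bn_le_Pk M p h.hqM h.hA h.hM n hr) (Bn_le_Pk M p h.hqM h.hA h.hM n hjr)
    (by omega)

end Fermat.Agent.OrdinaryAtP

end
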