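import Fermat.Agent.OrdinaryAtP.Units
import Fermat.Agent.OrdinaryAtP.Statement
import Fermat.Agent.Semistable.Torsion

/-!
# Moved torsion classes have Kummer functions congruent to one

A class killed by `p` in the group moved by inertia is represented by a divisor `D` with
`p D = div f`, both reductions of `f` equal to one.
-/

set_option autoImplicit false

noncomputable section

namespace Fermat.Agent.OrdinaryAtP

open ModularCurve AlgebraicCurve Semistable
open Arith (QBar GQ)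

variable {A : ValuationSubring QBar} {p M : ℕ} [NeZero M] [hp : Fact p.Prime] (h : Setup A M p)
include h

/-- A Kummer function congruent to one. -/
def Conn (D : Divisor QBar (FB (p * M))) : Prop :=
  ∃ f, IsOne h f ∧ ∀ v, v.ord f = (p : ℤ) * D v

/-- Trivial gluing: the class has a representative with a Kummer function congruent to one. -/
def ConnClass (y : JZero (p * M)) : Prop :=
  ∃ D : Divisor.degZero (K := QBar) (F := FB (p * M)), Pic0.mk D = y ∧ Conn h D

theorem Conn.degree {D : Divisor QBar (FB (p * M))} (hD : Conn h D) : Divisor.degree D = 0 := by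
  obtain ⟨f, -, hord⟩ := hD
  exact degree_eq_zero_of_kummer hp.out.ne_zero hord

/-- The zero divisor has a Kummer function congruent to one. -/
theorem conn_zero : Conn h (0 : Divisor QBar (FB (p * M))) :=
  ⟨1, isOne_one h, fun v => by simp⟩

/-- Divisors with Kummer functions congruent to one are closed under addition. -/
theorem Conn.add {D D' : Divisor QBar (FB (p * M))} (hD : Conn h D) (hD' : Conn h D') :
    Conn h (D + D') := by
  obtain ⟨f, hf, hord⟩ := hD
  obtain ⟨f', hf', hord'⟩ := hD'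
  refine ⟨f * f', hf.mul h hf', fun v => ?_⟩
  rw [v.ord_mul (hf.ne_zero h) (hf'.ne_zero h), hord, hord', Finsupp.add_apply]
  ring

theorem Conn.neg {D : Divisor QBar (FB (p * M))} (hD : Conn h D) : Conn h (-D) := by
  obtain ⟨f, hf, hord⟩ := hD
  exact ⟨f⁻¹, hf.inv h, fun v => by rw [v.ord_inv, hord, Finsupp.neg_apply, mul_neg]⟩

theorem IsOne.galois {τ : GQ} (hτ : τ ∈ A.inertiaSubgroupIn ℚ) {z : FB (p * M)}
    (hz : IsOne h z) : IsOne h (galF (p * M) τ z) := by
  obtain ⟨hm, hr⟩ := (resLift_of_inertia hτ).galF_mem_loc2 M p h.hqM ⟨z, hz.1⟩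
  refine ⟨hm, funext fun s => ?_⟩
  rw [hr s, show red2 A (iota2 M p h.hqM) ⟨z, hz.1⟩ = 1 from hz.2, Pi.one_apply, map_one]

theorem Conn.galois {τ : GQ} (hτ : τ ∈ A.inertiaSubgroupIn ℚ)
    {D : Divisor QBar (FB (p * M))} (hD : Conn h D) : Conn h (galD τ D) := by
  obtain ⟨f, hf, hord⟩ := hD
  exact ⟨_, hf.galois h hτ, ord_galF τ hord⟩

/-- The gluing of such a class is trivial. -/
theorem Conn.exists_LD_eq [FF.IsFunctionField (Res A) (KM A M)] [CharP (Res A) p]
    {D : Divisor QBar (FB (p * M))} (hD : Conn h D) :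
    ∃ n₀ : ℕ, ∀ n, n₀ ≤ n → LD A h.hqM D n = Bn A M p h.hqM n := by
  obtain ⟨f, ⟨hf, hr⟩, hord⟩ := hD
  obtain ⟨c, hc, hc1⟩ := h.exists_isGlue hp.out.ne_zero ⟨f, hf⟩ hord 1 (fun _ => one_ne_zero)
    (fun s => by rw [show red2 A (iota2 M p h.hqM) ⟨f, hf⟩ = 1 from hr, Pi.one_apply, Pi.one_apply,
      map_one])
  have hc' : c = 1 := funext fun χ => by
    have := hc1 χ
    rw [Pi.one_apply, Pi.one_apply, one_mul] at this
    exact frobenius_inj (Res A) p (by rw [frobenius_def, frobenius_def, this,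
      Pi.one_apply, one_pow])
  obtain ⟨n₁, hn₁⟩ := hc
  obtain ⟨n₂, hn₂⟩ := h.exists_glued
  exact ⟨n₁ + n₂, fun n hn => by rw [hn₁ n (by omega), hc', ← (hn₂ n (by omega)).2]⟩

omit h in
/-- In characteristic `p` a series with `p`-th power one is one. -/
theorem series_eq_one_of_pow [CharP (Res A) p] {r : LaurentSeries (Res A)} (hr : r ^ p = 1) :
    r = 1 := by
  have : CharP (LaurentSeries (Res A)) p :=
    charP_of_injective_algebraMap (algebraMap (Res A) (LaurentSeries (Res A))).injective p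
  exact frobenius_inj (LaurentSeries (Res A)) p (by rw [frobenius_def, frobenius_def, hr, one_pow])

omit h in
/-- A function whose divisor is `n` times that of `g` is the `n`-th power of a multiple of `g` by a
constant. -/
theorem exists_scale_pow_eq {n : ℕ} (hn : 0 < n) {u g : FB (p * M)} (hu : u ≠ 0) (hg : g ≠ 0)
    (hord : ∀ v : Place QBar (FB (p * M)), v.ord u = (n : ℤ) * v.ord g) :
    ∃ g', g' ^ n = u ∧ ∀ v : Place QBar (FB (p * M)), v.ord g' = v.ord g := by
  have hne : u * (g ^ n)⁻¹ ≠ 0 := mul_ne_zero hu (inv_ne_zero (pow_ne_zero _ hg))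
  obtain ⟨b, hb⟩ := FF.eq_algebraMap_of_ord_nonneg (K := QBar) (f := u * (g ^ n)⁻¹) fun v => by
    rw [v.ord_mul hu (inv_ne_zero (pow_ne_zero _ hg)), v.ord_inv, FF.ord_pow, hord, add_neg_cancel]
  have hb0 : b ≠ 0 := fun h0 => hne (by rw [hb, h0, map_zero])
  obtain ⟨c, hc⟩ := IsAlgClosed.exists_pow_nat_eq b hn
  have hc0 : c ≠ 0 := fun h0 => hb0 (by rw [← hc, h0, zero_pow hn.ne'])
  refine ⟨algebraMap QBar (FB (p * M)) c * g, ?_, fun v => ?_⟩
  · rw [mul_pow, ← map_pow, hc, ← hb, mul_assoc, inv_mul_cancel₀ (pow_ne_zero _ hg), mul_one]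
  · rw [v.ord_mul ((_root_.map_ne_zero _).mpr hc0) hg, FF.ord_algebraMap, zero_add]

/-- Equivalent divisors of this kind differ by the divisor of a function congruent to one. -/
theorem Conn.exists_scale [CharP (Res A) p] {D D' : Divisor QBar (FB (p * M))} (hD : Conn h D)
    (hD' : Conn h D') (hlin : D' - D ∈ Divisor.principal (K := QBar) (F := FB (p * M))) :
    ∃ g, IsOne h g ∧ ∀ v, v.ord g = D' v - D v := by
  obtain ⟨f, hf, hord⟩ := hD
  obtain ⟨f', hf', hord'⟩ := hD'
  obtain ⟨g, hg, hgord⟩ := hlin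
  have hu := hf'.mul h (hf.inv h)
  obtain ⟨g', hpow, hg'⟩ := exists_scale_pow_eq hp.out.pos (hu.ne_zero h) hg fun v => by
    rw [v.ord_mul (hf'.ne_zero h) (inv_ne_zero (hf.ne_zero h)), v.ord_inv, hord, hord', ← hgord,
      Finsupp.sub_apply]
    ring
  have key : ∀ s, ∃ hm : iota2 M p h.hqM s g' ∈ locS A, redL A ⟨_, hm⟩ = 1 := by
    intro s
    have hmem : iota2 M p h.hqM s g' ^ p ∈ locS A := by
      rw [← map_pow, hpow]; exact (mem_loc2 _).mp hu.1 s
    have hred : redL A ⟨_, hmem⟩ = 1 := by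
      rw [redL_congr _ ((mem_loc2 _).mp hu.1 s)
        (show iota2 M p h.hqM s g' ^ p = iota2 M p h.hqM s (f' * f⁻¹) by rw [← map_pow, hpow])]
      exact congrFun hu.2 s
    have hm := mem_locS_of_pow h.hA hp.out (iota2_fracS (A := A) M p h.hqM s g') hp.out.ne_zero
      hmem (by rw [hred]; exact one_ne_zero)
    refine ⟨hm, series_eq_one_of_pow ?_⟩
    rw [← map_pow]
    exact hred
  choose hm hr using key
  refine ⟨g', ⟨(mem_loc2 _).mpr hm, funext fun s => hr s⟩, fun v => ?_⟩
  rw [hg', ← hgord, Finsupp.sub_apply]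

/-- A Kummer function with constant reductions can be made congruent to one. -/
theorem connClass_of_hasKummer [CharP (Res A) p] {D : Divisor.degZero (K := QBar) (F := FB (p * M))}
    {a : Fin 2 → Res A} (hk : HasKummer h (D : Divisor QBar (FB (p * M))) p a) :
    ConnClass h (Pic0.mk D) := by
  have := Arith.residueField_isAlgClosed A
  obtain ⟨ha, f, hord, hred⟩ := hk
  choose β hβ using fun s => IsAlgClosed.exists_pow_nat_eq (a s)⁻¹ hp.out.pos
  obtain ⟨g, hg⟩ := red2_surjective M p h.hqM h.hM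
    (IntermediateField.algebraMap_mem (KM A M) (β 0))
    (IntermediateField.algebraMap_mem (KM A M) (β 1))
  have hgs : ∀ s, redh h g s = algebraMap (Res A) _ (β s) := fun s => by
    rw [show redh h g = _ from hg]
    fin_cases s <;> rfl
  have hg0 : (g : FB (p * M)) ≠ 0 := fun h0 => by
    have h1 := hgs 0
    rw [show g = 0 from Subtype.ext h0, map_zero] at h1
    have h2 : β 0 = 0 := (_root_.map_eq_zero _).mp h1.symm
    exact inv_ne_zero (ha 0) (by rw [← hβ 0, h2, zero_pow hp.out.ne_zero])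
  have hdeg : FF.div QBar (g : FB (p * M)) ∈ Divisor.degZero (K := QBar) (F := FB (p * M)) :=
    FF.degree_div _
  refine ⟨D + ⟨_, hdeg⟩, ?_, (f : FB (p * M)) * (g : FB (p * M)) ^ p, ?_, fun v => ?_⟩
  · rw [Pic0.mk_add, add_eq_left, mk_eq_zero_iff]
    exact ⟨g, hg0, fun v => (FF.div_apply _ v).symm⟩
  · refine ⟨mul_mem f.2 (pow_mem g.2 p), funext fun s => ?_⟩
    rw [show (⟨(f : FB (p * M)) * (g : FB (p * M)) ^ p, mul_mem f.2 (pow_mem g.2 p)⟩ : Oh h) =
      f * g ^ p from rfl, map_mul, map_pow, Pi.mul_apply, Pi.pow_apply, hgs,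
      show redh h f s = _ from hred s, ← map_pow, hβ, ← map_mul, mul_inv_cancel₀ (ha s), map_one]
    rfl
  · rw [v.ord_mul (HasKummer.ne_zero (h := h) ha hred) (pow_ne_zero _ hg0), FF.ord_pow, hord,
      AddSubgroup.coe_add, Finsupp.add_apply, FF.div_apply]
    ring

/-- Some `p`-power multiple is principal by a function with constant reductions. -/
def Toric (z : JZero (p * M)) : Prop :=
  ∃ (n : ℕ) (D : Divisor.degZero (K := QBar) (F := FB (p * M))) (a : Fin 2 → Res A),
    Pic0.mk D = z ∧ HasKummer h (D : Divisor QBar (FB (p * M))) (p ^ n) a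

theorem HasKummer.raise {D : Divisor QBar (FB (p * M))} {m : ℕ} {a : Fin 2 → Res A}
    (hk : HasKummer h D m a) (k : ℕ) : HasKummer h D (m * k) (a ^ k) := by
  obtain ⟨ha, f, hord, hred⟩ := hk
  refine ⟨fun s => pow_ne_zero _ (ha s), f ^ k, fun v => ?_, fun s => ?_⟩
  · rw [SubmonoidClass.coe_pow, FF.ord_pow, hord]; push_cast; ring
  · rw [map_pow, Pi.pow_apply, hred, Pi.pow_apply, map_pow]

theorem toric_of_movedGroup {z : JZero (p * M)} (hz : z ∈ movedGroup A (p * M) p) :
    Toric h z := by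
  induction hz using AddSubgroup.closure_induction with
  | mem y hy =>
    obtain ⟨τ, hτ, x, n, hx, rfl⟩ := hy
    obtain ⟨D, rfl⟩ := Pic0.mk_surjective x
    obtain ⟨f, hf, hord⟩ := exists_kummer_function hx
    obtain ⟨a, ha⟩ := h.hasKummer_inertia hτ hf hord
    refine ⟨n, SemilinearAut.degZeroSMulHom _ D - D, a, ?_, ha⟩
    exact map_sub (QuotientAddGroup.mk' _) _ _
  | zero => exact ⟨0, 0, 1, Pic0.mk_zero, HasKummer.zero _⟩
  | add y y' _ _ hy hy' =>
    obtain ⟨n, D, a, rfl, hk⟩ := hy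
    obtain ⟨n', D', a', rfl, hk'⟩ := hy'
    refine ⟨n + n', D + D', a ^ p ^ n' * a' ^ p ^ n, Pic0.mk_add _ _, ?_⟩
    rw [AddSubgroup.coe_add, pow_add]
    exact (HasKummer.raise h hk _).add (mul_comm (p ^ n) (p ^ n') ▸ HasKummer.raise h hk' _)
  | neg y _ hy =>
    obtain ⟨n, D, a, rfl, hk⟩ := hy
    exact ⟨n, -D, a⁻¹, map_neg (QuotientAddGroup.mk' _) D, by
      rw [AddSubgroup.coe_neg]; exact hk.neg⟩

/-- **Moved classes killed by `p`.** -/
theorem connClass_of_movedGroup [CharP (Res A) p] {z : JZero (p * M)}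
    (hz : z ∈ movedGroup A (p * M) p) (hpz : p • z = 0) : ConnClass h z := by
  have := Arith.residueField_isAlgClosed A
  obtain ⟨n, D, a₀, rfl, hk₀⟩ := toric_of_movedGroup h hz
  obtain ⟨ha, f, hord, hred⟩ := HasKummer.raise h hk₀ p
  set a := a₀ ^ p
  obtain ⟨F, hF, hFord⟩ := exists_kummer_function hpz
  have hf0 := HasKummer.ne_zero (h := h) ha hred
  have hpn : 0 < p ^ n := pow_pos hp.out.pos n
  obtain ⟨F', hpow, hF'⟩ := exists_scale_pow_eq hpn hf0 hF fun v => by
    rw [hord, hFord]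
    push_cast
    ring
  have key : ∀ s, ∃ (hm : iota2 M p h.hqM s F' ∈ locS A) (β : Res A),
      β ≠ 0 ∧ redL A ⟨_, hm⟩ = algebraMap (Res A) _ β := by
    intro s
    have hmem : iota2 M p h.hqM s F' ^ p ^ n ∈ locS A := by
      rw [← map_pow, hpow]; exact (mem_loc2 _).mp f.2 s
    have hr : redL A ⟨_, hmem⟩ = algebraMap (Res A) _ (a s) := by
      rw [redL_congr _ ((mem_loc2 _).mp f.2 s)
        (show iota2 M p h.hqM s F' ^ p ^ n = iota2 M p h.hqM s (f : FB (p * M)) by
          rw [← map_pow, hpow])]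
      exact hred s
    have hm := mem_locS_of_pow h.hA hp.out (iota2_fracS (A := A) M p h.hqM s F') hpn.ne'
      hmem (by rw [hr]; exact (_root_.map_ne_zero _).mpr (ha s))
    have hr' : redL A ⟨_, hm⟩ ^ p ^ n = algebraMap (Res A) _ (a s) := by rw [← map_pow]; exact hr
    obtain ⟨β, hβ⟩ := exists_eq_const_of_pow hpn.ne' hr'
    refine ⟨hm, β, fun h0 => ha s ?_, hβ⟩
    rw [hβ, h0, map_zero, zero_pow hpn.ne'] at hr'
    exact (_root_.map_eq_zero _).mp hr'.symm
  choose hm β hβ0 hβ using key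
  refine connClass_of_hasKummer h (a := β) ⟨hβ0, ⟨F', (mem_loc2 _).mpr hm⟩, fun v => ?_, hβ⟩
  show v.ord F' = _
  rw [hF', hFord]

end Fermat.Agent.OrdinaryAtP

end
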