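import Fermat.Agent.OrdinaryAtP.Frames
import Fermat.Agent.OrdinaryAtP.Kummer

/-!
# A nonprincipal class is seen on the charts

For a divisor with a Kummer function congruent to one and nonprincipal class, functions congruent
to one on the two charts are not congruent to each other beyond a fixed precision.
-/

set_option autoImplicit false

noncomputable section

namespace Fermat.Agent.OrdinaryAtP

open AlgebraicCurve Semistable RT.Mazur
open Arith (QBar GQ)

variable {A : ValuationSubring QBar} {p M : ℕ} [NeZero M] [hp : Fact p.Prime] [CharP (Res A) p]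
  [FF.IsFunctionField (Res A) (KM A M)] (h : Setup A M p)
include h

omit [CharP (Res A) p] [FF.IsFunctionField (Res A) ↥(KM A M)] in
/-- Lifts of bases of the reductions of a pair of spaces. -/
theorem exists_lifts {W0 W : Submodule QBar (FB (p * M))} [FiniteDimensional QBar W0]
    [FiniteDimensional QBar W] (hle : W0 ≤ W) :
    ∃ (a b : ℕ) (B : Fin a → Oh h) (X : Fin b → Oh h),
      (∀ i, (B i : FB (p * M)) ∈ W0) ∧ (∀ i, (X i : FB (p * M)) ∈ W) ∧
      LinearIndependent (Res A) (fun i => redh h (Sum.elim B X i)) ∧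
      (∀ c : Fin b → Res A, ∑ i, c i • redh h (X i) ∈ redSub A (iota2 M p h.hqM) W0 →
        ∀ i, c i = 0) ∧
      Submodule.span QBar (Set.range fun i => ((Sum.elim B X i : Oh h) : FB (p * M))) = W := by
  classical
  obtain ⟨hf0, hd0⟩ := finrank_redSub p h.hA (iota2 M p h.hqM) (iota2_fracS M p h.hqM) W0
  obtain ⟨hf, hd⟩ := finrank_redSub p h.hA (iota2 M p h.hqM) (iota2_fracS M p h.hqM) W
  obtain ⟨a, v, hv, hvi, ha⟩ := exists_completing (K := Res A)
    (bot_le : (⊥ : Submodule (Res A) _) ≤ redSub A (iota2 M p h.hqM) W0)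
  obtain ⟨b, w, hw, hwi, hb⟩ := exists_completing (K := Res A) (redSub_le h hle)
  choose B hB hBr using fun i => mem_redSub.mp (hv i)
  choose X hX hXr using fun i => mem_redSub.mp (hw i)
  have hBr' : ∀ i, redh h (B i) = v i := hBr
  have hXr' : ∀ i, redh h (X i) = w i := hXr
  have hli : LinearIndependent (Res A) (fun i => redh h (Sum.elim B X i)) := by
    refine Fintype.linearIndependent_iff.mpr fun c hc => ?_
    simp only [Fintype.sum_sum_type, Sum.elim_inl, Sum.elim_inr, hBr', hXr'] at hc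
    have hX0 := hwi _ (show ∑ i, c (Sum.inr i) • w i ∈ redSub A (iota2 M p h.hqM) W0 by
      rw [eq_neg_of_add_eq_zero_right hc]
      exact neg_mem (sum_mem fun i _ => Submodule.smul_mem _ _ (hv i)))
    have hB0 := hvi _ (show ∑ i, c (Sum.inl i) • v i ∈ (⊥ : Submodule (Res A) _) by
      rw [Submodule.mem_bot, eq_neg_of_add_eq_zero_left hc]
      simp only [hX0, zero_smul, Finset.sum_const_zero, neg_zero])
    rintro (i | i)
    exacts [hB0 i, hX0 i]
  refine ⟨a, b, B, X, hB, hX, hli, fun c hc => hwi c (by simpa only [hXr'] using hc), ?_⟩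
  refine span_eq_of_card hli W ?_ ?_
  · rintro (i | i)
    exacts [hle (hB i), hX i]
  · rw [finrank_bot, add_zero] at ha
    simp only [Fintype.card_sum, Fintype.card_fin]
    rw [← hd, ← hb, ← ha, add_comm]

omit [CharP (Res A) p] [FF.IsFunctionField (Res A) ↥(KM A M)] in
/-- For a nonprincipal `D` of degree zero the two charts meet only in `L(D) = 0`. -/
theorem eq_zero_of_mem_both {D : Divisor QBar (FB (p * M))} (hdeg : Divisor.degree D = 0)
    (hD : D ∉ Divisor.principal (K := QBar) (F := FB (p * M))) {n : ℕ} {z : FB (p * M)}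
    (h1 : z ∈ HD M p D n) (h2 : z ∈ infSp h D n) : z = 0 := by
  by_contra hz
  rw [mem_infSp] at h2
  rw [mem_HD] at h1 h2
  have hJ : jF p M ^ n ≠ 0 := pow_ne_zero n (jF_ne_zero)
  have hge : 0 ≤ FF.div QBar z + D := Finsupp.le_def.mpr fun v => by
    have e1 := FF.le_ord_of_mem_ordGe v hz (h1 v)
    have e2 := FF.le_ord_of_mem_ordGe v (mul_ne_zero hJ hz) (h2 v)
    rw [v.ord_mul hJ hz, FF.ord_pow, show upF M p (jM M) = jF p M from rfl, FF.poles_apply] at e2
    rw [show upF M p (jM M) = jF p M from rfl, FF.poles_apply] at e1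
    simp only [Finsupp.zero_apply, Finsupp.add_apply, FF.div_apply]
    rcases le_or_gt 0 (v.ord (jF p M)) with hpos | hneg
    · rw [max_eq_left (by omega), mul_zero, zero_add] at e1; omega
    · rw [max_eq_right (by omega)] at e2
      linarith
  have h0 := (FiniteFlat.eq_of_le_of_degree_le hge
    (by rw [map_add, FF.degree_div, hdeg, add_zero, map_zero])).symm
  refine hD ⟨z⁻¹, inv_ne_zero hz, fun v => ?_⟩
  have := DFunLike.congr_fun h0 v
  rw [Finsupp.add_apply, FF.div_apply, Finsupp.zero_apply] at this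
  rw [v.ord_inv]
  omega

/-- Reduced pairs of such a divisor meeting a bounded piece are bounded. -/
theorem exists_key {D : Divisor QBar (FB (p * M))} (hD : Conn h D) :
    ∃ n : ℕ, ∀ k, n ≤ k → ∀ r ∈ redSub A (iota2 M p h.hqM) (HD M p D k),
      ∀ s ∈ redSub A (iota2 M p h.hqM) (infSp h D k),
        r + s ∈ redSub A (iota2 M p h.hqM) (ovSp h D n) →
          r ∈ redSub A (iota2 M p h.hqM) (HD M p D n) ∧
            s ∈ redSub A (iota2 M p h.hqM) (infSp h D n) := by
  obtain ⟨n₁, hn₁⟩ := exists_indep h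
  obtain ⟨n₂, hn₂⟩ := hD.exists_LD_eq h
  refine ⟨n₁ + n₂, fun k hk r hr s hs hrs => ?_⟩
  set n := n₁ + n₂ with hn
  have hLD : ∀ m, n ≤ m → LD A h.hqM D m = Bn A M p h.hqM m := fun m hm => hn₂ m (by omega)
  obtain ⟨s₀, hs₀, rfl⟩ := mem_redSub.mp hs
  obtain ⟨z, hz, hze⟩ := mem_redSub.mp hrs
  have hX : jPow A p n * (r + redh h s₀) ∈ Bn A M p h.hqM (n + n) := by
    rw [← hLD (n + n) (Nat.le_add_right n n), ← hze]
    exact jPow_redh_ov h hz
  obtain ⟨h1, s', hs', e⟩ := hn₁ n (by omega) k hk r (hLD k hk ▸ hr) _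
    (hLD k hk ▸ jPow_redh_inf h hs₀) _ hX
    (by rw [← mul_assoc, ← jPow_add, Nat.sub_add_cancel hk, mul_add])
  refine ⟨by show r ∈ LD A h.hqM D n; rw [hLD n le_rfl]; exact h1, ?_⟩
  obtain ⟨t, ht, hte⟩ := exists_inf_lift h (D := D) (k := n) (s := s')
    (by rw [hLD n le_rfl]; exact hs')
  have e2 : jPow A p (k - n) * (jPow A p n * redh h s₀) =
      jPow A p (k - n) * (jPow A p n * redh h t) := by
    rw [hte, ← mul_assoc, ← jPow_add, Nat.sub_add_cancel hk, e]
  have e3 := jPow_cancel (jPow_cancel e2)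
  rw [show red2 A (iota2 M p h.hqM) s₀ = redh h s₀ from rfl, e3]
  exact mem_redSub.mpr ⟨t, ht, rfl⟩

/-- Close functions on the two charts are close to bounded ones. -/
theorem exists_bounded_close {D : Divisor QBar (FB (p * M))} (hD : Conn h D) :
    ∃ n : ℕ, ∀ k x t γ, γ ≠ 0 → γ ∈ A.nonunits → x ∈ HD M p D k → IsOne h x →
      t ∈ infSp h D k → IsOne h t → x - t ∈ small A (iota2 M p h.hqM) γ →
      ∃ xb tb, xb ∈ HD M p D n ∧ IsOne h xb ∧ tb ∈ infSp h D n ∧
        xb - tb ∈ small A (iota2 M p h.hqM) γ := by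
  classical
  obtain ⟨n, hn⟩ := exists_key h hD
  refine ⟨n, fun k₀ x t γ hγ hγn hx hx1 ht ht1 hd => ?_⟩
  set k := n + k₀ with hk
  replace hx : x ∈ HD M p D k := HD_mono D (by omega) hx
  replace ht : t ∈ infSp h D k := infSp_mono h D (by omega) ht
  have := (finrank_ovSp_le h D n).1
  have := (finrank_ovSp_le h D k).1
  have : FiniteDimensional QBar (infSp h D n) :=
    Submodule.finiteDimensional_of_le (infSp_le_ovSp h D n)
  have : FiniteDimensional QBar (infSp h D k) :=
    Submodule.finiteDimensional_of_le (infSp_le_ovSp h D k)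
  -- lifts of bases: `B`, `B'`, `E` at the bound `n`, completed by `X`, `Y` up to `k` on the charts
  obtain ⟨a₁, b₁, B, X, hB, hX, -, hXi, hXs⟩ :=
    exists_lifts h (HD_mono D (show n ≤ k by omega) : HD M p D n ≤ HD M p D k)
  obtain ⟨a₂, b₂, B', Y, hB', hY, -, hYi, hYs⟩ :=
    exists_lifts h (infSp_mono h D (show n ≤ k by omega))
  obtain ⟨a₀, b₀, E₀, E₁, hE₀, hE₁, hEi, -, hEs⟩ := exists_lifts h (le_refl (ovSp h D n))
  obtain ⟨u, hu⟩ := (Submodule.mem_span_range_iff_exists_fun QBar).mp (hXs.ge hx)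
  obtain ⟨v, hv⟩ := (Submodule.mem_span_range_iff_exists_fun QBar).mp (hYs.ge ht)
  simp only [Fintype.sum_sum_type, Sum.elim_inl, Sum.elim_inr] at hu hv
  set xb := ∑ i, u (Sum.inl i) • (B i : FB (p * M)) with hxb
  set tb := ∑ i, v (Sum.inl i) • (B' i : FB (p * M)) with htb
  have hxbm : xb ∈ HD M p D n := sum_mem fun i _ => Submodule.smul_mem _ _ (hB i)
  have htbm : tb ∈ infSp h D n := sum_mem fun i _ => Submodule.smul_mem _ _ (hB' i)
  obtain ⟨w, hw⟩ := (Submodule.mem_span_range_iff_exists_fun QBar).mp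
    (hEs.ge (sub_mem (fin_le_ovSp h D n hxbm) (infSp_le_ovSp h D n htbm)))
  have hE : ∀ i, ((Sum.elim E₀ E₁ i : Oh h) : FB (p * M)) ∈ ovSp h D n := by
    rintro (i | i)
    exacts [hE₀ i, hE₁ i]
  -- `E`, `X` and `Y` are independent residually, by the key property of `n`
  have hall : LinearIndependent (Res A)
      (fun i => redh h (Sum.elim (Sum.elim E₀ E₁) (Sum.elim X Y) i)) := by
    refine Fintype.linearIndependent_iff.mpr fun c hc => ?_
    rw [Fintype.sum_sum_type, Fintype.sum_sum_type (f := fun i => c (Sum.inr i) • _)] at hc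
    simp only [Sum.elim_inl, Sum.elim_inr] at hc
    set e := ∑ i, c (Sum.inl i) • redh h (Sum.elim E₀ E₁ i) with he
    set r := ∑ i, c (Sum.inr (Sum.inl i)) • redh h (X i) with hr
    set s := ∑ i, c (Sum.inr (Sum.inr i)) • redh h (Y i) with hs
    obtain ⟨hrn, hsn⟩ := hn k (by omega) r
      (sum_mem fun i _ => Submodule.smul_mem _ _ (mem_redSub.mpr ⟨X i, hX i, rfl⟩)) s
      (sum_mem fun i _ => Submodule.smul_mem _ _ (mem_redSub.mpr ⟨Y i, hY i, rfl⟩))
      (by
        rw [eq_neg_of_add_eq_zero_right hc]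
        exact neg_mem (sum_mem fun i _ => Submodule.smul_mem _ _ (mem_redSub.mpr ⟨_, hE i, rfl⟩)))
    have hX0 := hXi _ hrn
    have hY0 := hYi _ hsn
    have hE0 := Fintype.linearIndependent_iff.mp hEi (fun i => c (Sum.inl i)) (by
      have : r + s = 0 := by simp [hr, hs, hX0, hY0]
      rw [this, add_zero] at hc
      exact hc)
    rintro (i | i | i)
    exacts [hE0 i, hX0 i, hY0 i]
  -- so the coordinates of `x - t` on `X` and `Y` are below `γ`: drop them
  have hco := coords_small hall (γ := γ)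
    (c := Sum.elim w (Sum.elim (u ∘ Sum.inr) (fun i => -v (Sum.inr i)))) (by
      rw [Fintype.sum_sum_type, Fintype.sum_sum_type (f := fun i =>
        Sum.elim w (Sum.elim (u ∘ Sum.inr) (fun i => -v (Sum.inr i))) (Sum.inr i) • _)]
      simp only [Sum.elim_inl, Sum.elim_inr, Function.comp_apply, neg_smul, Finset.sum_neg_distrib]
      rw [hw]
      convert hd using 1
      rw [← hu, ← hv]
      abel)
  have h1 : x - xb ∈ small A (iota2 M p h.hqM) γ := by
    rw [← hu, add_sub_cancel_left]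
    exact sum_mem fun i _ => smul_mem_small (hco (Sum.inr (Sum.inl i))) (X i).2
  have h2 : t - tb ∈ small A (iota2 M p h.hqM) γ := by
    rw [← hv, add_sub_cancel_left]
    refine sum_mem fun i _ => smul_mem_small ?_ (Y i).2
    have := hco (Sum.inr (Sum.inr i))
    simp only [Sum.elim_inr, mul_neg, neg_mem_iff] at this
    exact this
  refine ⟨xb, tb, hxbm, hx1.of_sub_small h hγ hγn ?_, htbm, ?_⟩
  · rw [← neg_sub]; exact neg_mem h1
  · have : xb - tb = (x - t) - (x - xb) + (t - tb) := by ring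
    rw [this]
    exact add_mem (sub_mem hd h1) h2

/-- **Separation.** -/
theorem exists_not_close {D : Divisor QBar (FB (p * M))} (hD : Conn h D)
    (hnp : D ∉ Divisor.principal (K := QBar) (F := FB (p * M))) :
    ∃ γ : QBar, γ ≠ 0 ∧ γ ∈ A.nonunits ∧ ∀ k x t, x ∈ HD M p D k → IsOne h x →
      t ∈ infSp h D k → IsOne h t → x - t ∉ small A (iota2 M p h.hqM) γ := by
  classical
  -- Close pairs reduce to one bounded degree.
  obtain ⟨n, hn⟩ := exists_bounded_close h hD
  have := (finrank_ovSp_le h D n).1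
  have : FiniteDimensional QBar (infSp h D n) :=
    Submodule.finiteDimensional_of_le (infSp_le_ovSp h D n)
  obtain ⟨a, b, E, E', hE, hE', hli, -, hspan⟩ :=
    exists_lifts h (le_refl (HD M p D n ⊔ infSp h D n))
  have hmem : ∀ i, ((Sum.elim E E' i : Oh h) : FB (p * M)) ∈ HD M p D n ⊔ infSp h D n := by
    rintro (i | i)
    exacts [hE i, hE' i]
  -- Bound the denominators of a frame of that space; this gives `γ`.
  choose e₁ he₁ e₂ he₂ hee using fun i => Submodule.mem_sup.mp (hmem i)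
  choose δ hδ0 hδ using fun i => exists_mem_small h (e₁ i)
  choose S hS using fun i => FiniteFlat.exists_natCast_pow_mul_mem h.hA hp.out (δ i)
  have hp0 : (p : QBar) ≠ 0 := by exact_mod_cast hp.out.ne_zero
  have hpn : (p : QBar) ∈ A.nonunits := h.hA
  set γ : QBar := (p : QBar) ^ (∑ i, S i) * p with hγ
  have hγ0 : γ ≠ 0 := mul_ne_zero (pow_ne_zero _ hp0) hp0
  have hγn : γ ∈ A.nonunits := Arith.nonunits_mul_left (pow_mem (natCast_mem A p) _) hpn
  refine ⟨γ, hγ0, hγn, fun k x t hx hx1 ht ht1 hd => ?_⟩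
  obtain ⟨xb, tb, hxb, hxb1, htb, hbd⟩ := hn k x t γ hγ0 hγn hx hx1 ht ht1 hd
  obtain ⟨w, hw⟩ := (Submodule.mem_span_range_iff_exists_fun QBar).mp
    (hspan.ge (sub_mem (Submodule.mem_sup_left hxb) (Submodule.mem_sup_right htb)))
  have hwγ := coords_small hli (γ := γ) (c := w) (by rw [hw]; exact hbd)
  -- The chart parts agree with the frame as the class is not principal, so would be small.
  have hz : xb - ∑ i, w i • e₁ i = 0 := by
    refine eq_zero_of_mem_both h (hD.degree h) hnp (n := n)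
      (sub_mem hxb (sum_mem fun i _ => Submodule.smul_mem _ _ (he₁ i))) ?_
    have : xb - ∑ i, w i • e₁ i = tb + ∑ i, w i • e₂ i := by
      rw [sub_eq_iff_eq_add, add_assoc, ← Finset.sum_add_distrib]
      simp only [← smul_add, add_comm (e₂ _), hee, hw]
      abel
    rw [this]
    exact add_mem htb (sum_mem fun i _ => Submodule.smul_mem _ _ (he₂ i))
  have hsm : xb ∈ small A (iota2 M p h.hqM) (p : QBar) := by
    rw [sub_eq_zero.mp hz]
    refine sum_mem fun i _ => ?_
    have h3 := smul_mem_small (ι := iota2 M p h.hqM) (γ := (p : QBar)) (c := w i * δ i)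
      (z := (δ i)⁻¹ • e₁ i) ?_ (hδ i)
    · rwa [smul_smul, mul_assoc, mul_inv_cancel₀ (hδ0 i), mul_one] at h3
    have e : (p : QBar)⁻¹ * (w i * δ i) = (γ⁻¹ * w i) *
        ((p : QBar) ^ (∑ j, S j - S i) * ((p : QBar) ^ S i * δ i)) := by
      rw [← mul_assoc ((p : QBar) ^ _), ← pow_add,
        Nat.sub_add_cancel (Finset.single_le_sum (fun _ _ => zero_le) (Finset.mem_univ i)), hγ]
      field_simp
    rw [e]
    exact mul_mem (hwγ i) (mul_mem (pow_mem (natCast_mem A p) _) (hS i))
  have h0 := red2_eq_zero_of_small hp0 hpn (z := (⟨xb, hxb1.1⟩ : Oh h)) hsm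
  rw [show red2 A (iota2 M p h.hqM) ⟨xb, hxb1.1⟩ = 1 from hxb1.2] at h0
  exact one_ne_zero h0

end Fermat.Agent.OrdinaryAtP

end
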