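import Fermat.Agent.OrdinaryAtP.Chart
import Fermat.Agent.OrdinaryAtP.Separate
import Fermat.Agent.GaloisReps.HeckeGalois

/-!
# Coordinates of classes with trivial gluing

`RepClass y γ c`: to precision `γ` the class `y` is glued from the two charts by the unit
`1 + ∑ cᵢ ηᵢ`. The coordinates exist, are unique to the same precision, commute with inertia, add
through the product of units and separate nonzero classes.

See `exists_repClass`, `RepClass.unique` and `exists_separated`.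
-/

set_option autoImplicit false

noncomputable section

namespace Fermat.Agent.OrdinaryAtP

open ModularCurve AlgebraicCurve Semistable RT.Mazur
open Arith (QBar GQ)

variable {A : ValuationSubring QBar} {p M : ℕ} [NeZero M] [hp : Fact p.Prime] (h : Setup A M p)
  {g : ℕ} (η : Fin g → FB (p * M))
include h

/-! ## Coordinates -/

/-- A divisor glued by `1 + ∑ cᵢ ηᵢ` to precision `γ`. -/
def Rep (D : Divisor QBar (FB (p * M))) (γ : QBar) (c : Fin g → QBar) : Prop :=
  ∃ (k : ℕ) (x t : FB (p * M)), x ∈ HD M p D k ∧ IsOne h x ∧ t ∈ infSp h D k ∧ IsOne h t ∧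
    (∀ i, c i ∈ A.nonunits) ∧ t - x * linUnit η c ∈ small A (iota2 M p h.hqM) γ

/-- A class glued by `1 + ∑ cᵢ ηᵢ` to precision `γ`. -/
def RepClass (y : JZero (p * M)) (γ : QBar) (c : Fin g → QBar) : Prop :=
  ∃ D : Divisor.degZero (K := QBar) (F := FB (p * M)),
    Pic0.mk D = y ∧ Conn h D ∧ Rep h η D γ c

variable {η}

theorem linUnit_mem (hη : Completes h η) {c : Fin g → QBar} (hc : ∀ i, c i ∈ A) :
    linUnit η c ∈ Oh h :=
  add_mem (one_mem _) (sum_mem fun i _ => smul_mem_loc2 (hc i) (hη.mem i).1)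

theorem linUnit_galF (hη : Completes h η) {τ : GQ} (hτ : τ ∈ A.inertiaSubgroupIn ℚ)
    (c : Fin g → QBar) : galF (p * M) τ (linUnit η c) = linUnit η (fun i => τ (c i)) := by
  simp only [linUnit, map_add, map_one, map_sum, galF_smul, (hη.mem _).2.1 τ hτ]

theorem Rep.galois (hη : Completes h η) {τ : GQ} (hτ : τ ∈ A.inertiaSubgroupIn ℚ)
    {D : Divisor QBar (FB (p * M))} {γ : QBar} (hγ : γ ≠ 0) {c : Fin g → QBar}
    (hr : Rep h η D γ c) : Rep h η (galD τ D) γ (fun i => τ (c i)) := by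
  obtain ⟨k, x, t, hx, hx1, ht, ht1, hc, hd⟩ := hr
  refine ⟨k, _, _, galF_mem_HD hx, hx1.galois h hτ, galF_mem_infSp' h ht, ht1.galois h hτ,
    fun i => (resLift_of_inertia hτ).nonunits_mem (hc i), ?_⟩
  rw [← linUnit_galF h hη hτ, ← map_mul, ← map_sub]
  exact galF_mem_small h hτ hγ hd

/-- Coordinates of classes with trivial gluing commute with inertia. -/
theorem RepClass.galois (hη : Completes h η) {τ : GQ} (hτ : τ ∈ A.inertiaSubgroupIn ℚ)
    {y : JZero (p * M)} {γ : QBar} (hγ : γ ≠ 0) {c : Fin g → QBar} (hr : RepClass h η y γ c) :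
    RepClass h η (τ • y) γ (fun i => τ (c i)) := by
  obtain ⟨D, rfl, hD, hr⟩ := hr
  exact ⟨_, (smul_mk τ D).symm, hD.galois h hτ, hr.galois h hη hτ hγ⟩

/-- Changing the divisor in its class. -/
theorem Rep.change [CharP (Res A) p] {D D' : Divisor QBar (FB (p * M))} {γ : QBar}
    {c : Fin g → QBar} (hD : Conn h D) (hD' : Conn h D')
    (hlin : D' - D ∈ Divisor.principal (K := QBar) (F := FB (p * M))) (hr : Rep h η D γ c) :
    Rep h η D' γ c := by
  obtain ⟨u, hu, hord⟩ := hD.exists_scale h hD' hlin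
  obtain ⟨k, x, t, hx, hx1, ht, ht1, hc, hd⟩ := hr
  have hu' : ∀ v, -((D' - D) v) ≤ v.ord u⁻¹ := fun v => by
    rw [v.ord_inv, hord, Finsupp.sub_apply]
  refine ⟨k, x * u⁻¹, t * u⁻¹, ?_, hx1.mul h (hu.inv h), ?_, ht1.mul h (hu.inv h), hc, ?_⟩
  · have := mul_mem_HD hx (mem_HD_of_ord hu')
    rwa [add_sub_cancel, add_zero] at this
  · have := mul_mem_infSp h ht (mem_infSp_of_ord h hu')
    rwa [add_sub_cancel, add_zero] at this
  · rw [mul_right_comm, ← sub_mul]
    exact mul_right_mem_small hd (hu.inv h).1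

theorem RepClass.rep [CharP (Res A) p] {y : JZero (p * M)} {γ : QBar} {c : Fin g → QBar}
    (hr : RepClass h η y γ c) {D : Divisor.degZero (K := QBar) (F := FB (p * M))}
    (hy : Pic0.mk D = y) (hD : Conn h D) : Rep h η D γ c := by
  obtain ⟨D', hy', hD', hr⟩ := hr
  refine hr.change h hD' hD ((mk_eq_zero_iff (D - D')).mp ?_)
  exact (map_sub (QuotientAddGroup.mk' _) D D').trans (sub_eq_zero.mpr (hy.trans hy'.symm))

/-- Absorbing a unit of the chart at infinity. -/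
theorem rep_of_mul (hη : Completes h η) {D : Divisor QBar (FB (p * M))} {γ : QBar} (hγ : γ ≠ 0)
    {c : Fin g → QBar} (hc : ∀ i, c i ∈ A.nonunits) {k l K : ℕ} {x t β : FB (p * M)}
    (hx : x ∈ HD M p D k) (hx1 : IsOne h x) (ht : t ∈ infSp h D l) (ht1 : IsOne h t)
    (hβ : β ∈ infSp h 0 K) (hβ1 : IsOne h β)
    (hd : t - x * β * linUnit η c ∈ small A (iota2 M p h.hqM) γ) : Rep h η D γ c := by
  obtain ⟨K', β', hβ', hβ'1, hinv, -⟩ := (isChart_inf h).exists_quot h (D₁ := 0) (D := 0) (f := 1)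
    (isOne_one h) (fun v => by simp) ((isChart_inf h).one_mem 0) (isOne_one h) hβ hβ1 hγ
  rw [sub_zero] at hβ'
  refine ⟨k + (l + K'), x, t * β', HD_mono D (Nat.le_add_right _ _) hx, hx1, ?_,
    ht1.mul h hβ'1, hc, ?_⟩
  · have := mul_mem_infSp h ht hβ'
    rw [add_zero] at this
    exact infSp_mono h D (Nat.le_add_left _ _) this
  · have e : t * β' - x * linUnit η c =
        (t - x * β * linUnit η c) * β' + x * linUnit η c * -(1 - β * β') := by ring
    rw [e]
    exact add_mem (mul_right_mem_small hd hβ'1.1) (mul_left_mem_small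
      (mul_mem hx1.1 (linUnit_mem h hη fun i => Arith.mem_of_mem_nonunits (hc i))) (neg_mem hinv))

/-- **Sums.** -/
theorem RepClass.add (hη : Completes h η) {y y' : JZero (p * M)} {γ : QBar} (hγ : γ ≠ 0)
    {c c' c'' : Fin g → QBar} (hr : RepClass h η y γ c) (hr' : RepClass h η y' γ c')
    (hc : ∀ i, c'' i ∈ A.nonunits) {α β : FB (p * M)} (hα : IsOne h α)
    (hαk : ∃ k, α ∈ HD M p 0 k) (hβ : IsOne h β) (hβk : ∃ k, β ∈ infSp h 0 k)
    (hd : linUnit η c * linUnit η c' - α * β * linUnit η c'' ∈ small A (iota2 M p h.hqM) γ) :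
    RepClass h η (y + y') γ c'' := by
  obtain ⟨D, rfl, hD, k, x, t, hx, hx1, ht, ht1, hcn, hd1⟩ := hr
  obtain ⟨D', rfl, hD', k', x', t', hx', hx'1, ht', ht'1, hcn', hd2⟩ := hr'
  obtain ⟨a, ha⟩ := hαk
  obtain ⟨b, hb⟩ := hβk
  refine ⟨D + D', Pic0.mk_add _ _, by rw [AddSubgroup.coe_add]; exact hD.add h hD',
    rep_of_mul h hη hγ hc (x := x * x' * α) (t := t * t') (β := β) (k := k + k' + a)
      (l := k + k') (K := b) ?_ ((hx1.mul h hx'1).mul h hα) ?_ (ht1.mul h ht'1) hb hβ ?_⟩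
  · have := mul_mem_HD (mul_mem_HD hx hx') ha
    rwa [add_zero] at this
  · exact mul_mem_infSp h ht ht'
  · have e : t * t' - x * x' * α * β * linUnit η c'' =
        (t - x * linUnit η c) * t' + x * linUnit η c * (t' - x' * linUnit η c') +
          x * x' * (linUnit η c * linUnit η c' - α * β * linUnit η c'') := by ring
    rw [e]
    exact add_mem (add_mem (mul_right_mem_small hd1 ht'1.1) (mul_left_mem_small
      (mul_mem hx1.1 (linUnit_mem h hη fun i => Arith.mem_of_mem_nonunits (hcn i))) hd2))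
      (mul_left_mem_small (mul_mem hx1.1 hx'1.1) hd)

/-! ## Existence and uniqueness -/

/-- **Existence**, with coefficients fixed by the inertia elements which fix a number field
independent of the precision. -/
theorem exists_repClass [CharP (Res A) p] [FF.IsFunctionField (Res A) (KM A M)] (hη : Completes h η)
    {y : JZero (p * M)} (hy : ConnClass h y) :
    ∃ L : IntermediateField ℚ QBar, FiniteDimensional ℚ L ∧ ∀ γ : QBar, γ ≠ 0 →
      ∃ c : Fin g → QBar, RepClass h η y γ c ∧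
        ∀ i, ∀ τ ∈ A.inertiaSubgroupIn ℚ, (∀ z ∈ L, τ z = z) → τ (c i) = c i := by
  obtain ⟨D, rfl, hDc⟩ := hy
  obtain ⟨f, hf, hford⟩ := hDc
  have hDc : Conn h D := ⟨f, hf, hford⟩
  -- Lifts `x₀` and `t₀` of the units in the spaces of `D`.
  obtain ⟨n, hn⟩ := hDc.exists_LD_eq h
  obtain ⟨x₀, hx₀, hx₀r⟩ := mem_redSub.mp (show (1 : Fin 2 → LaurentSeries (Res A)) ∈
      LD A h.hqM D n by rw [hn n le_rfl, ← Bn_eq_LD_zero h]; exact one_mem_RedF h n)
  obtain ⟨t₀, ht₀, ht₀r⟩ := exists_inf_lift h (D := (D : Divisor QBar (FB (p * M)))) (k := n)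
    (s := jPow A p n) (by
      rw [hn n le_rfl, ← Bn_eq_LD_zero h, ← redh_jO_pow h n]
      exact mem_redSub.mpr ⟨jO h ^ n, by rw [SubmonoidClass.coe_pow]; exact jF_pow_mem n, rfl⟩)
  have hx₀1 : IsOne h (x₀ : FB (p * M)) := ⟨x₀.2, hx₀r⟩
  have ht₀1 : IsOne h (t₀ : FB (p * M)) :=
    ⟨t₀.2, jPow_cancel (ht₀r.trans (mul_one _).symm)⟩
  -- They and `f` are defined over a number field `⨆ L i`, so the quotient `E` is fixed by
  -- the inertia subgroup `H` over it.
  choose L hL hfix using fun i : Fin 3 => GaloisReps.exists_fixing_element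
    (modularFunctionFieldFull (p * M)) (![(x₀ : FB (p * M)), t₀, f] i).2
  have := hL
  refine ⟨⨆ i, L i, IntermediateField.finiteDimensional_iSup_of_finite, fun γ hγ => ?_⟩
  set H : Subgroup GQ := A.inertiaSubgroupIn ℚ ⊓ (⨆ i, L i).fixingSubgroup with hH
  have hHfix : ∀ τ ∈ H, ∀ i, galF (p * M) τ (![(x₀ : FB (p * M)), t₀, f] i) =
      ![(x₀ : FB (p * M)), t₀, f] i := fun τ hτ i => Subtype.ext (hfix i τ fun z hz =>
    (IntermediateField.mem_fixingSubgroup_iff _ τ).mp hτ.2 z (le_iSup L i hz))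
  obtain ⟨K, E, hE, hE1, hEd, hEfix⟩ := (isChart_ov h).exists_quot h hf hford
    (infSp_le_ovSp h D n ht₀) ht₀1 (fin_le_ovSp h D n hx₀) hx₀1 hγ
  rw [sub_self] at hE
  have hEH : ∀ τ ∈ H, galF (p * M) τ E = E := fun τ hτ =>
    hEfix τ (hHfix τ hτ 1) (hHfix τ hτ 0) (hHfix τ hτ 2)
  -- Approximate `E` by a product with coefficients fixed by `H`, to the precision `γ`.
  obtain ⟨m, e, a, he, ha, haν, hsum⟩ := hη.split H inf_le_left (E - 1)
    (sub_mem hE1.1 (one_mem _)) (fun τ hτ => by rw [map_sub, map_one, hEH τ hτ]) K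
    (sub_mem hE ((isChart_ov h).one_mem K))
  obtain ⟨ν, hν0, hνn, hν⟩ := exists_small_of_red_zero h (⟨E, hE1.1⟩ - 1) (by
    rw [map_sub, map_one, hE1.2, sub_self])
  obtain ⟨N, hN⟩ := exists_pow_dvd h.hA hp.out hνn hγ
  let R : Subring (Unit → QBar) :=
    { carrier := {r | ∀ u, r u ∈ A ∧ ∀ τ ∈ H, τ (r u) = r u}
      one_mem' := fun _ => ⟨one_mem A, fun _ _ => map_one _⟩
      zero_mem' := fun _ => ⟨zero_mem A, fun _ _ => map_zero _⟩
      mul_mem' := fun hr hs u => ⟨mul_mem (hr u).1 (hs u).1, fun τ hτ => by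
        simp only [Pi.mul_apply, map_mul, (hr u).2 τ hτ, (hs u).2 τ hτ]⟩
      add_mem' := fun hr hs u => ⟨add_mem (hr u).1 (hs u).1, fun τ hτ => by
        simp only [Pi.add_apply, map_add, (hr u).2 τ hτ, (hs u).2 τ hτ]⟩
      neg_mem' := fun hr u => ⟨neg_mem (hr u).1, fun τ hτ => by
        simp only [Pi.neg_apply, map_neg, (hr u).2 τ hτ]⟩ }
  obtain ⟨c, α, β, hc, hα, hβ, hd⟩ := exists_chart_approx h hη (inf_le_left : H ≤ _) R
    (fun r hr u => (hr u).1) (fun a ha hfix _ => ⟨ha, hfix⟩) hν0 hνn (fun j (_ : Unit) => a j)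
    (fun j _ => ha j) (fun j _ => haν ν hν j) e (fun j => by
      rcases he j with h1 | h1 | ⟨i, hi⟩
      · exact ⟨h1.1, fun τ hτ => h1.2.1 τ hτ.1, h1.2.2.imp fun m hm => fin_le_ovSp h 0 m hm⟩
      · exact ⟨h1.1, fun τ hτ => h1.2.1 τ hτ.1, h1.2.2.imp fun m hm => infSp_le_ovSp h 0 m hm⟩
      · exact hi ▸ ⟨(hη.mem i).1, fun τ hτ => (hη.mem i).2.1 τ hτ.1, (hη.mem i).2.2⟩) N
  refine ⟨fun i => c i (), ⟨D, rfl, hDc, ?_⟩, fun i τ hτ hz =>
    ((hc i).1 ()).2 τ ⟨hτ, (IntermediateField.mem_fixingSubgroup_iff _ τ).mpr hz⟩⟩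
  obtain ⟨ha1, a', ha'⟩ := hα ()
  obtain ⟨hb1, b', hb'⟩ := hβ ()
  have hcn : ∀ i, c i () ∈ A.nonunits := fun i => DvdA.mem_nonunits hν0 hνn ((hc i).2 ())
  refine rep_of_mul h hη hγ hcn (x := (x₀ : FB (p * M)) * α ()) (t := t₀) (β := β ())
    (k := n + a') (l := n) (K := b') ?_ (hx₀1.mul h ha1) ht₀ ht₀1 hb' hb1 ?_
  · have := mul_mem_HD hx₀ ha'
    rwa [add_zero] at this
  · have e1 : (t₀ : FB (p * M)) - x₀ * α () * β () * linUnit η (fun i => c i ()) =
        ((t₀ : FB (p * M)) - x₀ * E) +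
          x₀ * (E - α () * β () * linUnit η (fun i => c i ())) := by ring
    rw [e1]
    refine add_mem hEd (mul_left_mem_small x₀.2
      (small_mono (pow_ne_zero _ hν0) (hN (N + 1) (Nat.le_succ N)) ?_))
    have := hd ()
    rw [← hsum, add_sub_cancel] at this
    exact this

omit [NeZero M] hp h in
/-- A precision dividing `γ` and `ν ^ (N + 1)` is divided by `δ' ν` for a `δ'` dividing `γ` and
`ν ^ N`. -/
private theorem exists_dvdA_step {A : ValuationSubring QBar} {γ ν δ : QBar} (hγn : γ ∈ A.nonunits)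
    (hν0 : ν ≠ 0) (hνn : ν ∈ A.nonunits) (hδ : δ ≠ 0) {N : ℕ} (hδγ : DvdA A δ γ)
    (hδν : DvdA A δ (ν ^ (N + 1))) :
    ∃ δ' : QBar, δ' ≠ 0 ∧ DvdA A δ' γ ∧ DvdA A δ' (ν ^ N) ∧ DvdA A δ (δ' * ν) := by
  rcases A.mem_or_inv_mem (ν⁻¹ * δ) with h1 | h1
  · refine ⟨δ * ν⁻¹, mul_ne_zero hδ (inv_ne_zero hν0), ?_, ?_, ?_⟩
    · show (δ * ν⁻¹)⁻¹ * γ ∈ A
      rw [mul_inv, inv_inv, mul_right_comm]
      exact mul_mem hδγ (Arith.mem_of_mem_nonunits hνn)
    · show (δ * ν⁻¹)⁻¹ * ν ^ N ∈ A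
      rw [mul_inv, inv_inv, mul_assoc, ← pow_succ']
      exact hδν
    · show δ⁻¹ * (δ * ν⁻¹ * ν) ∈ A
      rw [mul_assoc δ, inv_mul_cancel₀ hν0, mul_one, inv_mul_cancel₀ hδ]
      exact one_mem A
  · refine ⟨1, one_ne_zero, ?_, ?_, ?_⟩
    · show (1 : QBar)⁻¹ * γ ∈ A
      rw [inv_one, one_mul]; exact Arith.mem_of_mem_nonunits hγn
    · show (1 : QBar)⁻¹ * ν ^ N ∈ A
      rw [inv_one, one_mul]; exact pow_mem (Arith.mem_of_mem_nonunits hνn) N
    · show δ⁻¹ * (1 * ν) ∈ A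
      rw [mul_inv, inv_inv, mul_comm] at h1
      rwa [one_mul]

/-- **Uniqueness.** -/
theorem RepClass.unique [CharP (Res A) p] (hη : Completes h η) {y : JZero (p * M)} {γ : QBar}
    (hγ : γ ≠ 0) (hγn : γ ∈ A.nonunits) {c c' : Fin g → QBar} (hr : RepClass h η y γ c)
    (hr' : RepClass h η y γ c') (i : Fin g) : DvdA A γ (c i - c' i) := by
  classical
  obtain ⟨D, hy, hD, k, x, t, hx, hx1, ht, ht1, hc, hd⟩ := hr
  obtain ⟨k', x', t', hx', hx'1, ht', ht'1, hc', hd'⟩ := hr'.rep h hy hD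
  obtain ⟨f, hf, hford⟩ := hD
  -- `α`, `β` are the quotients `x / x'`, `t / t'` on the charts: `α Φ(c) ≡ β Φ(c')` modulo `γ`
  obtain ⟨K, α, hα, hα1, hαd, -⟩ := isChart_fin.exists_quot h hf hford hx hx1 hx' hx'1 hγ
  obtain ⟨K', β, hβ, hβ1, hβd, -⟩ := (isChart_inf h).exists_quot h hf hford ht ht1 ht' ht'1 hγ
  rw [sub_self] at hα hβ
  have hcA : ∀ i, c i ∈ A := fun i => Arith.mem_of_mem_nonunits (hc i)
  have hc'A : ∀ i, c' i ∈ A := fun i => Arith.mem_of_mem_nonunits (hc' i)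
  have hΦ := linUnit_mem h hη hcA
  have key : α * linUnit η c - β * linUnit η c' ∈ small A (iota2 M p h.hqM) γ := by
    have e : α * linUnit η c - β * linUnit η c' = x'⁻¹ *
        (-(x - x' * α) * linUnit η c - (t - x * linUnit η c) + (t - t' * β) +
          β * (t' - x' * linUnit η c')) := by
      have := hx'1.ne_zero h
      field_simp
      ring
    rw [e]
    exact mul_left_mem_small (hx'1.inv h).1 (add_mem (add_mem (sub_mem
      (mul_right_mem_small (neg_mem hαd) hΦ) hd) hβd) (mul_left_mem_small hβ1.1 hd'))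
  obtain ⟨νa, hνa0, hνan, hνa⟩ := exists_small_of_red_zero h (⟨α, hα1.1⟩ - 1) (by
    rw [map_sub, map_one, hα1.2, sub_self])
  obtain ⟨νb, hνb0, hνbn, hνb⟩ := exists_small_of_red_zero h (⟨β, hβ1.1⟩ - 1) (by
    rw [map_sub, map_one, hβ1.2, sub_self])
  obtain ⟨ν, hν0, hνn, hνall⟩ := exists_dvd_all h.hA hp.out
    ({νa, νb} ∪ Finset.univ.image c ∪ Finset.univ.image c') (by
      intro z hz
      simp only [Finset.mem_union, Finset.mem_insert, Finset.mem_singleton, Finset.mem_image,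
        Finset.mem_univ, true_and] at hz
      rcases hz with ((rfl | rfl) | ⟨i, rfl⟩) | ⟨i, rfl⟩
      exacts [hνan, hνbn, hc i, hc' i])
  have ha : α - 1 ∈ small A (iota2 M p h.hqM) ν := small_mono hνa0 (hνall νa (by simp)) hνa
  have hSc' : ∑ i, c' i • η i ∈ small A (iota2 M p h.hqM) ν := sum_mem fun i _ =>
    smul_mem_small (hνall _ (by simp)) (hη.mem i).1
  -- successive improvement
  have main : ∀ (N : ℕ) (δ : QBar), δ ≠ 0 → DvdA A δ γ → DvdA A δ (ν ^ N) →
      α - β ∈ small A (iota2 M p h.hqM) δ ∧ ∀ i, DvdA A δ (c i - c' i) := by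
    intro N
    induction N with
    | zero =>
      intro δ hδ _ h1
      refine ⟨small_mono one_ne_zero (by rwa [pow_zero] at h1)
        (mem_small_one.mpr (sub_mem hα1.1 hβ1.1)), fun i => ?_⟩
      exact DvdA.trans one_ne_zero (by rwa [pow_zero] at h1) (by
        show (1 : QBar)⁻¹ * (c i - c' i) ∈ A
        rw [inv_one, one_mul]; exact sub_mem (hcA i) (hc'A i))
    | succ N ih =>
      intro δ hδ hδγ hδν
      -- the cross terms gain a factor `ν` on the precision `δ'` of the previous step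
      obtain ⟨δ', hδ'0, hδ'γ, hδ'ν, hδδ'⟩ := exists_dvdA_step hγn hν0 hνn hδ hδγ hδν
      obtain ⟨hab, hdd⟩ := ih δ' hδ'0 hδ'γ hδ'ν
      have hSd : ∑ i, (c i - c' i) • η i ∈ small A (iota2 M p h.hqM) δ' :=
        sum_mem fun i _ => smul_mem_small (hdd i) (hη.mem i).1
      have hZ : (α - 1) + -(β - 1) + ∑ i, (c i - c' i) • η i ∈
          small A (iota2 M p h.hqM) δ := by
        have e : (α - 1) + -(β - 1) + ∑ i, (c i - c' i) • η i =
            (α * linUnit η c - β * linUnit η c') -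
              ((α - 1) * ∑ i, (c i - c' i) • η i + (α - β) * ∑ i, c' i • η i) := by
          simp only [linUnit, sub_smul, Finset.sum_sub_distrib]
          ring
        rw [e]
        refine sub_mem (small_mono hγ hδγ key) (small_mono (mul_ne_zero hδ'0 hν0) hδδ'
          (add_mem ?_ (mul_mem_small hab hSc')))
        rw [mul_comm δ' ν]
        exact mul_mem_small ha hSd
      -- a combination of the two charts and the `ηᵢ` below `δ`: so is each part
      obtain ⟨κ, h1, h2, h3⟩ := hη.indep (K + K') (α - 1) (-(β - 1)) (fun i => c i - c' i) δ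
        (sub_mem (HD_mono 0 (Nat.le_add_right K K') hα) (isChart_fin.one_mem _))
        (neg_mem (sub_mem (infSp_mono h 0 (Nat.le_add_left K' K) hβ)
          ((isChart_inf h).one_mem _))) hZ
      refine ⟨?_, h3⟩
      have : α - β = (α - 1 - κ • 1) + (-(β - 1) + κ • 1) := by ring
      rw [this]
      exact add_mem h1 h2
  obtain ⟨N, hN⟩ := exists_pow_dvd h.hA hp.out hνn hγ
  exact (main N γ hγ (by show γ⁻¹ * γ ∈ A; rw [inv_mul_cancel₀ hγ]; exact one_mem A)
    (hN N le_rfl)).2 i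

/-! ## Separation -/

/-- Coarser precision. -/
theorem RepClass.mono (hη : Completes h η) {y : JZero (p * M)} {γ γ₁ : QBar} (hγ : γ ≠ 0)
    (hγ₁ : γ₁ ≠ 0) (hγ₁n : γ₁ ∈ A.nonunits) (hdvd : DvdA A γ₁ γ) {c c' : Fin g → QBar}
    (hcc : ∀ i, DvdA A γ₁ (c' i - c i)) (hr : RepClass h η y γ c) : RepClass h η y γ₁ c' := by
  obtain ⟨D, hy, hD, k, x, t, hx, hx1, ht, ht1, hc, hd⟩ := hr
  refine ⟨D, hy, hD, k, x, t, hx, hx1, ht, ht1, fun i => ?_, ?_⟩
  · have := Arith.nonunits_add (hc i) (DvdA.mem_nonunits hγ₁ hγ₁n (hcc i))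
    rwa [add_sub_cancel] at this
  · have e : t - x * linUnit η c' = (t - x * linUnit η c) + x * -∑ i, (c' i - c i) • η i := by
      simp only [linUnit, sub_smul, Finset.sum_sub_distrib]
      ring
    rw [e]
    exact add_mem (small_mono hγ hdvd hd) (mul_left_mem_small hx1.1
      (neg_mem (sum_mem fun i _ => smul_mem_small (hcc i) (hη.mem i).1)))

/-- Classes with the same coordinates differ by a class with coordinates zero. -/
theorem RepClass.sub_of_eq (hη : Completes h η) {y y' : JZero (p * M)} {γ : QBar} (hγ : γ ≠ 0)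
    {c : Fin g → QBar} (hr : RepClass h η y γ c) (hr' : RepClass h η y' γ c) :
    RepClass h η (y - y') γ 0 := by
  obtain ⟨D, rfl, hD, k, x, t, hx, hx1, ht, ht1, hc, hd⟩ := hr
  obtain ⟨D', rfl, hD', k', x', t', hx', hx'1, ht', ht'1, -, hd'⟩ := hr'
  obtain ⟨f', hf', hford'⟩ := id hD'
  obtain ⟨K, α, hα, hα1, hαd, -⟩ := isChart_fin.exists_quot h hf' hford' hx hx1 hx' hx'1 hγ
  obtain ⟨K', β, hβ, hβ1, hβd, -⟩ := (isChart_inf h).exists_quot h hf' hford' ht ht1 ht' ht'1 hγ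
  refine ⟨D - D', map_sub (QuotientAddGroup.mk' _) D D',
    by rw [AddSubgroup.coe_sub, sub_eq_add_neg]; exact hD.add h (hD'.neg h), K + K', α, β,
    by rw [AddSubgroup.coe_sub]; exact HD_mono _ (Nat.le_add_right K K') hα, hα1,
    by rw [AddSubgroup.coe_sub]; exact infSp_mono h _ (Nat.le_add_left K' K) hβ, hβ1,
    fun _ => (ValuationSubring.mem_nonunits_iff A).mpr
    (by rw [Pi.zero_apply, map_zero]; exact zero_lt_one),
    ?_⟩
  have hΦ := linUnit_mem h hη fun i => Arith.mem_of_mem_nonunits (hc i)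
  have e : β - α * linUnit η (0 : Fin g → QBar) = t'⁻¹ * (-(t - t' * β) + (t - x * linUnit η c) +
      (x - x' * α) * linUnit η c + -(α * (t' - x' * linUnit η c))) := by
    have := ht'1.ne_zero h
    simp only [linUnit, Pi.zero_apply, zero_smul, Finset.sum_const_zero, add_zero]
    field_simp
    ring
  rw [e]
  exact mul_left_mem_small (ht'1.inv h).1 (add_mem (add_mem (add_mem (neg_mem hβd) hd)
    (mul_right_mem_small hαd hΦ)) (neg_mem (mul_left_mem_small hα1.1 hd')))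

/-- **Separation.** -/
theorem exists_separated [CharP (Res A) p] [FF.IsFunctionField (Res A) (KM A M)]
    (hη : Completes h η) {y : JZero (p * M)} (hy : ConnClass h y) (hy0 : y ≠ 0) :
    ∃ γ₁ : QBar, γ₁ ≠ 0 ∧ γ₁ ∈ A.nonunits ∧ ∀ (γ : QBar) (c : Fin g → QBar),
      γ ≠ 0 → DvdA A γ₁ γ → RepClass h η y γ c → ∃ i, ¬ DvdA A γ₁ (c i) := by
  obtain ⟨D, rfl, hD⟩ := hy
  obtain ⟨γ₁, h10, h1n, h1⟩ :=
    exists_not_close h hD fun hp0 => hy0 ((mk_eq_zero_iff D).mpr hp0)
  refine ⟨γ₁, h10, h1n, fun γ c hγ hdvd hr => ?_⟩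
  by_contra! hall
  obtain ⟨k, x, t, hx, hx1, ht, ht1, hc, hd⟩ := hr.rep h rfl hD
  refine h1 k x t hx hx1 ht ht1 ?_
  have e : x - t = -((t - x * linUnit η c) + x * ∑ i, c i • η i) := by
    rw [linUnit]; ring
  rw [e]
  exact neg_mem (add_mem (small_mono hγ hdvd hd) (mul_left_mem_small hx1.1
    (sum_mem fun i _ => smul_mem_small (hall i) (hη.mem i).1)))

end Fermat.Agent.OrdinaryAtP

end
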