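import Mathlib.GroupTheory.PGroup
import Mathlib.Algebra.Module.ZMod
import Mathlib.LinearAlgebra.Dual.Lemmas
import Mathlib.LinearAlgebra.Basis.VectorSpace
import Mathlib.Algebra.Field.ZMod

/-!
# Modules without trivial quotients have no fixed vectors

Let a group act on a finite `p`-torsion module so that the kernel of a character with cyclic image
acts through `p`-groups. If no stable subgroup has a nonzero invariant homomorphism to `ℤ/p`, then
an element whose character generates the image has no nonzero fixed vector.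
-/

set_option autoImplicit false

noncomputable section

namespace Fermat.Agent.OrdinaryAtP

variable {G : Type*} [Group G] {X : Type} [AddCommGroup X] [DistribMulAction G X]

lemma smul_sub_mem_of_pow {K : AddSubgroup X} (hK : ∀ g : G, ∀ x ∈ K, g • x ∈ K) {t : G} {x : X}
    (h : t • x - x ∈ K) : ∀ i : ℕ, t ^ i • x - x ∈ K
  | 0 => by simp
  | i + 1 => by
    have h1 := hK t _ (smul_sub_mem_of_pow hK h i)
    rw [smul_sub, ← mul_smul, ← pow_succ'] at h1
    simpa using add_mem h1 h

variable [Finite X] {p : ℕ} [hp : Fact p.Prime] {C : Type*} [Group C]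

/-- If the kernel of `χ` acts on `H` through `p`-groups and `K` does not contain `H`, some element
of `H` outside `K` is fixed modulo `K` by the kernel. -/
private theorem exists_fixed_mod (χ : G →* C) (H K : AddSubgroup X)
    (hH : ∀ g : G, ∀ x ∈ H, g • x ∈ H) (hK : ∀ g : G, ∀ x ∈ K, g • x ∈ K)
    (hHp : ∀ x ∈ H, p • x = 0) (hU : ∀ g, χ g = 1 → ∀ x ∈ H, ∃ j : ℕ, g ^ (p ^ j) • x = x)
    {v : X} (hv : v ∈ H) (hvK' : v ∉ K) :
    ∃ y ∈ H, y ∉ K ∧ ∀ g, χ g = 1 → g • y - y ∈ K := by
  classical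
  let ker : Subgroup G := χ.ker
  -- The kernel acts on the image `Hb` of `H` modulo `K` through a `p`-group `P`.
  let : DistribMulAction G (X ⧸ K) :=
    { smul := fun g =>
        QuotientAddGroup.map K K (DistribSMul.toAddMonoidHom X g) (fun x hx => hK g x hx)
      one_smul := fun q => by
        induction q using QuotientAddGroup.induction_on with
        | H x => exact congrArg QuotientAddGroup.mk (one_smul G x)
      mul_smul := fun g h q => by
        induction q using QuotientAddGroup.induction_on with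
        | H x => exact congrArg QuotientAddGroup.mk (mul_smul g h x)
      smul_zero := fun g => map_zero (QuotientAddGroup.map K K (DistribSMul.toAddMonoidHom X g)
          (fun x hx => hK g x hx))
      smul_add := fun g a b => map_add (QuotientAddGroup.map K K (DistribSMul.toAddMonoidHom X g)
          (fun x hx => hK g x hx)) a b }
  have hmk : ∀ (g : G) (x : X), g • (x : X ⧸ K) = ((g • x : X) : X ⧸ K) := fun _ _ => rfl
  let Hb : AddSubgroup (X ⧸ K) := H.map (QuotientAddGroup.mk' K)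
  have hHb : ∀ g : ker, ∀ q ∈ Hb, (g : G) • q ∈ Hb := by
    rintro g _ ⟨x, hx, rfl⟩
    exact ⟨_, hH g x hx, (hmk g x).symm⟩
  let act : MulAction ker Hb :=
    { smul := fun g q => ⟨(g : G) • (q : X ⧸ K), hHb g q q.2⟩
      one_smul := fun q => Subtype.ext (one_smul G (q : X ⧸ K))
      mul_smul := fun g h q => Subtype.ext (mul_smul (g : G) (h : G) (q : X ⧸ K)) }
  let P : Subgroup (Equiv.Perm Hb) := (MulAction.toPermHom ker Hb).range
  have hP : IsPGroup p P := by
    rintro ⟨_, g, rfl⟩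
    have hj : ∀ q : Hb, ∃ j : ℕ, ∀ i, (g : ker) ^ (p ^ (j + i)) • q = q := by
      rintro ⟨_, x, hx, rfl⟩
      obtain ⟨j, hj⟩ := hU g g.2 x hx
      refine ⟨j, fun i => Subtype.ext ?_⟩
      have e : ∀ m : ℕ, ((g : G) ^ (p ^ j)) ^ m • x = x := fun m => by
        induction m with
        | zero => simp
        | succ m ihm => rw [pow_succ, mul_smul, hj, ihm]
      show (((g : ker) ^ (p ^ (j + i)) : ker) : G) • ((x : X) : X ⧸ K) = _
      rw [SubgroupClass.coe_pow, hmk, pow_add, pow_mul, e]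
      rfl
    choose j hj using hj
    have := Fintype.ofFinite Hb
    refine ⟨Finset.univ.sup j, Subtype.ext (Equiv.ext fun q => ?_)⟩
    obtain ⟨i, hi⟩ := Nat.exists_eq_add_of_le (Finset.le_sup (f := j) (Finset.mem_univ q))
    rw [Subgroup.coe_one, Equiv.Perm.one_apply, SubgroupClass.coe_pow, ← map_pow, hi]
    exact hj q i
  -- As `p` divides the order of `Hb`, `P` fixes a nonzero point.
  have hvb : (⟨(v : X ⧸ K), v, hv, rfl⟩ : Hb) ≠ 0 := fun h =>
    hvK' ((QuotientAddGroup.eq_zero_iff v).mp (congrArg Subtype.val h))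
  have hdvd : p ∣ Nat.card Hb := by
    have hord : addOrderOf (⟨(v : X ⧸ K), v, hv, rfl⟩ : Hb) = p := by
      refine addOrderOf_eq_prime ?_ hvb
      refine Subtype.ext ?_
      show p • (v : X ⧸ K) = 0
      rw [← QuotientAddGroup.mk_nsmul, hHp v hv]
      rfl
    rw [← hord]
    exact addOrderOf_dvd_natCard _
  have h0 : (0 : Hb) ∈ MulAction.fixedPoints P Hb := by
    rintro ⟨_, g, rfl⟩
    exact Subtype.ext (smul_zero (g : G))
  obtain ⟨⟨_, y, hy, rfl⟩, hb, hb0⟩ :=
    hP.exists_fixed_point_of_prime_dvd_card_of_fixed_point Hb hdvd h0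
  refine ⟨y, hy, fun hyK => hb0 (Subtype.ext ((QuotientAddGroup.eq_zero_iff y).mpr hyK).symm),
    fun g hg => ?_⟩
  have h1 := congrArg Subtype.val (hb ⟨MulAction.toPermHom ker Hb ⟨g, hg⟩, ⟨g, hg⟩, rfl⟩)
  exact QuotientAddGroup.eq_iff_sub_mem.mp h1

/-- If no stable subgroup of `H` has a nonzero invariant map to `ℤ/p` and the kernel of the
character acts on `H` through `p`-groups, an element generating the image of the character has no
nonzero fixed vector in `H`. -/
theorem eq_zero_of_smul_eq (χ : G →* C) (t₀ : G) (hgen : ∀ g, ∃ i : ℕ, χ g = χ t₀ ^ i)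
    (H : AddSubgroup X) (hH : ∀ g : G, ∀ x ∈ H, g • x ∈ H) (hHp : ∀ x ∈ H, p • x = 0)
    (hU : ∀ g, χ g = 1 → ∀ x ∈ H, ∃ j : ℕ, g ^ (p ^ j) • x = x)
    (hhom : ∀ H' : AddSubgroup X, H' ≤ H → (∀ g : G, ∀ x ∈ H', g • x ∈ H') →
      ∀ φ : H' →+ ZMod p, (∀ (g : G) (x y : H'), (y : X) = g • (x : X) → φ y = φ x) → φ = 0)
    (v : X) (hv : v ∈ H) (hfix : t₀ • v = v) : v = 0 := by
  classical
  suffices key : ∀ K : AddSubgroup X, K ≤ H → (∀ g : G, ∀ x ∈ K, g • x ∈ K) →
      ∀ v ∈ H, t₀ • v - v ∈ K → v ∈ K by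
    exact (AddSubgroup.mem_bot).mp (key ⊥ bot_le
      (fun g x hx => by rw [AddSubgroup.mem_bot.mp hx, smul_zero]; exact AddSubgroup.zero_mem _)
      v hv (by rw [hfix, sub_self]; exact AddSubgroup.zero_mem _))
  intro K
  induction K using WellFoundedGT.induction with
  | _ K ih =>
  intro hKH hK v hv hvK
  by_contra hvK'
  -- the elements of `H` fixed modulo `K` by the kernel of `χ`
  let K' : AddSubgroup X :=
    { carrier := {y | y ∈ H ∧ ∀ g, χ g = 1 → g • y - y ∈ K}
      add_mem' := fun {a b} ha hb => ⟨add_mem ha.1 hb.1, fun g hg => by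
        rw [smul_add, add_sub_add_comm]; exact add_mem (ha.2 g hg) (hb.2 g hg)⟩
      zero_mem' := ⟨zero_mem H, fun g _ => by rw [smul_zero, sub_self]; exact zero_mem K⟩
      neg_mem' := fun {a} ha => ⟨neg_mem ha.1, fun g hg => by
        rw [smul_neg, ← neg_sub', neg_mem_iff]; exact ha.2 g hg⟩ }
  have hKK' : K ≤ K' := fun x hx => ⟨hKH hx, fun g _ => sub_mem (hK g x hx) hx⟩
  have hK' : ∀ g : G, ∀ x ∈ K', g • x ∈ K' := fun g x hx => ⟨hH g x hx.1, fun k hk => by
    have hc : χ (g⁻¹ * k * g) = 1 := by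
      rw [map_mul, map_mul, hk, mul_one, ← map_mul, inv_mul_cancel, map_one]
    have := hK g _ (hx.2 _ hc)
    rwa [smul_sub, ← mul_smul, ← mul_assoc, mul_inv_cancel_left, mul_smul] at this⟩
  have hlt : K < K' := by
    refine lt_of_le_of_ne hKK' fun heq => ?_
    obtain ⟨y, hy, hyK, hyfix⟩ := exists_fixed_mod χ H K hH hK hHp hU hv hvK'
    have hyK' : y ∈ K' := ⟨hy, hyfix⟩
    exact hyK (heq ▸ hyK')
  have hvK1 : v ∈ K' := ih K' hlt (fun _ hx => hx.1) hK' v hv (hKK' hvK)
  -- the elements fixed modulo `K` by everything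
  let H' : AddSubgroup X :=
    { carrier := {y | y ∈ H ∧ ∀ g : G, g • y - y ∈ K}
      add_mem' := fun {a b} ha hb => ⟨add_mem ha.1 hb.1, fun g => by
        rw [smul_add, add_sub_add_comm]; exact add_mem (ha.2 g) (hb.2 g)⟩
      zero_mem' := ⟨zero_mem H, fun g => by rw [smul_zero, sub_self]; exact zero_mem K⟩
      neg_mem' := fun {a} ha => ⟨neg_mem ha.1, fun g => by
        rw [smul_neg, ← neg_sub', neg_mem_iff]; exact ha.2 g⟩ }
  have hvH' : v ∈ H' := by
    refine ⟨hv, fun g => ?_⟩
    obtain ⟨i, hi⟩ := hgen g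
    have hk : χ ((t₀ ^ i)⁻¹ * g) = 1 := by rw [map_mul, map_inv, map_pow, hi, inv_mul_cancel]
    have h1 := hK (t₀ ^ i) _ (hvK1.2 _ hk)
    rw [smul_sub, ← mul_smul, mul_inv_cancel_left] at h1
    simpa using add_mem h1 (smul_sub_mem_of_pow hK hvK i)
  let : Module (ZMod p) H' := AddCommGroup.zmodModule (n := p) fun x =>
    Subtype.ext (hHp (x : X) x.2.1)
  let Km : Submodule (ZMod p) H' := AddSubgroup.toZModSubmodule p (K.addSubgroupOf H')
  let w : H' := ⟨v, hvH'⟩
  have hmem : w ∉ Km := fun h => hvK'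
    ((AddSubgroup.mem_addSubgroupOf (h := w)).mp ((AddSubgroup.mem_toZModSubmodule p).mp h))
  obtain ⟨f, hf, hfK⟩ := Submodule.exists_dual_map_eq_bot_of_notMem (R := ZMod p) hmem inferInstance
  have hφ := hhom H' (fun _ hx => hx.1)
    (fun g x hx => ⟨hH g x hx.1, fun g' => by
      have := hx.2 (g' * g)
      rw [mul_smul] at this
      simpa using sub_mem this (hx.2 g)⟩)
    f.toAddMonoidHom (fun g x y hxy => sub_eq_zero.mp ((map_sub f y x).symm.trans
      ((Submodule.mem_bot (ZMod p)).mp (hfK ▸ Submodule.mem_map_of_mem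
        (show ((y - x : H') : X) ∈ K by rw [AddSubgroupClass.coe_sub, hxy]; exact x.2.2 g)))))
  exact hf (DFunLike.congr_fun hφ (⟨v, hvH'⟩ : H'))

end Fermat.Agent.OrdinaryAtP
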