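import Fermat.Agent.OrdinaryAtP.Charts
import Fermat.Agent.RT.Mazur.FixedBasis
import Fermat.Agent.Arith.ResidueLift

/-!
# Frames of inertia-fixed functions on the two charts

A fixed finite family `η` of functions on the intersection of the charts, with coefficients fixed
by inertia, completes the integral functions of the two charts to all integral functions on the
intersection; the decomposition is unique up to a constant and respects congruences. Such a
family exists when there is a meeting point.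

Main result: `exists_completes`.
-/

set_option autoImplicit false

noncomputable section

namespace Fermat.Agent.OrdinaryAtP

open ModularCurve AlgebraicCurve Semistable RT.Mazur
open Arith (QBar GQ)

-- these only shorten instance searches (the instances found are unchanged)
attribute [-instance] RingHom.Finite.instFinite IsScalarTower.of_algHom IsScalarTower.left
attribute [local instance 3000] Semistable.instAlgebraKM
attribute [local instance 2000] HahnSeries.powerSeriesAlgebra SubalgebraClass.toAlgebra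
  Module.Free.of_divisionRing RingHom.instRingHomClass RingHomClass.toAddMonoidHomClass
  RingHomClass.toNonUnitalRingHomClass

variable {A : ValuationSubring QBar} {p : ℕ} [hp : Fact p.Prime] {M : ℕ} [NeZero M]

/-! ## Fixed coefficients -/

/-- The coefficients are fixed by the given automorphisms. -/
def FixBy (H : Subgroup GQ) (z : FB (p * M)) : Prop := ∀ τ ∈ H, galF (p * M) τ z = z

omit hp [NeZero M] in
/-- The Galois action on functions is semilinear. -/
theorem galF_smul (τ : GQ) (a : QBar) (z : FB (p * M)) :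
    galF (p * M) τ (a • z) = τ a • galF (p * M) τ z := by
  rw [Algebra.smul_def, Algebra.smul_def, map_mul, arithmeticRingAut_algebraMap]

theorem galF_jF (τ : GQ) : galF (p * M) τ (jF p M) = jF p M := by
  rw [jF, galF_upF, galF_jM]

theorem galF_mem_HD_zero (τ : GQ) {k : ℕ} {z : FB (p * M)} (hz : z ∈ HD M p 0 k) :
    galF (p * M) τ z ∈ HD M p 0 k := by
  rw [HD_zero] at hz ⊢
  exact galF_mem_poles (p * M) (galF_jF τ) hz

/-- A finite family completing a subspace to a larger one. -/
theorem exists_completing {K V : Type*} [Field K] [AddCommGroup V] [Module K V]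
    {S T : Submodule K V} (hST : S ≤ T) [FiniteDimensional K T] :
    ∃ (g : ℕ) (v : Fin g → V), (∀ i, v i ∈ T) ∧
      (∀ c : Fin g → K, ∑ i, c i • v i ∈ S → ∀ i, c i = 0) ∧
      g + Module.finrank K S = Module.finrank K T := by
  obtain ⟨C, hC⟩ := Submodule.exists_isCompl (S.comap T.subtype)
  let b := Module.finBasis K C
  refine ⟨_, fun i => ((b i : T) : V), fun i => (b i : T).2, fun c hc i => ?_, ?_⟩
  · have h1 : (∑ i, c i • (b i : T)) ∈ S.comap T.subtype := by
      rw [Submodule.mem_comap, map_sum]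
      simpa using hc
    have h2 : (∑ i, c i • (b i : T)) ∈ C := sum_mem fun i _ => C.smul_mem _ (b i).2
    have h3 := Submodule.disjoint_def.mp hC.disjoint _ h1 h2
    refine Fintype.linearIndependent_iff.mp b.linearIndependent c (Subtype.ext ?_) i
    simpa using h3
  · rw [← Submodule.finrank_add_eq_of_isCompl hC,
      (Submodule.comapSubtypeEquivOfLe hST).finrank_eq, add_comm]

variable (h : Setup A M p)
include h

theorem galF_mem_infSp (τ : GQ) {k : ℕ} {z : FB (p * M)} (hz : z ∈ infSp h 0 k) :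
    galF (p * M) τ z ∈ infSp h 0 k := by
  rw [mem_infSp] at hz ⊢
  have := galF_mem_HD_zero τ hz
  rwa [map_mul, map_pow, galF_jF] at this

theorem galF_mem_ovSp (τ : GQ) {k : ℕ} {z : FB (p * M)} (hz : z ∈ ovSp h 0 k) :
    galF (p * M) τ z ∈ ovSp h 0 k := by
  rw [mem_ovSp] at hz ⊢
  have := galF_mem_HD_zero τ hz
  rwa [map_mul, map_pow, galF_jF] at this

theorem finrank_ovSp (D : Divisor QBar (FB (p * M))) (k : ℕ) :
    Module.finrank QBar (ovSp h D k) = Module.finrank QBar (HD M p D (k + k)) := by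
  obtain ⟨hfin, hle⟩ := finrank_ovSp_le h D k
  refine le_antisymm hle ?_
  let L : HD M p D (k + k) →ₗ[QBar] ovSp h D k :=
    ((LinearMap.mulLeft QBar ((jF p M ^ k)⁻¹)).comp (HD M p D (k + k)).subtype).codRestrict _
      fun z => (mem_ovSp h).mpr (by
        show jF p M ^ k * ((jF p M ^ k)⁻¹ * (z : FB (p * M))) ∈ _
        rw [← mul_assoc, mul_inv_cancel₀ (pow_ne_zero k (jF_ne_zero)), one_mul]
        exact z.2)
  refine LinearMap.finrank_le_finrank_of_injective (f := L) fun a b e => ?_
  have e' : (jF p M ^ k)⁻¹ * (a : FB (p * M)) = (jF p M ^ k)⁻¹ * (b : FB (p * M)) :=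
    congrArg Subtype.val e
  exact Subtype.ext (mul_left_cancel₀ (inv_ne_zero (pow_ne_zero k (jF_ne_zero))) e')

/-- Reductions of a stable space lift with coefficients fixed by inertia. -/
theorem exists_fixed_lift_red (W : Submodule QBar (FB (p * M))) [FiniteDimensional QBar W]
    (hW : ∀ (τ : GQ), ∀ x ∈ W, galF (p * M) τ x ∈ W) {r : Fin 2 → LaurentSeries (Res A)}
    (hr : r ∈ redSub A (iota2 M p h.hqM) W) :
    ∃ x : Oh h, (x : FB (p * M)) ∈ W ∧ FixBy (A.inertiaSubgroupIn ℚ) (x : FB (p * M)) ∧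
      redh h x = r := by
  classical
  have hcomm : ∀ (τ : GQ) (s : Fin 2) (x : FB (p * M)),
      iota2 M p h.hqM s (galF (p * M) τ x) = coeffMap (τ : QBar →+* QBar)
          (iota2 M p h.hqM s x) := by
    intro τ s x
    fin_cases s
    · exact coe_arithmeticRingAut τ x
    · refine (iota2_one M p h.hqM _).trans ?_
      rw [wEquiv_galois, coe_arithmeticRingAut]
      exact congrArg _ (iota2_one M p h.hqM x).symm
  obtain ⟨w, hwl, hwW, hwfix, hwi⟩ := exists_fixed_redBasis h.hA hp.out
    (le_refl (A.inertiaSubgroupIn ℚ)) (iota2 M p h.hqM) (iota2_fracS M p h.hqM)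
    (fun τ _ s x => hcomm τ s x) W (fun τ _ x hx => hW τ x hx)
  let u : Fin (Module.finrank QBar W) → Oh h := fun a => ⟨w a, (mem_loc2 _).mpr (hwl a)⟩
  have hli : LinearIndependent (Res A) fun a => redh h (u a) := hwi
  obtain ⟨hfin, hdim⟩ := finrank_redSub p h.hA (iota2 M p h.hqM) (iota2_fracS M p h.hqM) W
  have hspan : Submodule.span (Res A) (Set.range fun a => redh h (u a)) =
      redSub A (iota2 M p h.hqM) W := by
    refine Submodule.eq_of_le_of_finrank_le (Submodule.span_le.mpr ?_) ?_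
    · rintro _ ⟨a, rfl⟩; exact mem_redSub.mpr ⟨u a, hwW a, rfl⟩
    · rw [finrank_span_eq_card hli, Fintype.card_fin, hdim]
  rw [← hspan, Submodule.mem_span_range_iff_exists_fun] at hr
  obtain ⟨c, rfl⟩ := hr
  choose a ha hafix hares using fun i => Arith.exists_inertiaFixed_lift h.hA hp.out (c i)
  refine ⟨∑ i, ⟨a i • (u i : FB (p * M)), smul_mem_loc2 (ha i) (u i).2⟩, ?_, fun τ hτ => ?_, ?_⟩
  · rw [AddSubmonoidClass.coe_finsetSum]
    exact Submodule.sum_mem _ fun i _ => W.smul_mem _ (hwW i)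
  · rw [AddSubmonoidClass.coe_finsetSum, map_sum]
    refine Finset.sum_congr rfl fun i _ => ?_
    rw [galF_smul, hafix i τ hτ]
    refine congrArg _ ((iota2 M p h.hqM 0).toRingHom.injective ?_)
    show iota2 M p h.hqM 0 (galF (p * M) τ (w i)) = iota2 M p h.hqM 0 (w i)
    rw [hcomm]
    exact hwfix i 0 τ hτ
  · rw [map_sum]
    exact Finset.sum_congr rfl fun i _ => by
      rw [← hares i]; exact red2_smul (ι := iota2 M p h.hqM) (ha i) (u i)

/-! ## The charts and their reductions -/

/-- The integral functions fixed by inertia on the first chart. -/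
def finGen : Set (FB (p * M)) :=
  {z | z ∈ Oh h ∧ FixBy (A.inertiaSubgroupIn ℚ) z ∧ ∃ m, z ∈ HD M p 0 m}

/-- The integral functions fixed by inertia on the chart at infinity. -/
def infGen : Set (FB (p * M)) :=
  {z | z ∈ Oh h ∧ FixBy (A.inertiaSubgroupIn ℚ) z ∧ ∃ m, z ∈ infSp h 0 m}

/-- The integral functions fixed by inertia on both charts. -/
def ovGen : Set (FB (p * M)) :=
  {z | z ∈ Oh h ∧ FixBy (A.inertiaSubgroupIn ℚ) z ∧ ∃ m, z ∈ ovSp h 0 m}

/-- A family completing the two charts on their intersection. -/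
structure Completes {g : ℕ} (η : Fin g → FB (p * M)) : Prop where
  mem : ∀ i, η i ∈ ovGen h
  /-- Fixed decompositions. -/
  split : ∀ (H : Subgroup GQ), H ≤ A.inertiaSubgroupIn ℚ → ∀ z ∈ Oh h, FixBy H z →
    ∀ k, z ∈ ovSp h 0 k → ∃ (m : ℕ) (e : Fin m → FB (p * M)) (a : Fin m → QBar),
      (∀ i, e i ∈ finGen h ∨ e i ∈ infGen h ∨ e i ∈ Set.range η) ∧
      (∀ i, a i ∈ A ∧ ∀ τ ∈ H, τ (a i) = a i) ∧
      (∀ γ, z ∈ small A (iota2 M p h.hqM) γ → ∀ i, γ⁻¹ * a i ∈ A) ∧ z = ∑ i, a i • e i
  /-- Uniqueness. -/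
  indep : ∀ (k : ℕ) (x t : FB (p * M)) (c : Fin g → QBar) (γ : QBar),
    x ∈ HD M p 0 k → t ∈ infSp h 0 k →
    x + t + ∑ i, c i • η i ∈ small A (iota2 M p h.hqM) γ →
    ∃ κ : QBar, x - κ • 1 ∈ small A (iota2 M p h.hqM) γ ∧
      t + κ • 1 ∈ small A (iota2 M p h.hqM) γ ∧ ∀ i, γ⁻¹ * c i ∈ A

/-- The reductions of the bounded functions on the first chart. -/
abbrev RedF (k : ℕ) : Submodule (Res A) (Fin 2 → LaurentSeries (Res A)) :=
  redSub A (iota2 M p h.hqM) (HD M p 0 k)

/-- The reductions of the bounded functions on the chart at infinity. -/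
abbrev RedI (k : ℕ) : Submodule (Res A) (Fin 2 → LaurentSeries (Res A)) :=
  redSub A (iota2 M p h.hqM) (infSp h 0 k)

/-- The reductions of the bounded functions on both charts. -/
abbrev RedO (k : ℕ) : Submodule (Res A) (Fin 2 → LaurentSeries (Res A)) :=
  redSub A (iota2 M p h.hqM) (ovSp h 0 k)

/-- The reductions of the first chart are the bounded pieces. -/
theorem RedF_eq (k : ℕ) : RedF h k = Bn A M p h.hqM k := Bn_eq_LD_zero h k

/-- The reductions at infinity are the series that `j ^ k` carries into the bounded piece. -/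
theorem mem_RedI {k : ℕ} {s : Fin 2 → LaurentSeries (Res A)} :
    s ∈ RedI h k ↔ jPow A p k * s ∈ Bn A M p h.hqM k := by
  rw [← Bn_eq_LD_zero h k]
  constructor
  · intro hs
    obtain ⟨t, ht, rfl⟩ := mem_redSub.mp hs
    exact jPow_redh_inf h ht
  · intro hs
    obtain ⟨t, ht, e⟩ := exists_inf_lift h hs
    exact mem_redSub.mpr ⟨t, ht, jPow_cancel e⟩

/-- `j ^ k` carries reductions on the intersection into the bounded piece of twice the bound. -/
theorem jPow_mul_mem_of_RedO {k : ℕ} {s : Fin 2 → LaurentSeries (Res A)} (hs : s ∈ RedO h k) :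
    jPow A p k * s ∈ Bn A M p h.hqM (k + k) := by
  rw [← Bn_eq_LD_zero h]
  obtain ⟨t, ht, rfl⟩ := mem_redSub.mp hs
  exact jPow_redh_ov h ht

theorem infSp_finite (k : ℕ) : FiniteDimensional QBar (infSp h 0 k) :=
  have := (finrank_ovSp_le h 0 k).1
  Submodule.finiteDimensional_of_le (infSp_le_ovSp h 0 k)

/-- The number of bounded functions. -/
def dimH (_h : Setup A M p) (k : ℕ) : ℕ := Module.finrank QBar (HN M p k)

theorem finrank_HD_zero (k : ℕ) : Module.finrank QBar (HD M p 0 k) = dimH h k := by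
  rw [dimH, HD_zero]

theorem finrank_RedF (k : ℕ) : FiniteDimensional (Res A) (RedF h k) ∧
    Module.finrank (Res A) (RedF h k) = dimH h k := by
  obtain ⟨a, b⟩ := finrank_redSub p h.hA (iota2 M p h.hqM) (iota2_fracS M p h.hqM) (HD M p 0 k)
  exact ⟨a, b.trans (finrank_HD_zero h k)⟩

theorem finrank_RedO (k : ℕ) : FiniteDimensional (Res A) (RedO h k) ∧
    Module.finrank (Res A) (RedO h k) = dimH h (k + k) := by
  have := (finrank_ovSp_le h 0 k).1
  obtain ⟨a, b⟩ := finrank_redSub p h.hA (iota2 M p h.hqM) (iota2_fracS M p h.hqM) (ovSp h 0 k)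
  exact ⟨a, b.trans ((finrank_ovSp h 0 k).trans (finrank_HD_zero h _))⟩

theorem finrank_RedI (k : ℕ) : FiniteDimensional (Res A) (RedI h k) ∧
    Module.finrank (Res A) (RedI h k) = dimH h k := by
  have := infSp_finite h k
  obtain ⟨a, b⟩ := finrank_redSub p h.hA (iota2 M p h.hqM) (iota2_fracS M p h.hqM) (infSp h 0 k)
  refine ⟨a, ?_⟩
  let mu : (Fin 2 → LaurentSeries (Res A)) →ₗ[Res A] (Fin 2 → LaurentSeries (Res A)) :=
    mulPair (jPow A p k)
  have hmu : Function.Injective mu := fun a b e => jPow_cancel e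
  have e : (RedI h k).map mu = RedF h k := by
    rw [RedF_eq]
    refine le_antisymm ?_ fun r hr => ?_
    · rintro _ ⟨s, hs, rfl⟩; exact (mem_RedI h).mp hs
    · rw [← Bn_eq_LD_zero h k] at hr
      obtain ⟨t, ht, e⟩ := exists_inf_lift h hr
      exact ⟨redh h t, mem_redSub.mpr ⟨t, ht, rfl⟩, e⟩
  rw [← (finrank_RedF h k).2, ← e, ← (Submodule.equivMapOfInjective mu hmu _).finrank_eq]

theorem one_mem_RedF (k : ℕ) : (1 : Fin 2 → LaurentSeries (Res A)) ∈ RedF h k :=
  mem_redSub.mpr ⟨1, one_mem_HD k, map_one _⟩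

theorem one_mem_RedI (k : ℕ) : (1 : Fin 2 → LaurentSeries (Res A)) ∈ RedI h k :=
  mem_redSub.mpr ⟨1, one_mem_infSp h k, map_one _⟩

theorem RedF_le_RedO (k : ℕ) : RedF h k ≤ RedO h k := redSub_le h (fin_le_ovSp h 0 k)

theorem RedI_le_RedO (k : ℕ) : RedI h k ≤ RedO h k := redSub_le h (infSp_le_ovSp h 0 k)

/-! ## Complements and frames -/

/-- Beyond `n` the two charts are independent on the bounded piece and meet in the constants, and
the number of functions is linear. -/
structure BigEnough (n : ℕ) : Prop where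
  key : ∀ k, n ≤ k → ∀ r ∈ RedF h k, ∀ s ∈ RedI h k, r + s ∈ RedO h n →
    r ∈ RedF h n ∧ s ∈ RedI h n
  const : ∀ k, n ≤ k → ∀ r ∈ RedF h k, r ∈ RedI h k → ∃ β : Res A, r = β • 1
  dim : ∀ k, n ≤ k → (dimH h (k + k) : ℤ) - 2 * dimH h k =
    (dimH h (n + n) : ℤ) - 2 * dimH h n

theorem exists_bigEnough [FF.IsFunctionField (Res A) (KM A M)] [CharP (Res A) p] [Nonempty (Pt h)] :
    ∃ n, BigEnough h n := by
  obtain ⟨n₁, hn₁⟩ := exists_indep h
  obtain ⟨n₂, hn₂⟩ := exists_const_of_both h
  obtain ⟨n₃, hn₃⟩ := exists_finrank_eq (A := A) M p h.hM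
  refine ⟨n₁ + n₂ + n₃, ⟨fun k hk r hr s hs hrs => ?_, fun k hk r hr hr' => ?_, fun k hk => ?_⟩⟩
  · set n := n₁ + n₂ + n₃ with hn
    obtain ⟨h1, s', hs', e⟩ := hn₁ n (by omega) k hk r (RedF_eq h k ▸ hr) _ ((mem_RedI h).mp hs) _
      (jPow_mul_mem_of_RedO h hrs)
      (by rw [← mul_assoc, ← jPow_add, Nat.sub_add_cancel hk, mul_add])
    refine ⟨(RedF_eq h n).symm ▸ h1, (mem_RedI h).mpr ?_⟩
    have e2 : jPow A p (k - n) * (jPow A p n * s) = jPow A p (k - n) * s' := by
      rw [← mul_assoc, ← jPow_add, Nat.sub_add_cancel hk, e]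
    rw [jPow_cancel e2]
    exact hs'
  · exact hn₂ k (by omega) r (RedF_eq h k ▸ hr) ((mem_RedI h).mp hr')
  · obtain ⟨-, e1, -⟩ := hn₃ k (by omega)
    obtain ⟨-, e2, -⟩ := hn₃ (k + k) (by omega)
    obtain ⟨-, e3, -⟩ := hn₃ (n₁ + n₂ + n₃) (by omega)
    obtain ⟨-, e4, -⟩ := hn₃ (n₁ + n₂ + n₃ + (n₁ + n₂ + n₃)) (by omega)
    simp only [dimH]
    push_cast at e1 e2 e3 e4
    linear_combination e2 - 2 * e1 - e4 + 2 * e3

/-- A fixed family whose reductions complement those of the two charts in the bounded piece. -/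
structure Complement (n g : ℕ) (η : Fin g → Oh h) : Prop where
  mem : ∀ i, (η i : FB (p * M)) ∈ ovSp h 0 n
  fixed : ∀ i, FixBy (A.inertiaSubgroupIn ℚ) (η i : FB (p * M))
  indep : ∀ c : Fin g → Res A, ∑ i, c i • redh h (η i) ∈ RedF h n ⊔ RedI h n → ∀ i, c i = 0
  card : (g : ℤ) = dimH h (n + n) - (2 * dimH h n - 1)

/-- A big enough bound admits a complement of the two charts. -/
theorem exists_complement {n : ℕ} (hn : BigEnough h n) :
    ∃ (g : ℕ) (η : Fin g → Oh h), Complement h n g η := by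
  classical
  have := (finrank_RedO h n).1
  have := (finrank_RedF h n).1
  have := (finrank_RedI h n).1
  obtain ⟨g, v, hvT, hvind, hg⟩ :=
    exists_completing (K := Res A) (sup_le (RedF_le_RedO h n) (RedI_le_RedO h n))
  have := (finrank_ovSp_le h 0 n).1
  choose η hηO hηfix hηred using fun i => exists_fixed_lift_red h (ovSp h 0 n)
    (fun τ x hx => galF_mem_ovSp h τ hx) (hvT i)
  refine ⟨g, η, ⟨hηO, hηfix, fun c hc => hvind c ?_, ?_⟩⟩
  · simpa only [hηred] using hc
  · have e := Submodule.finrank_sup_add_finrank_inf_eq (RedF h n) (RedI h n)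
    have hinf : RedF h n ⊓ RedI h n = Submodule.span (Res A) {1} := by
      refine le_antisymm ?_ ((Submodule.span_singleton_le_iff_mem _ _).mpr
        ⟨one_mem_RedF h n, one_mem_RedI h n⟩)
      rintro r ⟨hr, hr'⟩
      obtain ⟨β, rfl⟩ := hn.const n le_rfl r hr hr'
      exact Submodule.smul_mem _ _ (Submodule.mem_span_singleton_self _)
    rw [hinf, finrank_span_singleton one_ne_zero, (finrank_RedF h n).2,
      (finrank_RedI h n).2] at e
    rw [(finrank_RedO h n).2] at hg
    omega

/-- The members of a frame. -/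
def frame {a b g : ℕ} (X : Fin a → Oh h) (Y : Fin b → Oh h) (η : Fin g → Oh h) :
    Unit ⊕ Fin a ⊕ Fin b ⊕ Fin g → Oh h :=
  Sum.elim (fun _ => 1) (Sum.elim X (Sum.elim Y η))

/-- A fixed frame of the bounded functions on both charts adapted to the charts. -/
theorem exists_frame {n g : ℕ} {η : Fin g → Oh h} (hn : BigEnough h n) (hη : Complement h n g η)
    {k : ℕ} (hk : n ≤ k) : ∃ (a b : ℕ) (X : Fin a → Oh h) (Y : Fin b → Oh h),
      (∀ i, (X i : FB (p * M)) ∈ HD M p 0 k ∧
        FixBy (A.inertiaSubgroupIn ℚ) (X i : FB (p * M))) ∧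
      (∀ i, (Y i : FB (p * M)) ∈ infSp h 0 k ∧
        FixBy (A.inertiaSubgroupIn ℚ) (Y i : FB (p * M))) ∧
      (LinearIndependent (Res A) fun i => redh h (frame h X Y η i)) ∧
      a + 1 = dimH h k ∧ b + 1 = dimH h k ∧ 1 + (a + (b + g)) = dimH h (k + k) := by
  classical
  have := (finrank_RedF h k).1
  have := (finrank_RedI h k).1
  have h1F : Submodule.span (Res A) {(1 : Fin 2 → LaurentSeries (Res A))} ≤ RedF h k :=
    (Submodule.span_singleton_le_iff_mem _ _).mpr (one_mem_RedF h k)
  have h1I : Submodule.span (Res A) {(1 : Fin 2 → LaurentSeries (Res A))} ≤ RedI h k :=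
    (Submodule.span_singleton_le_iff_mem _ _).mpr (one_mem_RedI h k)
  -- Complete the constants in the two reduced spaces and lift with fixed coefficients.
  obtain ⟨a, v, hvT, hvind, ea⟩ := exists_completing (K := Res A) h1F
  obtain ⟨b, w, hwT, hwind, eb⟩ := exists_completing (K := Res A) h1I
  rw [finrank_span_singleton one_ne_zero, (finrank_RedF h k).2] at ea
  rw [finrank_span_singleton one_ne_zero, (finrank_RedI h k).2] at eb
  have := infSp_finite h k
  choose X hXmem hXfix hXred using fun i => exists_fixed_lift_red h (HD M p 0 k)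
    (fun τ x hx => galF_mem_HD_zero τ hx) (hvT i)
  choose Y hYmem hYfix hYred using fun i => exists_fixed_lift_red h (infSp h 0 k)
    (fun τ x hx => galF_mem_infSp h τ hx) (hwT i)
  refine ⟨a, b, X, Y, fun i => ⟨hXmem i, hXfix i⟩, fun i => ⟨hYmem i, hYfix i⟩, ?_, ea, eb, ?_⟩
  · refine Fintype.linearIndependent_iff.mpr fun c hc => ?_
    simp only [frame, Fintype.sum_sum_type, Finset.univ_unique, Finset.sum_singleton, Sum.elim_inl,
      Sum.elim_inr, map_one, hXred, hYred] at hc
    -- A relation splits between the charts; the complement and the constants separate it.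
    set β := c (Sum.inl default)
    set r₀ := ∑ i, c (Sum.inr (Sum.inl i)) • v i with hr₀
    set s₀ := ∑ i, c (Sum.inr (Sum.inr (Sum.inl i))) • w i with hs₀
    set e₀ := ∑ i, c (Sum.inr (Sum.inr (Sum.inr i))) • redh h (η i) with he₀
    have hrF : β • 1 + r₀ ∈ RedF h k := add_mem (Submodule.smul_mem _ _ (one_mem_RedF h k))
      (sum_mem fun i _ => Submodule.smul_mem _ _ (hvT i))
    have hsI : s₀ ∈ RedI h k := sum_mem fun i _ => Submodule.smul_mem _ _ (hwT i)
    have he₀O : e₀ ∈ RedO h n := sum_mem fun i _ => Submodule.smul_mem _ _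
      (mem_redSub.mpr ⟨η i, hη.mem i, rfl⟩)
    have hsum : β • 1 + r₀ + s₀ = -e₀ := by
      rw [eq_neg_iff_add_eq_zero, ← hc]; abel
    obtain ⟨hrn, hsn⟩ := hn.key k hk _ hrF _ hsI (hsum ▸ neg_mem he₀O)
    have hη0 := hη.indep _ (show e₀ ∈ RedF h n ⊔ RedI h n by
      rw [← neg_neg e₀, ← hsum]
      exact neg_mem (add_mem (Submodule.mem_sup_left hrn) (Submodule.mem_sup_right hsn)))
    have he0 : e₀ = 0 := Finset.sum_eq_zero fun i _ => by rw [hη0 i, zero_smul]
    rw [he0, neg_zero, add_eq_zero_iff_eq_neg] at hsum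
    obtain ⟨β', hβ'⟩ := hn.const k hk _ hrF (hsum ▸ neg_mem hsI)
    have hX0 := hvind _ (show r₀ ∈ Submodule.span (Res A) {1} from
      Submodule.mem_span_singleton.mpr ⟨β' - β, by rw [sub_smul, ← hβ', add_sub_cancel_left]⟩)
    have hY0 := hwind _ (show s₀ ∈ Submodule.span (Res A) {1} from
      Submodule.mem_span_singleton.mpr ⟨-β', by rw [neg_smul, ← hβ', hsum, neg_neg]⟩)
    have hr0 : r₀ = 0 := Finset.sum_eq_zero fun i _ => by rw [hX0 i, zero_smul]
    have hs0 : s₀ = 0 := Finset.sum_eq_zero fun i _ => by rw [hY0 i, zero_smul]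
    rw [hr0, hs0, he0, add_zero, add_zero, add_zero] at hc
    rintro (_ | i | i | i)
    · exact (smul_eq_zero.mp hc).resolve_right one_ne_zero
    · exact hX0 i
    · exact hY0 i
    · exact hη0 i
  -- Count the dimensions.
  · have := hn.dim k hk
    have := hη.card
    omega

/-! ## The completing family -/

section Completes

variable {n g : ℕ} {η : Fin g → Oh h} (hn : BigEnough h n) (hη : Complement h n g η)
include hn hη

theorem exists_split_fixed {H : Subgroup GQ} (hH : H ≤ A.inertiaSubgroupIn ℚ)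
    {z : FB (p * M)} (hz : z ∈ Oh h) (hfix : FixBy H z) {k₀ : ℕ} (hzk₀ : z ∈ ovSp h 0 k₀) :
    ∃ (m : ℕ) (e : Fin m → FB (p * M)) (a : Fin m → QBar),
      (∀ i, e i ∈ finGen h ∨ e i ∈ infGen h ∨ e i ∈ Set.range fun i => (η i : FB (p * M))) ∧
      (∀ i, a i ∈ A ∧ ∀ τ ∈ H, τ (a i) = a i) ∧
      (∀ γ, z ∈ small A (iota2 M p h.hqM) γ → ∀ i, γ⁻¹ * a i ∈ A) ∧ z = ∑ i, a i • e i := by
  classical
  set k := n + k₀ with hk
  -- A fixed frame for a large degree is a basis of the bounded functions.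
  obtain ⟨a, b, X, Y, hX, hY, hli, ha, hb, hcard⟩ := exists_frame h hn hη (show n ≤ k by omega)
  have := (finrank_ovSp_le h 0 k).1
  set w := frame h X Y η
  have hwmem : ∀ i, (w i : FB (p * M)) ∈ ovSp h 0 k := by
    rintro (_ | i | i | i)
    · exact fin_le_ovSp h 0 k (one_mem_HD k)
    · exact fin_le_ovSp h 0 k (hX i).1
    · exact infSp_le_ovSp h 0 k (hY i).1
    · exact ovSp_mono h 0 (Nat.le_add_right _ _) (hη.mem i)
  have hwfix : ∀ i, FixBy (A.inertiaSubgroupIn ℚ) (w i : FB (p * M)) := by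
    rintro (_ | i | i | i)
    · exact fun τ _ => map_one _
    · exact (hX i).2
    · exact (hY i).2
    · exact hη.fixed i
  have hsp := span_eq_of_card hli (ovSp h 0 k) hwmem (by
    rw [finrank_ovSp h 0 k, finrank_HD_zero h]
    simp only [Fintype.card_sum, Fintype.card_fin, Fintype.card_unit]
    omega)
  obtain ⟨c, hc⟩ := (Submodule.mem_span_range_iff_exists_fun QBar).mp
    (hsp.ge (ovSp_mono h 0 (show k₀ ≤ k by omega) hzk₀))
  -- The coordinates of an integral fixed function are integral and fixed.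
  have hcA : ∀ i, c i ∈ A := coords_mem hli (by rw [hc]; exact hz)
  have hcfix : ∀ i, ∀ τ ∈ H, τ (c i) = c i := fun i τ hτ => by
    have e := congrArg (galF (p * M) τ) hc
    rw [map_sum, hfix τ hτ] at e
    simp only [galF_smul, hwfix _ τ (hH hτ)] at e
    refine sub_eq_zero.mp (coords_eq_zero hli (c := fun i => τ (c i) - c i) ?_ i)
    simp only [sub_smul, Finset.sum_sub_distrib]
    rw [hc, e, sub_self]
  let ei := (Fintype.equivFin (Unit ⊕ Fin a ⊕ Fin b ⊕ Fin g)).symm
  refine ⟨_, fun i => (w (ei i) : FB (p * M)), fun i => c (ei i), fun i => ?_,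
    fun i => ⟨hcA _, hcfix _⟩, fun γ hγ i => coords_small hli (by rw [hc]; exact hγ) _,
    (hc.symm.trans (ei.sum_comp fun i => c i • (w i : FB (p * M))).symm)⟩
  dsimp only
  generalize ei i = u
  rcases u with _ | j | j | j
  · exact Or.inl ⟨one_mem (Oh h), fun τ _ => map_one _, 0, one_mem_HD 0⟩
  · exact Or.inl ⟨(X j).2, (hX j).2, k, (hX j).1⟩
  · exact Or.inr (Or.inl ⟨(Y j).2, (hY j).2, k, (hY j).1⟩)
  · exact Or.inr (Or.inr ⟨j, rfl⟩)

theorem exists_const_split {k₀ : ℕ} {x t : FB (p * M)} {c : Fin g → QBar} {γ : QBar}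
    (hx : x ∈ HD M p 0 k₀) (ht : t ∈ infSp h 0 k₀)
    (hsum : x + t + ∑ i, c i • (η i : FB (p * M)) ∈ small A (iota2 M p h.hqM) γ) :
    ∃ κ : QBar, x - κ • 1 ∈ small A (iota2 M p h.hqM) γ ∧
      t + κ • 1 ∈ small A (iota2 M p h.hqM) γ ∧ ∀ i, γ⁻¹ * c i ∈ A := by
  classical
  set k := n + k₀ with hk
  obtain ⟨a, b, X, Y, hX, hY, hli, ha, hb, -⟩ := exists_frame h hn hη (show n ≤ k by omega)
  -- The frame restricts to bases of the two chart spaces.
  have hspX : Submodule.span QBar (Set.range fun i : Unit ⊕ Fin a =>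
      ((Sum.elim (fun _ => (1 : Oh h)) X i : Oh h) : FB (p * M))) = HD M p 0 k := by
    refine span_eq_of_card (w := Sum.elim (fun _ : Unit => (1 : Oh h)) X) ?_ _ ?_ ?_
    · have := hli.comp (Sum.map id Sum.inl) (Function.injective_id.sumMap Sum.inl_injective)
      convert this using 1
      funext i
      rcases i with _ | i <;> rfl
    · rintro (_ | i)
      · exact one_mem_HD k
      · exact (hX i).1
    · rw [finrank_HD_zero h]
      simp only [Fintype.card_sum, Fintype.card_fin, Fintype.card_unit]; omega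
  have hspY : Submodule.span QBar (Set.range fun i : Unit ⊕ Fin b =>
      ((Sum.elim (fun _ => (1 : Oh h)) Y i : Oh h) : FB (p * M))) = infSp h 0 k := by
    have := infSp_finite h k
    refine span_eq_of_card (w := Sum.elim (fun _ : Unit => (1 : Oh h)) Y) ?_ _ ?_ ?_
    · have := hli.comp (Sum.map id (Sum.inr ∘ Sum.inl))
        (Function.injective_id.sumMap (Sum.inr_injective.comp Sum.inl_injective))
      convert this using 1
      funext i
      rcases i with _ | i <;> rfl
    · rintro (_ | i)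
      · exact one_mem_infSp h k
      · exact (hY i).1
    · obtain ⟨-, e⟩ := finrank_redSub p h.hA (iota2 M p h.hqM) (iota2_fracS M p h.hqM)
        (infSp h 0 k)
      have e' := (finrank_RedI h k).2
      rw [← e]
      refine le_of_eq (e'.trans ?_)
      simp only [Fintype.card_sum, Fintype.card_fin, Fintype.card_unit]
      omega
  obtain ⟨u, hu⟩ := (Submodule.mem_span_range_iff_exists_fun QBar).mp
    (hspX.ge (HD_mono 0 (show k₀ ≤ k by omega) hx))
  obtain ⟨v, hv⟩ := (Submodule.mem_span_range_iff_exists_fun QBar).mp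
    (hspY.ge (infSp_mono h 0 (show k₀ ≤ k by omega) ht))
  simp only [Fintype.sum_sum_type, Finset.univ_unique, Finset.sum_singleton, Sum.elim_inl,
    Sum.elim_inr, OneMemClass.coe_one] at hu hv
  set u₀ := u (Sum.inl default)
  set v₀ := v (Sum.inl default)
  -- Small sums have small coordinates; move the constant between the charts.
  have hco := coords_small hli (γ := γ) (c := Sum.elim (fun _ => u₀ + v₀)
    (Sum.elim (u ∘ Sum.inr) (Sum.elim (v ∘ Sum.inr) c))) (by
    simp only [frame, Fintype.sum_sum_type, Finset.univ_unique, Finset.sum_singleton, Sum.elim_inl,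
      Sum.elim_inr, OneMemClass.coe_one, Function.comp_apply, add_smul]
    convert hsum using 1
    rw [← hu, ← hv]
    abel)
  refine ⟨u₀, ?_, ?_, fun i => hco (Sum.inr (Sum.inr (Sum.inr i)))⟩
  · rw [← hu, add_sub_cancel_left]
    exact sum_mem fun i _ => smul_mem_small (hco (Sum.inr (Sum.inl i))) (X i).2
  · rw [← hv, add_right_comm, ← add_smul, add_comm v₀ u₀]
    exact add_mem (smul_mem_small (hco (Sum.inl default)) (one_mem _))
      (sum_mem fun i _ => smul_mem_small (hco (Sum.inr (Sum.inr (Sum.inl i)))) (Y i).2)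

end Completes

/-- A completing family exists. -/
theorem exists_completes [FF.IsFunctionField (Res A) (KM A M)] [CharP (Res A) p] [Nonempty (Pt h)] :
    ∃ (g : ℕ) (η : Fin g → FB (p * M)), Completes h η := by
  obtain ⟨n, hn⟩ := exists_bigEnough h
  obtain ⟨g, η, hη⟩ := exists_complement h hn
  exact ⟨g, fun i => (η i : FB (p * M)),
    ⟨fun i => ⟨(η i).2, hη.fixed i, n, hη.mem i⟩,
      fun _ hH _ hz hfix _ hzk => exists_split_fixed h hn hη hH hz hfix hzk,
      fun _ _ _ _ _ hx ht hsum => exists_const_split h hn hη hx ht hsum⟩⟩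

end Fermat.Agent.OrdinaryAtP

end
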