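import Fermat.Agent.Arith.Precomp
import Fermat.Agent.OrdinaryAtP.Coord
import Fermat.Agent.OrdinaryAtP.Average

/-!
# The functions on a group of classes congruent to the origin

When there is a meeting point, a finite group of classes with trivial gluing, stable under
inertia, carries an algebra over the fixed ring of equivariant integral functions which separates
points, is congruent to its value at the origin and is compatible with the group law.

Main result: `exists_connectedFunctions`.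
-/

set_option autoImplicit false

noncomputable section

namespace Fermat.Agent.OrdinaryAtP

open ModularCurve AlgebraicCurve Semistable
open Arith (QBar GQ precomp precomp_apply)

/-! ## Equivariant integral functions -/

/-- Zero is a nonunit of every place. -/
theorem zero_mem_nonunits (A : ValuationSubring QBar) : (0 : QBar) ∈ A.nonunits :=
  (ValuationSubring.mem_nonunits_iff A).mpr (by rw [map_zero]; exact zero_lt_one)

/-- The equivariant functions with integral values. -/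
def intEquiv (A : ValuationSubring QBar) (X : Type) [MulAction (A.inertiaSubgroupIn ℚ) X] :
    Subalgebra (fixRing A) (X → QBar) where
  carrier := {f | (∀ x, f x ∈ A) ∧ IsEquiv A f}
  mul_mem' hf hg := ⟨fun x => mul_mem (hf.1 x) (hg.1 x), fun σ x => by
    simp only [Pi.mul_apply, map_mul, hf.2 σ x, hg.2 σ x]⟩
  add_mem' hf hg := ⟨fun x => add_mem (hf.1 x) (hg.1 x), fun σ x => by
    simp only [Pi.add_apply, map_add, hf.2 σ x, hg.2 σ x]⟩
  algebraMap_mem' w := ⟨fun _ => w.2.1, fun σ _ => (w.2.2 σ σ.2).symm⟩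

/-- The functions of two variables spanned by products are sums of products. -/
theorem exists_sum_of_mem_sup {A : ValuationSubring QBar} {X : Type}
    {S : Subalgebra (fixRing A) (X → QBar)} {F : X × X → QBar}
    (hF : F ∈ S.map (precomp _ (Prod.fst : X × X → X)) ⊔ S.map (precomp _ (Prod.snd : X × X → X))) :
    ∃ (n : ℕ) (a b : Fin n → (X → QBar)),
      (∀ i, a i ∈ S) ∧ (∀ i, b i ∈ S) ∧ ∀ x y, F (x, y) = ∑ i, a i x * b i y :=
  Arith.exists_sum_of_mem_precomp_sup hF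

-- these only shorten instance searches (the instances found are unchanged)
attribute [-instance] RingHom.Finite.instFinite IsScalarTower.of_algHom IsScalarTower.left
attribute [local instance 3000] Semistable.instAlgebraKM
attribute [local instance 2000] HahnSeries.powerSeriesAlgebra SubalgebraClass.toAlgebra

variable {A : ValuationSubring QBar} {p M : ℕ} [NeZero M] [hp : Fact p.Prime] [CharP (Res A) p]
  [FF.IsFunctionField (Res A) (KM A M)] (h : Setup A M p)
include h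

omit [CharP (Res A) p] [FF.IsFunctionField (Res A) ↥(KM A M)] in
/-- A class with a Kummer function congruent to one is killed by `p`. -/
theorem ConnClass.nsmul_eq_zero {y : JZero (p * M)} (hy : ConnClass h y) : p • y = 0 := by
  obtain ⟨D, rfl, f, hf, hord⟩ := hy
  refine (map_nsmul (QuotientAddGroup.mk' _) p D).symm.trans ((mk_eq_zero_iff (p • D)).mpr ?_)
  refine ⟨f, hf.ne_zero h, fun v => ?_⟩
  rw [hord, AddSubgroupClass.coe_nsmul, Finsupp.smul_apply, nsmul_eq_mul]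

/-! ## Coordinates of the classes -/

section Coords

variable {g : ℕ} {η : Fin g → FB (p * M)} (hη : Completes h η)
  {G : AddSubgroup (JZero (p * M))} [MulAction (A.inertiaSubgroupIn ℚ) G]
  (hcoe : ∀ (τ : A.inertiaSubgroupIn ℚ) (y : G),
    ((τ • y : G) : JZero (p * M)) = (τ : GQ) • (y : JZero (p * M)))
include hη

omit [MulAction (A.inertiaSubgroupIn ℚ) G] in
/-- A number field `K` such that the automorphisms fixing it fix the classes and, within inertia,
their coordinates. -/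
theorem exists_field [Finite G] (hG : ∀ y ∈ G, ConnClass h y) :
    ∃ K : IntermediateField ℚ QBar, FiniteDimensional ℚ K ∧
      (∀ σ : GQ, (∀ z ∈ K, σ z = z) → ∀ y : G, σ • (y : JZero (p * M)) = y) ∧
      ∀ γ : QBar, γ ≠ 0 → ∀ y : G, ∃ c : Fin g → QBar, RepClass h η (y : JZero (p * M)) γ c ∧
        ∀ i, ∀ τ ∈ A.inertiaSubgroupIn ℚ, (∀ z ∈ K, τ z = z) → τ (c i) = c i := by
  choose L hL hc using fun y : G => exists_repClass h hη (hG y y.2)
  choose L' hL' hfix using fun y : G => GaloisReps.exists_fixing_torsion (N := p * M) (m := p)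
    ⟨(y : JZero (p * M)), by
      rw [Pic0.mem_torsion, natCast_zsmul]; exact (hG y y.2).nsmul_eq_zero h⟩
  have := hL
  have := hL'
  have := IntermediateField.finiteDimensional_iSup_of_finite (t := L)
  have := IntermediateField.finiteDimensional_iSup_of_finite (t := L')
  refine ⟨(⨆ y, L y) ⊔ ⨆ y, L' y, inferInstance, fun σ hσ y => hfix y σ fun z hz =>
    hσ z (SetLike.le_def.mp le_sup_right (SetLike.le_def.mp (le_iSup L' y) hz)), fun γ hγ y => ?_⟩
  obtain ⟨c, hc1, hc2⟩ := hc y γ hγ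
  exact ⟨c, hc1, fun i τ hτ hz => hc2 i τ hτ fun z hz' =>
    hz z (SetLike.le_def.mp le_sup_left (SetLike.le_def.mp (le_iSup L y) hz'))⟩

omit [MulAction (A.inertiaSubgroupIn ℚ) G] in
/-- Coordinates separate to a fixed precision. -/
theorem exists_precision [Finite G] (hG : ∀ y ∈ G, ConnClass h y) :
    ∃ γ₁ : QBar, γ₁ ≠ 0 ∧ γ₁ ∈ A.nonunits ∧ ∀ y : G, RepClass h η (y : JZero (p * M)) γ₁ 0 →
      y = 0 := by
  classical
  have := Fintype.ofFinite G
  choose δ hδ0 hδn hδ using fun y : {y : G // y ≠ 0} => exists_separated h hη (hG y.1 y.1.2)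
    (fun h0 => y.2 (Subtype.ext h0))
  have hp0 : (p : QBar) ≠ 0 := by exact_mod_cast hp.out.ne_zero
  refine ⟨(∏ y, δ y) * p, mul_ne_zero (Finset.prod_ne_zero_iff.mpr fun y _ => hδ0 y) hp0,
    Arith.nonunits_mul_left (prod_mem fun y _ => Arith.mem_of_mem_nonunits (hδn y)) h.hA,
    fun y hy => ?_⟩
  by_contra hne
  obtain ⟨i, hi⟩ := hδ ⟨y, hne⟩ _ 0
    (mul_ne_zero (Finset.prod_ne_zero_iff.mpr fun y _ => hδ0 y) hp0) (by
      show (δ ⟨y, hne⟩)⁻¹ * ((∏ z, δ z) * p) ∈ A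
      rw [← Finset.mul_prod_erase _ _ (Finset.mem_univ (⟨y, hne⟩ : {y : G // y ≠ 0})),
        ← mul_assoc, ← mul_assoc, inv_mul_cancel₀ (hδ0 _), one_mul]
      exact mul_mem (prod_mem fun z _ => Arith.mem_of_mem_nonunits (hδn z)) (natCast_mem A p)) hy
  exact hi (by
    show _ * (0 : QBar) ∈ A
    rw [mul_zero]; exact zero_mem A)

include hcoe

variable {N : Subgroup (A.inertiaSubgroupIn ℚ)} [Fintype (A.inertiaSubgroupIn ℚ ⧸ N)]

omit [FF.IsFunctionField (Res A) ↥(KM A M)] in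
/-- Exactly equivariant coordinates. -/
theorem exists_coords (hX : ∀ n ∈ N, ∀ y : G, n • y = y)
    (hc : ∀ γ : QBar, γ ≠ 0 → ∀ y : G, ∃ c : Fin g → QBar,
      RepClass h η (y : JZero (p * M)) γ c ∧ ∀ i, ∀ n ∈ N, (n : GQ) (c i) = c i)
    {γ₀ : QBar} (hγ₀0 : γ₀ ≠ 0) (hγ₀n : γ₀ ∈ A.nonunits) :
    ∃ C : Fin g → G → QBar, (∀ i, IsEquiv A (C i)) ∧ (∀ i y, C i y ∈ A.nonunits) ∧
      ∀ y : G, RepClass h η (y : JZero (p * M)) γ₀ (fun i => C i y) := by
  set card : QBar := (Fintype.card (A.inertiaSubgroupIn ℚ ⧸ N) : QBar) with hcard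
  have hcard0 : card ≠ 0 := by rw [hcard]; exact_mod_cast Fintype.card_ne_zero
  have hcardA : card ∈ A := natCast_mem A _
  set γ : QBar := γ₀ * card with hγdef
  have hγ0 : γ ≠ 0 := mul_ne_zero hγ₀0 hcard0
  have hγn : γ ∈ A.nonunits := Arith.nonunits_mul_right hγ₀n hcardA
  choose c hcr hcf using hc γ hγ0
  have hcN : ∀ i, FixVal N (fun y : G => c y i) := fun i n hn y => hcf y i n hn
  set C : Fin g → G → QBar := fun i y => card⁻¹ * avg N (fun y : G => c y i) y with hC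
  have hCc : ∀ i y, DvdA A γ₀ (C i y - c y i) := by
    intro i y
    show γ₀⁻¹ * (C i y - c y i) ∈ A
    have e : C i y - c y i = card⁻¹ * ∑ q : A.inertiaSubgroupIn ℚ ⧸ N,
        ((q.out : GQ) (c (q.out⁻¹ • y) i) - c y i) := by
      rw [Finset.sum_sub_distrib, Finset.sum_const, Finset.card_univ, nsmul_eq_mul, ← hcard,
        mul_sub, ← mul_assoc card⁻¹ card, inv_mul_cancel₀ hcard0, one_mul]
      rfl
    rw [e, ← mul_assoc, ← mul_inv, Finset.mul_sum]
    refine sum_mem fun q _ => ?_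
    have h1 := (hcr (q.out⁻¹ • y)).galois h hη q.out.2 hγ0
    rw [← hcoe, smul_inv_smul] at h1
    exact h1.unique h hη hγ0 hγn (hcr y) i
  have hCrep : ∀ y : G, RepClass h η (y : JZero (p * M)) γ₀ (fun i => C i y) := fun y =>
    (hcr y).mono h hη hγ0 hγ₀0 hγ₀n (by
      show γ₀⁻¹ * (γ₀ * card) ∈ A
      rw [← mul_assoc, inv_mul_cancel₀ hγ₀0, one_mul]; exact hcardA) (fun i => hCc i y)
  refine ⟨C, fun i σ y => ?_, fun i y => ?_, hCrep⟩
  · simp only [hC]
    rw [isEquiv_avg (hcN i) hX σ y, map_mul, map_inv₀, hcard, map_natCast]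
  · obtain ⟨_, _, _, _, _, _, _, _, _, _, hn, _⟩ := hCrep y
    exact hn i

omit hcoe
omit [MulAction (A.inertiaSubgroupIn ℚ) G] [Fintype (A.inertiaSubgroupIn ℚ ⧸ N)]
  [CharP (Res A) p] [FF.IsFunctionField (Res A) ↥(KM A M)] in
/-- Close coordinates mean equal classes. -/
theorem separates_coords {γ₁ γ₀ : QBar} (hγ₁0 : γ₁ ≠ 0) (hγ₁n : γ₁ ∈ A.nonunits)
    (hγ₁ : ∀ y : G, RepClass h η (y : JZero (p * M)) γ₁ 0 → y = 0) (hγ₀0 : γ₀ ≠ 0)
    (h10 : DvdA A γ₁ γ₀) {C : Fin g → G → QBar}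
    (hCrep : ∀ y : G, RepClass h η (y : JZero (p * M)) γ₀ (fun i => C i y))
    {x x' : G} (hne : x ≠ x') : ∃ i, ¬ DvdA A γ₁ (C i x - C i x') := by
  by_contra! hall
  have h1 : RepClass h η (x : JZero (p * M)) γ₁ (fun i => C i x') :=
    (hCrep x).mono h hη hγ₀0 hγ₁0 hγ₁n h10 fun i => by
      show γ₁⁻¹ * (C i x' - C i x) ∈ A
      rw [← neg_sub, mul_neg]
      exact neg_mem (hall i)
  have h2 := h1.sub_of_eq h hη hγ₁0 ((hCrep x').mono h hη hγ₀0 hγ₁0 hγ₁n h10 fun i => by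
    show γ₁⁻¹ * (C i x' - C i x') ∈ A
    rw [sub_self, mul_zero]; exact zero_mem A)
  exact hne (sub_eq_zero.mp (hγ₁ (x - x') (by rw [AddSubgroup.coe_sub]; exact h2)))

/-- The two variable algebra. -/
abbrev pairAlg (_h : Setup A M p) {X : Type} (S : Subalgebra (fixRing A) (X → QBar)) :
    Subalgebra (fixRing A) (X × X → QBar) :=
  S.map (precomp _ (Prod.fst : X × X → X)) ⊔ S.map (precomp _ (Prod.snd : X × X → X))

omit [Fintype (A.inertiaSubgroupIn ℚ ⧸ N)] [FF.IsFunctionField (Res A) ↥(KM A M)] in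
/-- The product of units gives approximate coordinates of sums. -/
theorem exists_sum_coords [Finite G] {γ₀ : QBar} (hγ₀0 : γ₀ ≠ 0) (hγ₀n : γ₀ ∈ A.nonunits)
    {C : Fin g → G → QBar} (hCn : ∀ i y, C i y ∈ A.nonunits)
    (hCrep : ∀ y : G, RepClass h η (y : JZero (p * M)) γ₀ (fun i => C i y))
    (S : Subalgebra (fixRing A) (G → QBar)) (hCS : ∀ i, C i ∈ S)
    (hSle : pairAlg h S ≤ intEquiv A (G × G)) :
    ∃ d : Fin g → G × G → QBar, (∀ i, d i ∈ pairAlg h S) ∧
      ∀ i (q : G × G), DvdA A γ₀ (C i (q.1 + q.2) - d i q) := by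
  classical
  have := Fintype.ofFinite G
  -- A common divisor `ν` of the coordinates, a high power of it dividing by `γ₀`.
  obtain ⟨ν, hν0, hνn, hνall⟩ := exists_dvd_all h.hA hp.out
    (Finset.univ.image fun iy : Fin g × G => C iy.1 iy.2) fun a ha => by
      obtain ⟨⟨i, y⟩, -, rfl⟩ := Finset.mem_image.mp ha
      exact hCn i y
  have hνC : ∀ i y, DvdA A ν (C i y) := fun i y =>
    hνall _ (Finset.mem_image.mpr ⟨(i, y), Finset.mem_univ _, rfl⟩)
  obtain ⟨P, hP⟩ := exists_pow_dvd h.hA hp.out hνn hγ₀0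
  have hfst : ∀ i, (fun q : G × G => C i q.1) ∈ pairAlg h S := fun i =>
    (le_sup_left : S.map (precomp _ (Prod.fst : G × G → G)) ≤ pairAlg h S) ⟨_, hCS i, rfl⟩
  have hsnd : ∀ i, (fun q : G × G => C i q.2) ∈ pairAlg h S := fun i =>
    (le_sup_right : S.map (precomp _ (Prod.snd : G × G → G)) ≤ pairAlg h S) ⟨_, hCS i, rfl⟩
  -- Expand the product of the two units in the coordinates and their products.
  let ρ : Fin g ⊕ Fin g ⊕ Fin g × Fin g → G × G → QBar := Sum.elim (fun i q => C i q.1)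
    (Sum.elim (fun i q => C i q.2) fun ij q => C ij.1 q.1 * C ij.2 q.2)
  have hηov : ∀ i, η i ∈ ovFix h (A.inertiaSubgroupIn ℚ) := fun i => hη.mem i
  obtain ⟨d, α, β, hd, hα, hβ, hdq⟩ := exists_chart_approx h hη le_rfl (pairAlg h S).toSubring
    (fun r hr q => (hSle hr).1 q)
    (fun a ha hfix => (pairAlg h S).algebraMap_mem ⟨a, ha, hfix⟩) hν0 hνn ρ
    (by
      rintro (i | i | ⟨i, j⟩)
      exacts [hfst i, hsnd i, (pairAlg h S).mul_mem (hfst i) (hsnd j)])
    (by
      rintro (i | i | ⟨i, j⟩) q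
      · exact hνC i q.1
      · exact hνC i q.2
      · show ν⁻¹ * (C i q.1 * C j q.2) ∈ A
        rw [← mul_assoc]
        exact mul_mem (hνC i q.1) (Arith.mem_of_mem_nonunits (hCn j q.2)))
    (Sum.elim η (Sum.elim η fun ij => η ij.1 * η ij.2))
    (by
      rintro (i | i | ⟨i, j⟩)
      exacts [hηov i, hηov i, mul_mem (hηov i) (hηov j)]) P
  refine ⟨d, fun i => (hd i).1, fun i q => ?_⟩
  -- So `d` gives coordinates of the sum, hence agrees with those.
  have hsum := RepClass.add h hη hγ₀0 (hCrep q.1) (hCrep q.2)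
    (c'' := fun j => d j q) (fun j => DvdA.mem_nonunits hν0 hνn ((hd j).2 q))
    (hα q).1 (hα q).2 (hβ q).1 (hβ q).2 (by
      refine small_mono (pow_ne_zero _ hν0) (hP (P + 1) (Nat.le_succ P)) ?_
      convert hdq q using 2
      simp only [linUnit, ρ, Fintype.sum_sum_type, Fintype.sum_prod_type, Sum.elim_inl,
        Sum.elim_inr, add_mul, mul_add, one_mul, mul_one, Finset.sum_mul, Finset.mul_sum,
        smul_mul_smul_comm]
      rw [Finset.sum_add_distrib, Finset.sum_comm]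
      abel)
  rw [← AddSubgroup.coe_add] at hsum
  exact (hCrep (q.1 + q.2)).unique h hη hγ₀0 hγ₀n hsum i

include hcoe in
omit [Fintype (A.inertiaSubgroupIn ℚ ⧸ N)] hη in
omit [NeZero M] hp [CharP (Res A) p] [FF.IsFunctionField (Res A) (KM A M)] in
/-- The coordinates of a sum lie in the two variable algebra. -/
theorem sum_mem_pairAlg [Fintype (G × G)] [Fintype (A.inertiaSubgroupIn ℚ ⧸ N)]
    (hX2 : ∀ n ∈ N, ∀ q : G × G, n • q = q)
    (S : Subalgebra (fixRing A) (G → QBar)) (hS₂le : pairAlg h S ≤ intEquiv A (G × G))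
    {C : Fin g → G → QBar} (hCe : ∀ i, IsEquiv A (C i)) (hgenS : ∀ i, C i ∈ S)
    {γ₁ γ₀ : QBar} (hγ₁0 : γ₁ ≠ 0) (hγ₁n : γ₁ ∈ A.nonunits)
    (hsepS : ∀ x x' : G, x ≠ x' → ∃ i, ¬ DvdA A γ₁ (C i x - C i x'))
    (hγ₀0 : γ₀ ≠ 0)
    (hbig : DvdA A ((Fintype.card (A.inertiaSubgroupIn ℚ ⧸ N) : QBar) *
      γ₁ ^ Fintype.card (G × G)) γ₀)
    {d : Fin g → G × G → QBar} (hd : ∀ i, d i ∈ pairAlg h S)
    (hdC : ∀ i (q : G × G), DvdA A γ₀ (C i (q.1 + q.2) - d i q)) (i : Fin g) :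
    (fun q : G × G => C i (q.1 + q.2)) ∈ pairAlg h S := by
  have hdiff : (fun q : G × G => C i (q.1 + q.2) - d i q) ∈ pairAlg h S := by
    refine mem_of_separated hX2 _ (fun f hf => (hS₂le hf).1) (fun f hf => (hS₂le hf).2)
      hγ₁0 (Arith.mem_of_mem_nonunits hγ₁n) (fun q q' hne => ?_) (fun σ q => ?_) fun q => ?_
    · rcases Prod.ext_iff.not.mp hne |> not_and_or.mp with h1 | h1
      · obtain ⟨j, hj⟩ := hsepS _ _ h1
        exact ⟨_, (le_sup_left : S.map (precomp _ (Prod.fst : G × G → G)) ≤ pairAlg h S)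
          ⟨_, hgenS j, rfl⟩, hj⟩
      · obtain ⟨j, hj⟩ := hsepS _ _ h1
        exact ⟨_, (le_sup_right : S.map (precomp _ (Prod.snd : G × G → G)) ≤ pairAlg h S)
          ⟨_, hgenS j, rfl⟩, hj⟩
    · show C i ((σ • q).1 + (σ • q).2) - d i (σ • q) = _
      rw [show (σ • q).1 + (σ • q).2 = σ • (q.1 + q.2) from Subtype.ext (by
          rw [AddSubgroup.coe_add, Prod.smul_fst, Prod.smul_snd, hcoe, hcoe, hcoe,
            AddSubgroup.coe_add, smul_add]), hCe i σ, (hS₂le (hd i)).2 σ q, map_sub]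
    · exact DvdA.trans hγ₀0 hbig (hdC i q)
  have := (pairAlg h S).add_mem hdiff (hd i)
  convert this using 1
  funext q
  simp

end Coords

/-! ## The functions -/

omit hp [NeZero M] [CharP (Res A) p] [FF.IsFunctionField (Res A) (KM A M)] h in
/-- Integral functions congruent on generators are congruent. -/
theorem adjoin_sub_mem_nonunits {X : Type} (x₀ x : X) (s : Set (X → QBar))
    (hA : ∀ f ∈ Algebra.adjoin (fixRing A) s, ∀ y, f y ∈ A)
    (hs : ∀ f ∈ s, f x - f x₀ ∈ A.nonunits) {f : X → QBar}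
    (hf : f ∈ Algebra.adjoin (fixRing A) s) : f x - f x₀ ∈ A.nonunits := by
  induction hf using Algebra.adjoin_induction with
  | mem f hf => exact hs f hf
  | algebraMap w => simp only [Pi.algebraMap_apply, sub_self]; exact zero_mem_nonunits A
  | add f f' _ _ hf hf' =>
    rw [Pi.add_apply, Pi.add_apply, add_sub_add_comm]
    exact Arith.nonunits_add hf hf'
  | mul f f' hfm hfm' hf hf' =>
    rw [Pi.mul_apply, Pi.mul_apply, show f x * f' x - f x₀ * f' x₀ =
      f x * (f' x - f' x₀) + (f x - f x₀) * f' x₀ by ring]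
    exact Arith.nonunits_add (Arith.nonunits_mul_left (hA f hfm x) hf')
      (Arith.nonunits_mul_right hf (hA f' hfm' x₀))

omit h in
theorem precision_facts {γ₁ : QBar} (hγ₁0 : γ₁ ≠ 0) (hγ₁n : γ₁ ∈ A.nonunits) (c n : ℕ)
    (hc : c ≠ 0) :
    (c : QBar) * γ₁ ^ n * γ₁ ≠ 0 ∧ (c : QBar) * γ₁ ^ n * γ₁ ∈ A.nonunits ∧
      DvdA A γ₁ ((c : QBar) * γ₁ ^ n * γ₁) ∧
      DvdA A ((c : QBar) * γ₁ ^ n) ((c : QBar) * γ₁ ^ n * γ₁) := by
  have hA := Arith.mem_of_mem_nonunits hγ₁n
  have hc0 : (c : QBar) ≠ 0 := by exact_mod_cast hc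
  have hmem : (c : QBar) * γ₁ ^ n ∈ A := mul_mem (natCast_mem A _) (pow_mem hA _)
  refine ⟨mul_ne_zero (mul_ne_zero hc0 (pow_ne_zero _ hγ₁0)) hγ₁0,
    Arith.nonunits_mul_left hmem hγ₁n, ?_, ?_⟩
  · show γ₁⁻¹ * _ ∈ A
    rw [mul_comm _ γ₁, ← mul_assoc γ₁⁻¹, inv_mul_cancel₀ hγ₁0, one_mul]
    exact hmem
  · show _⁻¹ * _ ∈ A
    rw [← mul_assoc, inv_mul_cancel₀ (mul_ne_zero hc0 (pow_ne_zero _ hγ₁0)), one_mul]
    exact hA

/-- **The functions.** -/
theorem exists_connectedFunctions [Nonempty (Pt h)] (G : AddSubgroup (JZero (p * M))) [Finite G]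
    (hG : ∀ y ∈ G, ConnClass h y) (hst : ∀ τ ∈ A.inertiaSubgroupIn ℚ, ∀ y ∈ G, τ • y ∈ G) :
    ∃ S : Subalgebra (fixRing A) (G → QBar), Module.Finite (fixRing A) S ∧
      (∀ f ∈ S, ∀ x, f x ∈ A) ∧
      (∀ f ∈ S, ∀ τ (hτ : τ ∈ A.inertiaSubgroupIn ℚ) (x : G),
        f ⟨τ • (x : JZero (p * M)), hst τ hτ x x.2⟩ = τ (f x)) ∧
      (∀ x x', (∀ f ∈ S, f x = f x') → x = x') ∧
      (∀ f ∈ S, ∀ x, f x - f 0 ∈ A.nonunits) ∧
      (∀ f ∈ S, ∃ (n : ℕ) (a b : Fin n → (G → QBar)),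
        (∀ i, a i ∈ S) ∧ (∀ i, b i ∈ S) ∧ ∀ x y, f (x + y) = ∑ i, a i x * b i y) := by
  classical
  let : MulAction (A.inertiaSubgroupIn ℚ) G :=
    { smul := fun τ y => ⟨(τ : GQ) • (y : JZero (p * M)), hst τ τ.2 y y.2⟩
      one_smul := fun y => Subtype.ext (one_smul GQ (y : JZero (p * M)))
      mul_smul := fun a b y => Subtype.ext (mul_smul (a : GQ) (b : GQ) (y : JZero (p * M))) }
  have hcoe : ∀ (τ : A.inertiaSubgroupIn ℚ) (y : G),
      ((τ • y : G) : JZero (p * M)) = (τ : GQ) • (y : JZero (p * M)) := fun _ _ => rfl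
  have := Fintype.ofFinite G
  -- `N` is the finite index subgroup of inertia fixing a field of definition of coordinates and `G`
  refine (exists_completes h).elim fun g hg' => hg'.elim fun η hη => ?_
  refine (exists_field h hη hG).elim fun K hK' => ?_
  have hK := hK'.1
  have hKG := hK'.2.1
  have hKc := hK'.2.2
  let N : Subgroup (A.inertiaSubgroupIn ℚ) := K.fixingSubgroup.subgroupOf _
  have : Finite (GQ ⧸ K.fixingSubgroup) :=
    K.fixingSubgroup.quotient_finite_of_isOpen (IntermediateField.fixingSubgroup_isOpen K)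
  have : K.fixingSubgroup.FiniteIndex := Subgroup.finiteIndex_of_finite_quotient
  have : N.FiniteIndex := inferInstanceAs (K.fixingSubgroup.subgroupOf _).FiniteIndex
  have : Fintype (A.inertiaSubgroupIn ℚ ⧸ N) := Subgroup.fintypeQuotientOfFiniteIndex
  have hKfix : ∀ n ∈ N, ∀ z ∈ K, (n : GQ) z = z := fun n hn z hz =>
    (IntermediateField.mem_fixingSubgroup_iff _ _).mp hn z hz
  have hX : ∀ n ∈ N, ∀ y : G, n • y = y := fun n hn y => Subtype.ext (hKG n (hKfix n hn) y)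
  have hX2 : ∀ n ∈ N, ∀ q : G × G, n • q = q := fun n hn q =>
    Prod.ext (hX n hn q.1) (hX n hn q.2)
  -- a precision `γ₁` separating `G`, and a finer one `γ₀` for the averages over inertia
  refine (exists_precision h hη hG).elim fun γ₁ hγ₁' => ?_
  have hγ₁0 := hγ₁'.1
  have hγ₁n := hγ₁'.2.1
  have hγ₁ := hγ₁'.2.2
  have hpre := precision_facts hγ₁0 hγ₁n
    (Fintype.card (A.inertiaSubgroupIn ℚ ⧸ N)) (Fintype.card (G × G)) Fintype.card_ne_zero
  have hγ₀0 := hpre.1
  have hγ₀n := hpre.2.1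
  have h10 := hpre.2.2.1
  have hbig := hpre.2.2.2
  refine (exists_coords h hη hcoe hX (fun γ hγ y =>
    (hKc γ hγ y).imp fun c hc => ⟨hc.1, fun i n hn => hc.2 i n n.2 (hKfix n hn)⟩) hγ₀0 hγ₀n).elim
    fun C hC' => ?_
  have hCe := hC'.1
  have hCn := hC'.2.1
  have hCrep := hC'.2.2
  -- `S` is generated by the equivariant coordinates; those of a sum are in `S ⊗ S`
  let S : Subalgebra (fixRing A) (G → QBar) := Algebra.adjoin (fixRing A) (Set.range C)
  have hSle : S ≤ intEquiv A G := Algebra.adjoin_le (by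
    rintro _ ⟨i, rfl⟩; exact ⟨fun y => Arith.mem_of_mem_nonunits (hCn i y), hCe i⟩)
  have hgenS : ∀ i, C i ∈ S := fun i => Algebra.subset_adjoin ⟨i, rfl⟩
  have hsepS : ∀ x x' : G, x ≠ x' → ∃ i, ¬ DvdA A γ₁ (C i x - C i x') := fun x x' hne =>
    separates_coords h hη hγ₁0 hγ₁n hγ₁ hγ₀0 h10 hCrep hne
  have hS₂le : pairAlg h S ≤ intEquiv A (G × G) := sup_le
    (by rintro _ ⟨f, hf, rfl⟩; exact ⟨fun q => (hSle hf).1 _, fun σ q => (hSle hf).2 σ q.1⟩)
    (by rintro _ ⟨f, hf, rfl⟩; exact ⟨fun q => (hSle hf).1 _, fun σ q => (hSle hf).2 σ q.2⟩)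
  refine (exists_sum_coords h hη hγ₀0 hγ₀n hCn hCrep S hgenS hS₂le).elim fun d hd' => ?_
  have hd := hd'.1
  have hdC := hd'.2
  have hadd : ∀ i, (fun q : G × G => C i (q.1 + q.2)) ∈ pairAlg h S :=
    sum_mem_pairAlg h hcoe hX2 S hS₂le hCe hgenS hγ₁0 hγ₁n hsepS hγ₀0 hbig hd hdC
  -- finite, integral, equivariant, separating, congruent at the origin, closed under addition
  refine ⟨S, ?_, fun f hf => (hSle hf).1, fun f hf τ hτ x => (hSle hf).2 ⟨τ, hτ⟩ x, ?_, ?_, ?_⟩
  · exact Module.Finite.iff_fg.mpr (fg_adjoin_of_finite (Set.finite_range C) (by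
      rintro _ ⟨i, rfl⟩
      exact isIntegral_equivariant (act := fun σ => MulAction.toPerm σ)
        (fun y => Arith.mem_of_mem_nonunits (hCn i y)) fun σ y => hCe i σ y))
  · intro x x' hxx
    by_contra hne
    obtain ⟨i, hi⟩ := hsepS x x' hne
    exact hi (by
      show γ₁⁻¹ * (C i x - C i x') ∈ A
      rw [hxx _ (hgenS i), sub_self, mul_zero]; exact zero_mem A)
  · intro f hf x
    exact adjoin_sub_mem_nonunits 0 x _ (fun f hf => (hSle hf).1)
      (by rintro _ ⟨i, rfl⟩; exact Arith.nonunits_sub (hCn i x) (hCn i 0)) hf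
  · intro f hf
    have hle : S ≤ (pairAlg h S).comap (precomp _ fun q : G × G => q.1 + q.2) :=
      Algebra.adjoin_le (by rintro _ ⟨i, rfl⟩; exact hadd i)
    obtain ⟨n, a, b, ha, hb, hab⟩ := exists_sum_of_mem_sup (hle hf)
    exact ⟨n, a, b, ha, hb, hab⟩

end Fermat.Agent.OrdinaryAtP

end
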