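import Fermat.Agent.OrdinaryAtP.FixedFree
import Fermat.Agent.OrdinaryAtP.Residual
import Fermat.Agent.GaloisReps.Flat
import Fermat.Agent.Arith.CyclotomicCharacter

/-!
# The ordinary part of the levels of the model

Let `Y` be the part of the model modulo `p ^ M` belonging to a residually irreducible and ordinary
system and `Γ` the subgroup spanned by `(t - 1) Y`, `t` in inertia. If no stable subgroup of
`Γ[p]` has an invariant homomorphism to `ℤ/p`, then `t₀ - 1` is injective on `Γ`, so the Galois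
stable image `f Y ⊆ Γ`, where the Hecke element `f` acts as `(t₀ - 1) + a (t₀⁻¹ - 1)`, vanishes
by irreducibility, and `t₀ = a` on `Γ`: the element `(t₀ - a)(t - 1)` annihilates `Y`. Here `p` is
odd, `M` is large, and `t₀` is an inertia element at `p` whose cyclotomic character mod `p` is
`≠ 1` and generates the image.

Main result: `exists_annihilator`.
-/

set_option autoImplicit false

noncomputable section

open IsLocalRing
open scoped MonoidAlgebra
open Fermat.Agent.GaloisReps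

namespace Fermat.Agent.OrdinaryAtP

/-! ## The levels and the hypothesis -/

/-- In a finite monoid every element has an idempotent power. -/
theorem exists_isIdempotentElem_pow {R : Type*} [Monoid R] [Finite R] (x : R) :
    ∃ k : ℕ, 0 < k ∧ IsIdempotentElem (x ^ k) := by
  obtain ⟨i, j, hij, h⟩ := Finite.exists_ne_map_eq_of_infinite (fun n : ℕ => x ^ n)
  wlog hlt : i < j generalizing i j
  · exact this j i hij.symm h.symm (lt_of_le_of_ne (not_lt.mp hlt) hij.symm)
  have hper : ∀ m l, x ^ (i + l + m * (j - i)) = x ^ (i + l) := fun m l => by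
    induction m with
    | zero => simp
    | succ m ihm =>
      rw [show i + l + (m + 1) * (j - i) = (i + l + m * (j - i)) + (j - i) by ring, pow_add, ihm,
        ← pow_add, show i + l + (j - i) = l + j by omega, pow_add, ← h, ← pow_add, add_comm]
  have hi : i ≤ (i + 1) * (j - i) := by
    have := Nat.le_mul_of_pos_right (i + 1) (show 0 < j - i by omega)
    omega
  obtain ⟨l, hl⟩ := Nat.exists_eq_add_of_le hi
  refine ⟨(i + 1) * (j - i), Nat.mul_pos i.succ_pos (by omega), ?_⟩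
  show x ^ _ * x ^ _ = x ^ _
  rw [← pow_add]
  conv_lhs => arg 2; arg 1; rw [hl]
  rw [hper, hl]

variable {p : ℕ} [Fact p.Prime] {N : ℕ} [NeZero N] {S : Finset ℕ}
  {T : Type} [CommRing T] [IsLocalRing T]

/-- Matrices acting on the model modulo `p ^ M`. -/
def levelEnd (D : HeckeGaloisModel N p) (M : ℕ) :
    Matrix (Fin D.d) (Fin D.d) (ZMod (p ^ M)) →+* AddMonoid.End (ModelLevel D M) where
  toFun A :=
    { toFun := fun x => A.mulVec (x : Fin D.d → ZMod (p ^ M))
      map_zero' := Matrix.mulVec_zero A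
      map_add' := Matrix.mulVec_add A }
  map_one' := AddMonoidHom.ext fun x => Matrix.one_mulVec (x : Fin D.d → ZMod (p ^ M))
  map_mul' A B := AddMonoidHom.ext fun x =>
    (Matrix.mulVec_mulVec (x : Fin D.d → ZMod (p ^ M)) A B).symm
  map_zero' := AddMonoidHom.ext fun x => Matrix.zero_mulVec (x : Fin D.d → ZMod (p ^ M))
  map_add' A B := AddMonoidHom.ext fun x => Matrix.add_mulVec A B (x : Fin D.d → ZMod (p ^ M))

/-- A matrix is determined by its action on the model modulo `p ^ M`. -/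
lemma levelEnd_injective (D : HeckeGaloisModel N p) (M : ℕ) :
    Function.Injective (levelEnd D M) := fun _ _ h =>
  Matrix.toLin'.injective (LinearMap.ext fun v =>
    DFunLike.congr_fun h (v : ModelLevel D M))

/-- The mod `p` reduction of the cyclotomic character at level `M`. -/
theorem cyclotomicHom_eq_natCast_of_primitive {M : ℕ} (hM : 0 < M) {ζ : AlgebraicClosure ℚ}
    (hζ : IsPrimitiveRoot ζ (p ^ M)) {g : AbsGal} {a : ℕ} (ha : g ζ = ζ ^ a) :
    (Arith.cyclotomicHom p g : ZMod p) = (a : ZMod p) := by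
  have : NeZero (p ^ M) := ⟨pow_ne_zero _ (Fact.out : p.Prime).ne_zero⟩
  refine Arith.cyclotomicHom_eq_natCast fun t ht => ?_
  obtain ⟨i, -, rfl⟩ := hζ.eq_pow_of_pow_eq_one (ξ := t) (by
    rw [show p ^ M = p * p ^ (M - 1) by rw [← pow_succ', Nat.sub_add_cancel hM], pow_mul, ht,
      one_pow])
  show g (ζ ^ i) = (ζ ^ i) ^ a
  rw [map_pow, ha, ← pow_mul, ← pow_mul, mul_comm]

/-- The element `(t₀ - a)(t - 1)` of the group ring. -/
def ordElem (t₀ : AbsGal) (a : ℕ) (t : AbsGal) : ℤ[AbsGal] :=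
  (MonoidAlgebra.single t₀ 1 - (a : ℤ[AbsGal])) * (MonoidAlgebra.single t 1 - 1)

/-- The hypothesis on the levels: no invariant homomorphisms to `ℤ/p`. -/
def LevelNoHom (D : HeckeGaloisModel N p) (P : ValuationSubring (AlgebraicClosure ℚ)) : Prop :=
  ∀ (M : ℕ) (H : AddSubgroup (ModelLevel D M)),
    (∀ t ∈ P.inertiaSubgroupIn ℚ, ∀ x ∈ H, t • x ∈ H) →
    H ≤ AddSubgroup.closure
      {y | ∃ t ∈ P.inertiaSubgroupIn ℚ, ∃ x : ModelLevel D M, y = t • x - x} →
    (∀ x ∈ H, p • x = 0) →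
    ∀ φ : H →+ ZMod p, (∀ t ∈ P.inertiaSubgroupIn ℚ, ∀ x y : H,
      (y : ModelLevel D M) = t • (x : ModelLevel D M) → φ y = φ x) → φ = 0

/-! ## The part of a maximal ideal -/

/-- Multiplying the complements of the idempotents of the maximal ideal gives an element outside it
cutting out the system: the maximal ideal is nilpotent there. -/
private theorem exists_isUnit_forall_pow_mul_eq_zero {R A : Type*} [CommRing R] [Ring A] [Finite A]
    (L : R →+* A) (π : R →+* T) :
    ∃ u, IsUnit (π u) ∧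
      ∀ v, π v ∈ maximalIdeal T → ∃ k, 0 < k ∧ L (v ^ k * u) = 0 := by
  classical
  set m := IsLocalRing.maximalIdeal T
  choose ex hex hidem using fun v : R => exists_isIdempotentElem_pow (L v)
  let B : Set A := L '' {v | π v ∈ m}
  have : Fintype B := Fintype.ofFinite B
  choose pre hpre hpre' using fun b : B => b.2
  let u := ∏ b : B, (1 - pre b ^ ex (pre b))
  have hu : IsUnit (π u) := by
    rw [map_prod]
    refine IsUnit.prod_iff.mpr fun b _ => ?_
    by_contra h
    have h1 := (IsLocalRing.mem_maximalIdeal _).mpr h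
    rw [map_sub, map_one, map_pow] at h1
    have := m.add_mem h1 (m.pow_mem_of_mem (hpre b) (ex (pre b)) (hex _))
    rw [sub_add_cancel] at this
    exact (IsLocalRing.maximalIdeal.isMaximal T).ne_top (m.eq_top_iff_one.mpr this)
  refine ⟨u, hu, fun v hv => ?_⟩
  obtain ⟨b, hb⟩ : ∃ b : B, (b : A) = L v := ⟨⟨_, v, hv, rfl⟩, rfl⟩
  refine ⟨ex (pre b), hex _, ?_⟩
  rw [show u = (1 - pre b ^ ex (pre b)) * ∏ b' ∈ Finset.univ.erase b, (1 - pre b' ^ ex (pre b'))
    from (Finset.mul_prod_erase _ _ (Finset.mem_univ b)).symm, ← mul_assoc, map_mul]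
  have h1 : L (v ^ ex (pre b) * (1 - pre b ^ ex (pre b))) = 0 := by
    rw [map_mul, map_sub, map_one, map_pow, map_pow, ← hb, ← hpre' b, mul_sub, mul_one,
      (hidem (pre b)).eq, sub_self]
  rw [h1, zero_mul]

/-- Elements outside the maximal ideal act injectively where it is nilpotent. -/
private theorem eq_zero_of_apply_eq_zero {R X : Type*} [CommRing R] [AddCommGroup X] [Finite X]
    (E : R →+* AddMonoid.End X) (π : R →+* T) (hker : ∀ v, E v = 0 → π v ∈ maximalIdeal T)
    {Y : AddSubgroup X}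
    (hYnil : ∀ v, π v ∈ maximalIdeal T → ∃ k, 0 < k ∧ ∀ y ∈ Y, E (v ^ k) y = 0)
    {v : R} (hv : π v ∉ maximalIdeal T) {y : X} (hy : y ∈ Y) (hvy : E v y = 0) : y = 0 := by
  set m := IsLocalRing.maximalIdeal T
  have : Finite (AddMonoid.End X) := Finite.of_injective _ DFunLike.coe_injective
  obtain ⟨k, hk, hidem⟩ := exists_isIdempotentElem_pow (E v)
  set w := 1 - v ^ k
  have hvw : π (v ^ k * w) ∈ m := hker _ (by
    rw [map_mul, map_sub, map_one, map_pow, mul_sub, mul_one, hidem.eq, sub_self])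
  rw [map_mul, map_pow] at hvw
  have hwm : π w ∈ m := by
    refine ((IsLocalRing.maximalIdeal.isMaximal T).isPrime.mem_or_mem hvw).resolve_left fun h => ?_
    exact hv ((IsLocalRing.maximalIdeal.isMaximal T).isPrime.mem_of_pow_mem _ h)
  obtain ⟨j, hj, hjw⟩ := hYnil w hwm
  have hid : IsIdempotentElem (E w) := by
    rw [map_sub, map_one, map_pow]
    exact hidem.one_sub
  have h1 : E w y = 0 := by
    have := hjw y hy
    rwa [map_pow, ← Nat.sub_add_cancel hj, hid.pow_succ_eq] at this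
  have h2 : E (v ^ k) y = 0 := by
    rw [show v ^ k = v ^ (k - 1) * v by rw [← pow_succ, Nat.sub_add_cancel (hk)],
      map_mul]
    show E (v ^ (k - 1)) (E v y) = 0
    rw [hvy, map_zero]
  have h3 : y = E w y + E (v ^ k) y := by
    show y = (E w + E (v ^ k)) y
    rw [← map_add, sub_add_cancel, map_one]
    rfl
  rw [h3, h1, h2, add_zero]

/-- A nonzero image of `E f` on `Y` has a nonzero multiple killed by the maximal ideal. -/
private theorem exists_ne_zero_forall_apply_eq_zero {R X : Type*} [CommRing R] [AddCommGroup X]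
    [Finite X] (E : R →+* AddMonoid.End X) (π : R →+* T) {Y : AddSubgroup X}
    (hYE : ∀ v, ∀ y ∈ Y, E v y ∈ Y)
    (hYnil : ∀ v, π v ∈ maximalIdeal T → ∃ k, 0 < k ∧ ∀ y ∈ Y, E (v ^ k) y = 0)
    {f : R} {y₀ : X} (hy₀ : y₀ ∈ Y) (hne0 : E f y₀ ≠ 0) :
    ∃ z : X, (∃ y ∈ Y, E f y = z) ∧ z ≠ 0 ∧ ∀ v, π v ∈ maximalIdeal T → E v z = 0 := by
  set m := IsLocalRing.maximalIdeal T
  by_contra! hall
  have hnext : ∀ z : X, (∃ y ∈ Y, E f y = z) → z ≠ 0 → ∃ z' : X, (∃ y ∈ Y, E f y = z') ∧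
      z' ≠ 0 ∧ Set.range (fun v => E v z') ⊂ Set.range (fun v => E v z) := by
    intro z hzI hz0
    obtain ⟨v, hv, hvz⟩ := hall z hzI hz0
    refine ⟨E v z, ?_, hvz, ?_, ?_⟩
    · obtain ⟨y, hy, rfl⟩ := hzI
      refine ⟨E v y, hYE v y hy, ?_⟩
      show (E f * E v) y = (E v * E f) y
      rw [← map_mul, ← map_mul, mul_comm]
    · rintro _ ⟨w, rfl⟩
      exact ⟨w * v, by show E (w * v) z = E w (E v z); rw [map_mul]; rfl⟩
    · intro hsub
      obtain ⟨w, hw⟩ := hsub ⟨1, rfl⟩
      simp only [map_one] at hw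
      have hw' : E (w * v) z = z := by rw [map_mul]; exact hw
      obtain ⟨k, -, hk⟩ := hYnil (w * v) (by rw [map_mul]; exact m.mul_mem_left _ hv)
      have hzY : z ∈ Y := by obtain ⟨y, hy, rfl⟩ := hzI; exact hYE f y hy
      have hiter : ∀ i, E ((w * v) ^ i) z = z := fun i => by
        induction i with
        | zero => rw [pow_zero, map_one]; rfl
        | succ i ih => rw [pow_succ, map_mul]; show E _ (E (w * v) z) = z; rw [hw', ih]
      exact hz0 ((hiter k).symm.trans (hk z hzY))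
  have wf : WellFounded fun A B : Set X => A ⊂ B := wellFounded_lt
  have hno : ∀ A : Set X, ∀ z : X, Set.range (fun v => E v z) = A →
      (∃ y ∈ Y, E f y = z) → z = 0 := fun A => by
    induction A using wf.induction with
    | _ A ih =>
      rintro z rfl hzI
      by_contra hz0
      obtain ⟨z', hzI', hz', hlt⟩ := hnext z hzI hz0
      exact hz' (ih _ hlt z' rfl hzI')
  exact hne0 (hno _ _ rfl ⟨y₀, hy₀, rfl⟩)

/-! ## Inertia on the subgroup `Γ` -/

/-- The subgroup spanned by the `(t - 1) Y`, `t` in `I`, is stable under `I`. -/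
private theorem smul_mem_closure {G X : Type*} [Group G] [AddCommGroup X] [DistribMulAction G X]
    {I : Subgroup G} {Y : AddSubgroup X} (hY : ∀ (g : G), ∀ y ∈ Y, g • y ∈ Y) {g : G} (hg : g ∈ I)
    {z : X} (hz : z ∈ AddSubgroup.closure {y | ∃ g ∈ I, ∃ x ∈ Y, y = g • x - x}) :
    g • z ∈ AddSubgroup.closure {y | ∃ g ∈ I, ∃ x ∈ Y, y = g • x - x} := by
  induction hz using AddSubgroup.closure_induction with
  | mem z hz =>
    obtain ⟨h, hh, x, hx, rfl⟩ := hz
    refine AddSubgroup.subset_closure ⟨g * h * g⁻¹, mul_mem (mul_mem hg hh) (inv_mem hg), g • x,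
      hY g x hx, ?_⟩
    rw [smul_sub, ← mul_smul, ← mul_smul, inv_mul_cancel_right]
  | zero => rw [smul_zero]; exact zero_mem _
  | add a b _ _ ha hb => rw [smul_add]; exact add_mem ha hb
  | neg a _ ha => rw [smul_neg]; exact neg_mem ha

/-- The subgroup spanned by the `(g - 1) Y`, `g` in `I`, lies in a stable `Y`. -/
private theorem closure_sub_le {G X : Type*} [Group G] [AddCommGroup X] [DistribMulAction G X]
    {I : Subgroup G} {Y : AddSubgroup X} (hY : ∀ (g : G), ∀ y ∈ Y, g • y ∈ Y) :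
    AddSubgroup.closure {y | ∃ g ∈ I, ∃ x ∈ Y, y = g • x - x} ≤ Y :=
  (AddSubgroup.closure_le _).mpr (by
    rintro _ ⟨g, _, x, hx, rfl⟩
    exact sub_mem (hY g x hx) hx)

/-- Unipotence: if `(g - 1) ^ 2` is `g` times an operator which is nilpotent on an exponent `p`
subgroup stable under `g`, some `p`-power power of `g` fixes it. -/
private theorem exists_pow_prime_pow_smul_eq {G R X : Type*} [Group G] [Semiring R]
    [AddCommGroup X] [DistribMulAction G X] (E : R →+* AddMonoid.End X)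
    (hEcomm : ∀ v (g : G) (x : X), E v (g • x) = g • E v x) {H : AddSubgroup X} {g : G}
    (hgH : ∀ x ∈ H, g • x ∈ H) (hpx : ∀ x ∈ H, p • x = 0) {v : R}
    (hsq : ∀ x ∈ H, g • (g • x - x) - (g • x - x) = E v (g • x)) {j : ℕ}
    (hj : ∀ x ∈ H, E (v ^ j) x = 0) {x : X} (hx : x ∈ H) :
    ∃ i : ℕ, g ^ (p ^ i) • x = x := by
  have hH : ∀ (i : ℕ) (y : X), y ∈ H → g ^ i • y ∈ H := fun i y hy => by
    induction i with
    | zero => rwa [pow_zero, one_smul]
    | succ i ih => rw [pow_succ', mul_smul]; exact hgH _ ih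
  -- `(g - 1) ^ (2 i)` is `v ^ i g ^ i`, so `g - 1` is nilpotent at `x`.
  let δ : AddMonoid.End X := DistribMulAction.toAddMonoidEnd G X g - 1
  have hstep : ∀ (i : ℕ) (y : X), y ∈ H → (δ ^ (2 * i)) y = E (v ^ i) (g ^ i • y) := by
    intro i
    induction i with
    | zero => intro y _; simp
    | succ i ih =>
      intro y hy
      have h2 : (δ * δ) y = E v (g • y) := hsq y hy
      have hd : ∀ w ∈ H, δ w ∈ H := fun w hw => sub_mem (hgH w hw) hw
      rw [mul_add, pow_add, pow_two]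
      show (δ ^ (2 * i)) ((δ * δ) y) = _
      rw [ih _ (show (δ * δ) y ∈ H from hd _ (hd y hy)), h2, ← hEcomm, pow_succ v, map_mul,
        ← mul_smul, ← pow_succ]
      rfl
  have h0 : ∀ i, 2 * j ≤ i → (δ ^ i) x = 0 := by
    intro i hi
    rw [← Nat.sub_add_cancel hi, pow_add]
    show (δ ^ (i - 2 * j)) ((δ ^ (2 * j)) x) = 0
    rw [hstep j x hx, hj _ (hH j x hx), map_zero]
  refine ⟨2 * j + 1, ?_⟩
  show g ^ (p ^ (2 * j + 1)) • x = x
  have hpow : ∀ i : ℕ, g ^ i • x = ((δ + 1) ^ i) x := fun i => by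
    induction i with
    | zero => simp
    | succ i ih =>
      rw [pow_succ', mul_smul, ih, pow_succ']
      show g • _ = (δ + 1) (((δ + 1) ^ i) x)
      rw [sub_add_cancel]
      rfl
  -- In exponent `p` a high `p`-power of `g` is then one.
  obtain ⟨r, hr⟩ := Commute.exists_add_pow_prime_pow_eq (Fact.out : p.Prime)
    (Commute.one_right δ) (2 * j + 1)
  rw [hpow, hr, one_pow, mul_one, mul_assoc]
  show (δ ^ p ^ (2 * j + 1)) x + x + ((p : AddMonoid.End X) * (δ * r)) x = x
  rw [Nat.cast_comm, h0 _ ((by omega : 2 * j ≤ 2 * j + 1).trans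
    (Nat.lt_pow_self (Fact.out : p.Prime).one_lt).le), zero_add]
  show x + (δ * r) (p • x) = x
  rw [hpx x hx, map_zero, add_zero]

omit [Fact p.Prime] in
/-- Fixed vectors of `p`-power order vanish if those of order `p` do. -/
private theorem eq_zero_of_fixed_of_pow_smul_eq_zero {G X : Type*} [Monoid G] [AddCommGroup X]
    [DistribMulAction G X] {H : AddSubgroup X} {t : G}
    (h0 : ∀ z ∈ H, p • z = 0 → t • z = z → z = 0) (i : ℕ) {z : X} (hz : z ∈ H) (hfix : t • z = z)
    (h : p ^ i • z = 0) : z = 0 := by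
  induction i generalizing z with
  | zero => simpa using h
  | succ i ih =>
    refine ih hz hfix (h0 _ (nsmul_mem hz _) ?_ ?_)
    · rw [← mul_nsmul, ← pow_succ, h]
    · rw [smul_comm, hfix]

/-- A natural number congruent to one modulo the maximal ideal is one modulo `p`. -/
theorem natCast_zmod_eq_one (hpT : (p : T) ∈ maximalIdeal T) {a : ℕ}
    (h : (a : T) - 1 ∈ maximalIdeal T) : (a : ZMod p) = 1 := by
  by_contra hne
  -- otherwise `p` and `a - 1` are coprime, so `1` is in the maximal ideal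
  have hp : ¬ (p : ℤ) ∣ (a : ℤ) - 1 := fun hd => hne <| sub_eq_zero.mp <| by
    simpa using (ZMod.intCast_zmod_eq_zero_iff_dvd _ p).mpr hd
  obtain ⟨u, v, e⟩ := (Nat.prime_iff_prime_int.mp Fact.out).coprime_iff_not_dvd.mpr hp
  refine (IsLocalRing.maximalIdeal.isMaximal T).ne_top ((Ideal.eq_top_iff_one _).mpr ?_)
  rw [← Int.cast_one, ← e, Int.cast_add, Int.cast_mul, Int.cast_mul, Int.cast_natCast]
  exact add_mem (Ideal.mul_mem_left _ _ hpT) (Ideal.mul_mem_left _ _ (by simpa using h))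

/-- Residually ordinary with `ω (t₀) ≠ 1`: the eigenvalues of `t₀` are distinct. -/
private theorem isUnit_trace_sq_sub_det (ρ : GaloisRepAdic T)
    (hpT : (p : T) ∈ IsLocalRing.maximalIdeal T) {t₀ : AbsGal}
    (hord₀ : LinearMap.trace T ρ.V (ρ.ρ t₀) - LinearMap.det (ρ.ρ t₀) - 1 ∈ maximalIdeal T)
    {M : ℕ} (hM : 0 < M) {ζ : AlgebraicClosure ℚ} (hζ : IsPrimitiveRoot ζ (p ^ M)) {a₀ : ℕ}
    (hza : t₀ ζ = ζ ^ a₀) (hdet₀ : LinearMap.det (ρ.ρ t₀) - (a₀ : T) ∈ maximalIdeal T)
    (hne : Arith.cyclotomicHom p t₀ ≠ 1) :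
    IsUnit (LinearMap.trace T ρ.V (ρ.ρ t₀) ^ 2 - 4 * LinearMap.det (ρ.ρ t₀)) := by
  set m := IsLocalRing.maximalIdeal T
  by_contra h
  have h4 := (IsLocalRing.mem_maximalIdeal _).mpr h
  set d := LinearMap.det (ρ.ρ t₀)
  set tr := LinearMap.trace T ρ.V (ρ.ρ t₀)
  have h5 : (d - 1) * (d - 1) ∈ m := by
    have := m.sub_mem h4 (m.mul_mem_left (tr + d + 1) hord₀)
    convert this using 1
    ring
  have h6 : (d - 1 : T) ∈ m :=
    ((IsLocalRing.maximalIdeal.isMaximal T).isPrime.mem_or_mem h5).elim id id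
  have h7 : ((a₀ : ℕ) : T) - 1 ∈ m := by
    have := m.sub_mem h6 hdet₀
    convert this using 1
    ring
  have h8 := natCast_zmod_eq_one hpT h7
  rw [← cyclotomicHom_eq_natCast_of_primitive hM hζ hza] at h8
  exact hne (Units.ext h8)

/-- Multiplication by the value of the cyclotomic character is injective on a level. -/
private theorem eq_zero_of_nsmul_eq_zero (D : HeckeGaloisModel N p) {M : ℕ} {a₀ : ℕ}
    (hcop : a₀.Coprime (p ^ M)) {w : ModelLevel D M} (hw : a₀ • w = 0) : w = 0 := by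
  funext i
  have := congrFun hw i
  change a₀ • (w : Fin D.d → ZMod (p ^ M)) i = 0 at this
  rw [nsmul_eq_mul] at this
  exact ((ZMod.isUnit_iff_coprime a₀ _).mpr hcop).mul_right_eq_zero.mp this

/-- An integer which is `1` under the cyclotomic character is `1` modulo `p`. -/
private theorem exists_eq_one_add_mul {M : ℕ} (hM : 0 < M) {ζ : AlgebraicClosure ℚ}
    (hζ : IsPrimitiveRoot ζ (p ^ M)) {g : AbsGal} {a : ℕ} (ha : g ζ = ζ ^ a)
    (h1 : (Arith.cyclotomicHom p g : ZMod p) = 1) : ∃ q, a = 1 + p * q := by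
  have h2 : ((a : ℕ) : ZMod p) = ((1 : ℕ) : ZMod p) := by
    rw [← cyclotomicHom_eq_natCast_of_primitive hM hζ ha, Nat.cast_one, h1]
  have hq := Nat.mod_add_div a p
  rw [(ZMod.natCast_eq_natCast_iff' _ _ _).mp h2, Nat.one_mod_eq_one.mpr
    (Fact.out : p.Prime).ne_one] at hq
  exact ⟨a / p, hq.symm⟩

omit [Fact p.Prime] in
/-- The cyclotomic character modulo `p ^ M` from the action on a primitive root. -/
private theorem autToPow_eq_natCast {M : ℕ} [NeZero (p ^ M)] {ζ : AlgebraicClosure ℚ}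
    (hζ : IsPrimitiveRoot ζ (p ^ M)) {g : AbsGal} {a : ℕ} (ha : g ζ = ζ ^ a) :
    (hζ.autToPow ℚ g : ZMod (p ^ M)) = a := by
  have h2 := (hζ.autToPow_spec ℚ g).trans ha
  have := (hζ.isOfFinOrder (NeZero.ne _)).pow_eq_pow_iff_modEq.mp h2
  rw [← hζ.eq_orderOf, ← ZMod.natCast_eq_natCast_iff, ZMod.natCast_zmod_val] at this
  exact this

/-- If `t` is the scalar `a` on all conjugates of `z`, the two products of `t`, `g`, `h` agree on
`z`, and their inverses on `a • z`. -/
private theorem smul_eq_and_inv_smul_eq_of_scalar {G X : Type*} [Group G] [AddCommGroup X]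
    [DistribMulAction G X] {t : G} {a : ℕ} {z : X} (hconj : ∀ g : G, t • (g • z) = a • (g • z))
    (g h : G) :
    (t * g * h) • z = (g * t * h) • z ∧ (t * g * h)⁻¹ • (a • z) = (g * t * h)⁻¹ • (a • z) := by
  have h1 : (t * g * h) • z = (g * t * h) • z := by
    rw [mul_smul, mul_smul, mul_smul, mul_smul, ← mul_smul g h z, hconj, mul_smul, hconj,
      smul_comm g a]
  have h2 : (t * g * h)⁻¹ • (a • z) = (g * t * h)⁻¹ • (a • z) := by
    have hz1 : t⁻¹ • (a • z) = z := by
      rw [inv_smul_eq_iff, ← one_smul G z, hconj, one_smul]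
    have hz2 : t⁻¹ • (g⁻¹ • (a • z)) = g⁻¹ • z := by
      rw [inv_smul_eq_iff, hconj, smul_comm g⁻¹ a]
    simp only [mul_inv_rev, mul_smul]
    rw [hz1, hz2]
  exact ⟨h1, h2⟩

/-! ## Stable images and fixed vectors -/

/-- The range of `E u` is stable under the group and the operators, and an operator in the
maximal ideal is nilpotent on it if its powers times `u` act as zero. -/
private theorem range_stable {R G X : Type*} [CommRing R] [Group G] [AddCommGroup X]
    [DistribMulAction G X] (E : R →+* AddMonoid.End X)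
    (hEcomm : ∀ v (g : G) (x : X), E v (g • x) = g • E v x) (π : R →+* T) {u : R}
    (hnil : ∀ v, π v ∈ maximalIdeal T → ∃ k, 0 < k ∧ E (v ^ k * u) = 0) :
    (∀ (g : G), ∀ y ∈ (E u : X →+ X).range, g • y ∈ (E u : X →+ X).range) ∧
    (∀ v, ∀ y ∈ (E u : X →+ X).range, E v y ∈ (E u : X →+ X).range) ∧
    ∀ v, π v ∈ maximalIdeal T →
      ∃ k, 0 < k ∧ ∀ y ∈ (E u : X →+ X).range, E (v ^ k) y = 0 := by
  refine ⟨?_, ?_, fun v hv => ?_⟩
  · rintro g _ ⟨x, rfl⟩
    exact ⟨g • x, hEcomm u g x⟩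
  · rintro v _ ⟨x, rfl⟩
    refine ⟨E v x, ?_⟩
    show (E u * E v) x = (E v * E u) x
    rw [← map_mul, ← map_mul, mul_comm]
  · obtain ⟨k, hk, hkv⟩ := hnil v hv
    refine ⟨k, hk, ?_⟩
    rintro _ ⟨x, rfl⟩
    show (E (v ^ k) * E u) x = 0
    rw [← map_mul, hkv]
    rfl

omit [Fact p.Prime] in
/-- An operator acting as `g + c g⁻¹` is, minus two, `(g - 1) ^ 2 g⁻¹` on the vectors killed by
`p` if `c` is `1` modulo `p`. -/
private theorem smul_sub_sub_eq_apply {R G X : Type*} [CommRing R] [Group G] [AddCommGroup X]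
    [DistribMulAction G X] (E : R →+* AddMonoid.End X) {v : R} {g : G} {c q : ℕ}
    (hE : ∀ x : X, E v x = g • x + c • (g⁻¹ • x)) (hc : c = 1 + p * q) {y : X} (hy : p • y = 0) :
    g • (g • y - y) - (g • y - y) = E (v - (1 + 1)) (g • y) := by
  have hmod : c • y = y := by
    rw [hc, add_nsmul, one_nsmul, mul_comm, mul_nsmul', hy, nsmul_zero, add_zero]
  rw [map_sub, map_add, map_one]
  show _ = E v (g • y) - (g • y + g • y)
  rw [hE, inv_smul_smul, hmod, smul_sub]
  abel

/-- No vector of the subgroup spanned by the `(t - 1) Y` is fixed by `t₀` except zero, if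
`LevelNoHom` holds, `t₀` generates the cyclotomic image and inertia of trivial character acts
unipotently on the stable subgroups of `Y` killed by `p`. -/
private theorem eq_zero_of_fixed_closure (D : HeckeGaloisModel N p)
    (P : ValuationSubring (AlgebraicClosure ℚ)) (hG : LevelNoHom D P) {t₀ : AbsGal}
    (ht₀ : t₀ ∈ P.inertiaSubgroupIn ℚ)
    (hgen : ∀ g, ∃ i : ℕ, Arith.cyclotomicHom p g = Arith.cyclotomicHom p t₀ ^ i) {M : ℕ}
    {Y : AddSubgroup (ModelLevel D M)} (hY : ∀ g : AbsGal, ∀ y ∈ Y, g • y ∈ Y)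
    (hunip : ∀ g ∈ P.inertiaSubgroupIn ℚ, Arith.cyclotomicHom p g = 1 →
      ∀ H : AddSubgroup (ModelLevel D M), H ≤ Y → (∀ x ∈ H, g • x ∈ H) → (∀ x ∈ H, p • x = 0) →
        ∀ x ∈ H, ∃ i : ℕ, g ^ (p ^ i) • x = x) {z : ModelLevel D M}
    (hz : z ∈ AddSubgroup.closure
      {y | ∃ g ∈ P.inertiaSubgroupIn ℚ, ∃ x ∈ Y, y = g • x - x})
    (hfix : t₀ • z = z) : z = 0 := by
  set I := P.inertiaSubgroupIn ℚ
  set Γ := AddSubgroup.closure {y | ∃ g ∈ I, ∃ x ∈ Y, y = g • x - x}
  have hΓY : Γ ≤ Y := closure_sub_le hY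
  have hinj0 : ∀ z ∈ Γ, p • z = 0 → t₀ • z = z → z = 0 := by
    intro z hz hpz hfix
    let Hp : AddSubgroup (ModelLevel D M) :=
      { carrier := {x | x ∈ Γ ∧ p • x = 0}
        add_mem' := fun {a b} ha hb => ⟨add_mem ha.1 hb.1, by rw [nsmul_add, ha.2, hb.2, add_zero]⟩
        zero_mem' := ⟨zero_mem _, nsmul_zero _⟩
        neg_mem' := fun {a} ha => ⟨neg_mem ha.1, by rw [neg_nsmul, ha.2, neg_zero]⟩ }
    have hHp : ∀ g ∈ I, ∀ x ∈ Hp, g • x ∈ Hp := fun g hg x hx =>
      ⟨smul_mem_closure hY hg hx.1, by rw [← smul_comm g p x, hx.2, smul_zero]⟩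
    refine eq_zero_of_smul_eq (p := p) ((Arith.cyclotomicHom p).comp I.subtype) ⟨t₀, ht₀⟩
      (fun g => hgen g) Hp (fun g x hx => hHp g g.2 x hx) (fun x hx => hx.2)
      (fun g hg1 x hx => hunip g g.2 hg1 Hp (fun y hy => hΓY hy.1) (hHp g g.2) (fun y hy => hy.2)
        x hx) ?_ z ⟨hz, hpz⟩ hfix
    -- no invariant homomorphisms
    intro H' hH' hst φ hφ
    refine hG M H' (fun g hg => hst ⟨g, hg⟩) (fun x hx => ?_) (fun x hx => (hH' hx).2) φ
      (fun g hg => hφ ⟨g, hg⟩)
    refine AddSubgroup.closure_mono ?_ (hH' hx).1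
    rintro _ ⟨g, hg, y, -, rfl⟩
    exact ⟨g, hg, y, rfl⟩
  exact eq_zero_of_fixed_of_pow_smul_eq_zero hinj0 M hz hfix (funext fun i => by
    show (p ^ M) • (z : Fin D.d → ZMod (p ^ M)) i = 0
    rw [nsmul_eq_mul, ZMod.natCast_self, zero_mul])

/-- If `t - 1` is injective on a subgroup stable under `t` and `(t - 1) + a (t⁻¹ - 1)` kills `z`,
then `t` is `a` on `z`. -/
private theorem smul_eq_nsmul_of_comb_eq_zero {G X : Type*} [Group G] [AddCommGroup X]
    [DistribMulAction G X] {Γ : AddSubgroup X} {t : G} (hst : ∀ z ∈ Γ, t • z ∈ Γ)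
    (hinj : ∀ z ∈ Γ, t • z = z → z = 0) {a : ℕ} {z : X} (hz : z ∈ Γ)
    (h0 : t • z - z + a • (t⁻¹ • z - z) = 0) : t • z = a • z := by
  refine sub_eq_zero.mp (hinj _ (sub_mem (hst z hz) (nsmul_mem hz _)) ?_)
  have h1 := congrArg (fun w => t • w) h0
  simp only [smul_add, smul_sub, smul_comm t a, smul_inv_smul, smul_zero] at h1
  rw [smul_sub, smul_comm t a, ← sub_eq_zero]
  rw [← h1]
  abel

/-- If `t` is the scalar `a` on all conjugates of `z` and `a` is injective, operators acting on `z`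
as `x + c x⁻¹` for `x = t g h` and for `x = g t h` agree on `z`. -/
private theorem apply_sub_eq_zero_of_scalar {R G X : Type*} [CommRing R] [Group G] [AddCommGroup X]
    [DistribMulAction G X] (E : R →+* AddMonoid.End X) {v v' : R} {t g h : G} {a c : ℕ} {z : X}
    (hv : E v z = (t * g * h) • z + c • ((t * g * h)⁻¹ • z))
    (hv' : E v' z = (g * t * h) • z + c • ((g * t * h)⁻¹ • z))
    (hconj : ∀ g : G, t • (g • z) = a • (g • z)) (hinj : ∀ w : X, a • w = 0 → w = 0) :
    E (v - v') z = 0 := by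
  obtain ⟨h1, h2⟩ := smul_eq_and_inv_smul_eq_of_scalar hconj g h
  refine hinj _ ?_
  have e : E (v - v') z = c • ((t * g * h)⁻¹ • z) - c • ((g * t * h)⁻¹ • z) := by
    rw [map_sub]
    show E v z - E v' z = _
    rw [hv, hv', h1]
    abel
  rw [e, ← nsmul_sub, ← mul_nsmul', mul_comm, mul_nsmul', nsmul_sub]
  simp only [← smul_comm (_ : G) a, h2, sub_self, nsmul_zero]

/-- On a level, multiplication by a natural number only depends on its class modulo `p ^ M`. -/
private theorem nsmul_congr_level (D : HeckeGaloisModel N p) {M a b : ℕ}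
    (h : (a : ZMod (p ^ M)) = b) (y : ModelLevel D M) : a • y = b • y := by
  funext i
  show a • (y : Fin D.d → ZMod (p ^ M)) i = b • (y : Fin D.d → ZMod (p ^ M)) i
  rw [nsmul_eq_mul, nsmul_eq_mul, h]

/-- If `t - 1` is injective on the subgroup spanned by the `(g - 1) Y`, `g` in `I`, an operator `f`
in the maximal ideal acts on `Y` as `(t - 1) + a (t⁻¹ - 1)` and two operators acting as `x + c x⁻¹`
for `x = t g h` and `x = g t h` differ by one outside it, then `t` is `a` on that subgroup. -/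
private theorem smul_eq_nsmul_of_mem_closure {R G X : Type*} [CommRing R] [Group G]
    [AddCommGroup X] [Finite X] [DistribMulAction G X] (E : R →+* AddMonoid.End X)
    (hEcomm : ∀ v (g : G) (x : X), E v (g • x) = g • E v x) (π : R →+* T)
    (hker : ∀ v, E v = 0 → π v ∈ maximalIdeal T) {Y : AddSubgroup X}
    (hY : ∀ g : G, ∀ y ∈ Y, g • y ∈ Y) (hYE : ∀ v, ∀ y ∈ Y, E v y ∈ Y)
    (hYnil : ∀ v, π v ∈ maximalIdeal T → ∃ k, 0 < k ∧ ∀ y ∈ Y, E (v ^ k) y = 0)
    {I : Subgroup G} {t : G} (ht : t ∈ I)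
    (hinj : ∀ z ∈ AddSubgroup.closure {y | ∃ g ∈ I, ∃ x ∈ Y, y = g • x - x}, t • z = z → z = 0)
    {a : ℕ} (ha : ∀ w : X, a • w = 0 → w = 0) {f : R} (hf : π f ∈ maximalIdeal T)
    (hEf : ∀ y : X, E f y = (t • y - y) + a • (t⁻¹ • y - y))
    {g h : G} {c : ℕ} {v v' : R} (hvv : π (v - v') ∉ maximalIdeal T)
    (hv : ∀ y : X, E v y = (t * g * h) • y + c • ((t * g * h)⁻¹ • y))
    (hv' : ∀ y : X, E v' y = (g * t * h) • y + c • ((g * t * h)⁻¹ • y))
    {z : X} (hz : z ∈ AddSubgroup.closure {y | ∃ g ∈ I, ∃ x ∈ Y, y = g • x - x}) :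
    t • z = a • z := by
  set Γ := AddSubgroup.closure {y | ∃ g ∈ I, ∃ x ∈ Y, y = g • x - x}
  have hΓY : Γ ≤ Y := closure_sub_le hY
  have hfΓ : ∀ y ∈ Y, E f y ∈ Γ := fun y hy => by
    rw [hEf y]
    refine add_mem ?_ (nsmul_mem ?_ _)
    · exact AddSubgroup.subset_closure ⟨t, ht, y, hy, rfl⟩
    · exact AddSubgroup.subset_closure ⟨t⁻¹, inv_mem ht, y, hy, rfl⟩
  have hscal : ∀ z ∈ Γ, E f z = 0 → t • z = a • z := fun z hz h0 =>
    smul_eq_nsmul_of_comb_eq_zero (fun w hw => smul_mem_closure hY ht hw) hinj hz (by rwa [← hEf])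
  refine hscal z hz ?_
  by_contra hne0
  -- descend to a vector killed by the maximal ideal; `t` is scalar on its conjugates
  obtain ⟨_, ⟨y, hy, rfl⟩, hyne, hym⟩ :=
    exists_ne_zero_forall_apply_eq_zero E π hYE hYnil (hΓY hz) hne0
  have hconj : ∀ g : G, t • (g • E f y) = a • (g • E f y) := fun g => by
    rw [← hEcomm]
    refine hscal _ (hfΓ _ (hY g y hy)) ?_
    rw [hEcomm, hEcomm, hym f hf, smul_zero]
  exact hyne (eq_zero_of_apply_eq_zero E π hker hYnil hvv (hYE f y hy)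
    (apply_sub_eq_zero_of_scalar E (hv _) (hv' _) hconj ha))

/-- Two elements congruent to `x` and `x'` modulo the maximal ideal differ by an element outside it
if `x - x'` is a unit. -/
private theorem sub_not_mem {R : Type*} [CommRing R] (π : R →+* T) {v v' : R} {x x' : T}
    (h : IsUnit (x - x')) (h1 : x - π v ∈ maximalIdeal T) (h2 : x' - π v' ∈ maximalIdeal T) :
    π (v - v') ∉ maximalIdeal T := fun hv => by
  refine (IsLocalRing.mem_maximalIdeal _).mp ?_ h
  have := add_mem hv (sub_mem h1 h2)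
  rw [map_sub] at this
  convert this using 1
  ring

/-! ## The annihilator -/

/-- `(t₀ - a)(t - 1)` annihilates the part of the model belonging to the system. -/
theorem exists_annihilator (D : HeckeGaloisModel N p) (ρ : GaloisRepAdic T)
    (habs : ρ.residual.IsAbsolutelyIrreducible) (hp2 : p ≠ 2)
    (hpT : (p : T) ∈ IsLocalRing.maximalIdeal T)
    (π : CuspForm.heckeAlgebra N 2 (↑S : Set ℕ) →+* T) (hfrob : FrobCharpoly ρ π)
    (P : ValuationSubring (AlgebraicClosure ℚ))
    (hord : ∀ t ∈ P.inertiaSubgroupIn ℚ,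
      LinearMap.trace T ρ.V (ρ.ρ t) - LinearMap.det (ρ.ρ t) - 1 ∈ IsLocalRing.maximalIdeal T)
    (hG : LevelNoHom D P)
    {t₀ : AbsGal} (ht₀ : t₀ ∈ P.inertiaSubgroupIn ℚ)
    (hgen : ∀ g, ∃ i : ℕ, Arith.cyclotomicHom p g = Arith.cyclotomicHom p t₀ ^ i)
    (hne : Arith.cyclotomicHom p t₀ ≠ 1) :
    ∃ M₁ : ℕ, ∀ (M : ℕ) (ζ : AlgebraicClosure ℚ) (a : ℕ), M₁ ≤ M →
      IsPrimitiveRoot ζ (p ^ M) → t₀ ζ = ζ ^ a → ∀ t ∈ P.inertiaSubgroupIn ℚ,
        ∃ u, IsUnit (π u) ∧ galAlg D M (ordElem t₀ a t) * heckeLevel D M u = 0 := by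
  classical
  obtain ⟨k₁, hdet⟩ := exists_det_congr D ρ hp2 hpT π hfrob
  obtain ⟨k₂, hsat⟩ := exists_saturation_of D hpT π
  refine ⟨k₁ + k₂ + 1, fun M ζ a₀ hM hζ hza t ht => ?_⟩
  have : NeZero (p ^ M) := ⟨pow_ne_zero _ (Fact.out : p.Prime).ne_zero⟩
  set m := IsLocalRing.maximalIdeal T
  let I := P.inertiaSubgroupIn ℚ
  let χ : AbsGal →* (ZMod (p ^ M))ˣ := hζ.autToPow ℚ
  let c : AbsGal → ℕ := fun g => (χ g : ZMod (p ^ M)).val
  have hc : ∀ g : AbsGal, g ζ = ζ ^ c g := fun g => (hζ.autToPow_spec ℚ g).symm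
  have hker : ∀ v, heckeLevel D M v = 0 → π v ∈ m := fun v hv =>
    Ideal.pow_le_self (n := M - k₂) (by omega)
      (hsat (M - k₂) v (by rw [Nat.sub_add_cancel (by omega)]; exact hv))
  have hdet1 : ∀ (g : AbsGal) (a : ℕ), g ζ = ζ ^ a → LinearMap.det (ρ.ρ g) - (a : T) ∈ m :=
    fun g a h => by
    simpa using hdet 1 M ζ g a (by omega) hζ h
  -- operators on the level
  let X := ModelLevel D M
  let E : CuspForm.heckeAlgebra N 2 (↑S : Set ℕ) →+* AddMonoid.End X :=
    (levelEnd D M).comp (heckeLevel D M)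
  have hEcomm : ∀ v (g : AbsGal) (x : X), E v (g • x) = g • E v x := fun v g x => by
    have := DFunLike.congr_fun (congrArg (levelEnd D M) (galLevel_mul_heckeLevel (S := S) D M g v))
      x
    rw [map_mul, map_mul] at this
    exact this.symm
  choose s hs hsr using exists_heckeLevel_eq D ρ π hfrob hζ
  have hEs : ∀ g (x : X), E (s g) x = g • x + c g • (g⁻¹ • x) := fun g x => by
    have := DFunLike.congr_fun (congrArg (levelEnd D M) (hs g)) x
    rw [← ZMod.natCast_zmod_val (χ g : ZMod (p ^ M)), Nat.cast_smul_eq_nsmul, map_add,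
      map_nsmul] at this
    exact this
  -- the idempotent cutting out the system
  obtain ⟨u, hu, hnil⟩ := exists_isUnit_forall_pow_mul_eq_zero (heckeLevel (S := S) D M) π
  let Y : AddSubgroup X := (E u : X →+ X).range
  obtain ⟨hY, hYE, hYnil⟩ := range_stable E hEcomm π (u := u) fun v hv => by
    obtain ⟨k, hk, hkv⟩ := hnil v hv
    exact ⟨k, hk, (congrArg (levelEnd D M) hkv).trans (map_zero _)⟩
  -- `t₀ - 1` is injective on the subgroup spanned by `(t - 1) Y`
  have hinj : ∀ z ∈ AddSubgroup.closure {y | ∃ g ∈ I, ∃ x ∈ Y, y = g • x - x},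
      t₀ • z = z → z = 0 := fun z hz hfix =>
    eq_zero_of_fixed_closure D P hG ht₀ hgen hY (fun g hg hg1 H hHY hgH hpx x hx => by
      obtain ⟨q, hq⟩ := exists_eq_one_add_mul (by omega) hζ (hc g) (congrArg Units.val hg1)
      have hv : π (s g - (1 + 1)) ∈ m := by
        have h1 : (c g : T) - 1 ∈ m := by
          rw [hq, Nat.cast_add, Nat.cast_one, add_sub_cancel_left, Nat.cast_mul]
          exact m.mul_mem_right _ hpT
        rw [map_sub, map_add, map_one]
        have h3 := m.add_mem (m.add_mem (hord g hg) (hdet1 g _ (hc g)))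
          (m.sub_mem h1 (Ideal.pow_le_self (n := M) (by omega) (hsr g)))
        convert h3 using 1
        ring
      obtain ⟨j, -, hj⟩ := hYnil _ hv
      exact exists_pow_prime_pow_smul_eq E hEcomm hgH hpx
        (fun y hy => smul_sub_sub_eq_apply E (hEs g) hq (hpx y hy)) (fun y hy => hj y (hHY hy)) hx)
      hz hfix
  set f := s t₀ - 1 - (a₀ : CuspForm.heckeAlgebra N 2 (↑S : Set ℕ))
  have hquad : π f ∈ m := by
    rw [map_sub, map_sub, map_one, map_natCast]
    have h3 := m.sub_mem (m.add_mem (hord t₀ ht₀) (hdet1 t₀ a₀ hza))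
      (Ideal.pow_le_self (n := M) (by omega) (hsr t₀))
    convert h3 using 1
    ring
  have hχa : (χ t₀ : ZMod (p ^ M)) = a₀ := autToPow_eq_natCast hζ hza
  have hEf : ∀ y : X, E f y = (t₀ • y - y) + a₀ • (t₀⁻¹ • y - y) := fun y => by
    rw [map_sub, map_sub, map_one, map_natCast]
    show E (s t₀) y - y - a₀ • y = _
    rw [hEs, nsmul_congr_level D (a := c t₀) ((ZMod.natCast_zmod_val _).trans hχa), nsmul_sub]
    abel
  -- two products of `t₀`, `g`, `h` with different traces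
  obtain ⟨g, h, hgh⟩ := exists_isUnit_trace_commutator_left ρ habs t₀
    (isUnit_trace_sq_sub_det ρ hpT (hord t₀ ht₀) (by omega) hζ hza (hdet1 t₀ a₀ hza) hne)
  have hvπ : π (s (t₀ * g * h) - s (g * t₀ * h)) ∉ m :=
    sub_not_mem π hgh (Ideal.pow_le_self (n := M) (by omega) (hsr _))
      (Ideal.pow_le_self (n := M) (by omega) (hsr _))
  have hcc : c (t₀ * g * h) = c (g * t₀ * h) := by
    show (χ _ : ZMod (p ^ M)).val = (χ _ : ZMod (p ^ M)).val
    rw [map_mul χ, map_mul χ, map_mul χ (g * t₀), map_mul χ g, mul_comm (χ t₀)]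
  have hcop : a₀.Coprime (p ^ M) := by
    rw [← ZMod.isUnit_iff_coprime, ← hχa]
    exact (χ t₀).isUnit
  -- conclusion
  refine ⟨u, hu, levelEnd_injective D M (AddMonoidHom.ext fun x => ?_)⟩
  rw [map_mul, ordElem, map_mul, map_sub, map_sub, map_natCast, map_one, galAlg_single,
    galAlg_single, one_smul, one_smul, map_mul, map_sub, map_sub, map_natCast, map_one, map_zero]
  show t₀ • (t • E u x - E u x) - a₀ • (t • E u x - E u x) = 0
  refine sub_eq_zero.mpr (smul_eq_nsmul_of_mem_closure E hEcomm π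
    (fun v hv => hker v (levelEnd_injective D M (hv.trans (map_zero _).symm))) hY hYE hYnil ht₀ hinj
    (fun w => eq_zero_of_nsmul_eq_zero D hcop) hquad hEf hvπ (fun y => by rw [hEs, hcc])
    (hEs _) ?_)
  exact AddSubgroup.subset_closure ⟨t, ht, E u x, ⟨x, rfl⟩, rfl⟩

end Fermat.Agent.OrdinaryAtP

end
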