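import Fermat.Agent.OrdinaryAtP.Functions
import Fermat.Agent.OrdinaryAtP.Fixed
import Fermat.Agent.OrdinaryAtP.Collapse
import Fermat.Agent.RT.Mazur.Poles
import Fermat.Agent.JacTorsion.Main

/-!
# No invariant quotient of order `p`

For `p ≥ 3`, when there is a meeting point, an inertia stable group of classes with trivial
gluing has no nonzero invariant map to `ℤ/p`. Hence `NoTrivialQuotient` holds at level `p M` for
`4 ∣ M`, `p ∤ M` (`noTrivialQuotient_of_four_dvd`).
-/

set_option autoImplicit false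

noncomputable section

namespace Fermat.Agent.OrdinaryAtP

open ModularCurve AlgebraicCurve Semistable
open Arith (QBar GQ)

variable {A : ValuationSubring QBar} {p M : ℕ} [NeZero M] [hp : Fact p.Prime] [CharP (Res A) p]
  [FF.IsFunctionField (Res A) (KM A M)] (h : Setup A M p)
include h

omit [CharP (Res A) p] [FF.IsFunctionField (Res A) ↥(KM A M)] in
/-- A class with a Kummer function of unit reductions has trivial gluing. -/
theorem connClass_of_isFlatClass {y : JZero (p * M)} (hy : IsFlatClass A M p h.hqM y) :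
    ConnClass h y := by
  obtain ⟨f, rfl, hm, hr⟩ := hy
  refine ⟨⟨JacTorsion.divQuot f, JacTorsion.divQuot_mem_degZero f⟩, rfl,
    ((f : (FB (p * M))ˣ) : FB (p * M)), ⟨hm, hr⟩, fun v => ?_⟩
  rw [← FF.div_apply, ← JacTorsion.smul_divQuot f, Finsupp.smul_apply, smul_eq_mul]

/-- **No invariant quotient**: an inertia stable group of classes with trivial gluing has no
nonzero invariant map to `ℤ/p`. -/
theorem eq_zero_of_invariant_of_conn [Nonempty (Pt h)] (hp3 : 3 ≤ p)
    (H : AddSubgroup (JZero (p * M))) (hconn : ∀ y ∈ H, ConnClass h y)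
    (hst : ∀ τ ∈ A.inertiaSubgroupIn ℚ, ∀ y ∈ H, τ • y ∈ H) (π : H →+ ZMod p)
    (hπ : ∀ τ (hτ : τ ∈ A.inertiaSubgroupIn ℚ) (y : H),
      π ⟨τ • (y : JZero (p * M)), hst τ hτ y y.2⟩ = π y) :
    π = 0 := by
  have : Finite (Pic0.torsion QBar (FB (p * M)) p) := JacTorsion.finite_torsion_JZero (p * M) p
  have : Finite H := Finite.of_injective
    (fun y : H => (⟨(y : JZero (p * M)), by
      rw [Pic0.mem_torsion, natCast_zsmul]
      exact (hconn y y.2).nsmul_eq_zero h⟩ : Pic0.torsion QBar (FB (p * M)) p))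
    fun x y e => Subtype.ext (congrArg (fun z : Pic0.torsion QBar (FB (p * M)) p => z.1) e)
  have : IsPrincipalIdealRing (fixRing A) := isPrincipalIdealRing_fixRing h.hA hp.out
  obtain ⟨S, hSfin, hSA, hSeq, hSsep, hScong, hScomul⟩ := exists_connectedFunctions h H hconn hst
  let act : A.inertiaSubgroupIn ℚ → H ≃ H := fun τ =>
    { toFun := fun y => ⟨(τ : GQ) • (y : JZero (p * M)), hst τ τ.2 y y.2⟩
      invFun := fun y => ⟨((τ : GQ))⁻¹ • (y : JZero (p * M)), hst _ (inv_mem τ.2) y y.2⟩
      left_inv := fun y => Subtype.ext (inv_smul_smul (τ : GQ) (y : JZero (p * M)))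
      right_inv := fun y => Subtype.ext (smul_inv_smul (τ : GQ) (y : JZero (p * M))) }
  let O : CongruentAlgebra (fixRing A) (fun τ : A.inertiaSubgroupIn ℚ => (τ : GQ).toRingEquiv)
      act p :=
    { H := S
      fin := hSfin
      frac := fun x hx => exists_mul_mem_fixRing h.hA hp.out fun τ hτ => hx ⟨τ, hτ⟩
      fixed := fun w τ => w.2.2 τ τ.2
      equivariant := fun f hf τ m => hSeq f hf τ τ.2 m
      separates := hSsep
      integral := fun f hf m hm => ⟨hSA f hf m, fun τ hτ => hm ⟨τ, hτ⟩⟩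
      congr := fun f hf m a b ha hb => natCast_dvd_of_resW_eq_zero h.hA hp.out (by
        rw [resW_eq_zero_iff, AddSubgroupClass.coe_sub, ← ha, ← hb]
        exact hScong f hf m)
      comul := fun f hf => by
        obtain ⟨n, a, b, ha, hb, hab⟩ := hScomul f hf
        exact ⟨Fin n, inferInstance, a, b, ha, hb, hab⟩ }
  exact O.eq_zero_of_invariant hp3 (natCast_fix_ne_zero hp.out) (not_isUnit_natCast h.hA) π
    fun τ y => hπ τ τ.2 y

/-- No invariant quotient, for classes with unit reductions. -/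
theorem eq_zero_of_invariant_of_flat [Nonempty (Pt h)] (hp3 : 3 ≤ p)
    (H : AddSubgroup (JZero (p * M))) (hflat : ∀ y ∈ H, IsFlatClass A M p h.hqM y)
    (hst : ∀ τ ∈ A.inertiaSubgroupIn ℚ, ∀ y ∈ H, τ • y ∈ H) (π : H →+ ZMod p)
    (hπ : ∀ τ (hτ : τ ∈ A.inertiaSubgroupIn ℚ) (y : H),
      π ⟨τ • (y : JZero (p * M)), hst τ hτ y y.2⟩ = π y) :
    π = 0 :=
  eq_zero_of_invariant_of_conn h hp3 H (fun y hy => connClass_of_isFlatClass h (hflat y hy)) hst
    π hπ

omit h [CharP (Res A) p] [FF.IsFunctionField (Res A) (KM A M)] in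
/-- At level `p M` with `4 ∣ M` and `p ∤ M`, inertia stable groups of moved `p`-torsion have no
nonzero invariant map to `ℤ/p`. -/
theorem noTrivialQuotient_of_four_dvd (hA : A.LiesOverPrime p) (hp3 : 3 ≤ p) (h4 : 4 ∣ M)
    (hpM : ¬ p ∣ M) : NoTrivialQuotient A (p * M) p := by
  have : CharP (Res A) p := charP_res hA
  have h := setup_of_not_dvd hA hpM
  have : FF.IsFunctionField (Res A) (KM A M) := isFunctionField_KM _ h.hM
  have : Nonempty (Pt h) := RT.Mazur.nonempty_pt_of_dvd h (L := 4) (Or.inl rfl) h4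
  intro H hH hpH hst π hπ
  exact eq_zero_of_invariant_of_conn h hp3 H
    (fun y hy => connClass_of_movedGroup h (hH hy) (hpH y hy)) hst π hπ

end Fermat.Agent.OrdinaryAtP

end
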