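import Fermat.Agent.OrdinaryAtP.Frames
import Fermat.Agent.OrdinaryAtP.Kummer

/-!
# Approximate quotients on a chart
-/

set_option autoImplicit false

noncomputable section

namespace Fermat.Agent.OrdinaryAtP

open ModularCurve AlgebraicCurve Semistable
open Arith (QBar GQ)

variable {A : ValuationSubring QBar} {p M : ℕ} [NeZero M] [hp : Fact p.Prime] (h : Setup A M p)
include h

omit h in
theorem mem_HD_of_ord {D : Divisor QBar (FB (p * M))} {z : FB (p * M)}
    (hz : ∀ v, -(D v) ≤ v.ord z) : z ∈ HD M p D 0 :=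
  (mem_HD M p).mpr fun v => FF.mem_ordGe_of_le v (by simpa using hz v)

theorem mem_infSp_of_ord {D : Divisor QBar (FB (p * M))} {z : FB (p * M)}
    (hz : ∀ v, -(D v) ≤ v.ord z) : z ∈ infSp h D 0 := by
  rw [mem_infSp, pow_zero, one_mul]; exact mem_HD_of_ord hz

theorem mem_ovSp_of_ord {D : Divisor QBar (FB (p * M))} {z : FB (p * M)}
    (hz : ∀ v, -(D v) ≤ v.ord z) : z ∈ ovSp h D 0 := by
  rw [mem_ovSp, pow_zero, one_mul]; exact mem_HD_of_ord hz

/-- A family of spaces behaving like one chart. -/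
structure IsChart (W : Divisor QBar (FB (p * M)) → ℕ → Submodule QBar (FB (p * M))) : Prop where
  mul : ∀ {D D' : Divisor QBar (FB (p * M))} {a b : ℕ} {x y : FB (p * M)},
    x ∈ W D a → y ∈ W D' b → x * y ∈ W (D + D') (a + b)
  mono : ∀ (D : Divisor QBar (FB (p * M))) {a b : ℕ}, a ≤ b → W D a ≤ W D b
  ord : ∀ {D : Divisor QBar (FB (p * M))} {z : FB (p * M)},
    (∀ v, -(D v) ≤ v.ord z) → z ∈ W D 0

omit h in
/-- The finite chart satisfies the axioms of a chart. -/
theorem isChart_fin : IsChart (HD M p) where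
  mul hx hy := mul_mem_HD hx hy
  mono D _ _ hab := HD_mono D hab
  ord hz := mem_HD_of_ord hz

/-- The chart at infinity satisfies the axioms of a chart. -/
theorem isChart_inf : IsChart (infSp h) where
  mul hx hy := mul_mem_infSp h hx hy
  mono D _ _ hab := infSp_mono h D hab
  ord hz := mem_infSp_of_ord h hz

/-- The functions regular on both charts behave like a chart. -/
theorem isChart_ov : IsChart (ovSp h) where
  mul hx hy := mul_mem_ovSp h hx hy
  mono D _ _ hab := ovSp_mono h D hab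
  ord hz := mem_ovSp_of_ord h hz

variable {W : Divisor QBar (FB (p * M)) → ℕ → Submodule QBar (FB (p * M))}

omit h [NeZero M] hp in
theorem IsChart.one_mem (hW : IsChart W) (k : ℕ) : (1 : FB (p * M)) ∈ W 0 k :=
  hW.mono 0 (Nat.zero_le k) (hW.ord fun v => by simp)

omit h [NeZero M] hp in
/-- The spaces of a chart are closed under powers. -/
theorem IsChart.pow_mem (hW : IsChart W) {D : Divisor QBar (FB (p * M))} {k : ℕ}
    {x : FB (p * M)} (hx : x ∈ W D k) : ∀ n : ℕ, x ^ n ∈ W (n • D) (n * k)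
  | 0 => by rw [pow_zero, zero_smul, zero_mul]; exact hW.one_mem 0
  | n + 1 => by rw [pow_succ, succ_nsmul, Nat.succ_mul]; exact hW.mul (hW.pow_mem hx n) hx

/-- If `p D = div f`, the quotient `x / x'` of functions congruent to one in the spaces of `D₁`
and `D` of a chart is approximated in that of `D₁ - D`. -/
theorem IsChart.exists_quot (hW : IsChart W) {D₁ D : Divisor QBar (FB (p * M))} {f : FB (p * M)}
    (hf : IsOne h f) (hford : ∀ v, v.ord f = (p : ℤ) * D v) {k k' : ℕ} {x x' : FB (p * M)}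
    (hx : x ∈ W D₁ k) (hx1 : IsOne h x) (hx' : x' ∈ W D k') (hx'1 : IsOne h x') {γ : QBar}
    (hγ : γ ≠ 0) :
    ∃ (K : ℕ) (α : FB (p * M)), α ∈ W (D₁ - D) K ∧ IsOne h α ∧
      x - x' * α ∈ small A (iota2 M p h.hqM) γ ∧
      ∀ τ : GQ, galF (p * M) τ x = x → galF (p * M) τ x' = x' → galF (p * M) τ f = f →
        galF (p * M) τ α = α := by
  -- `G = x' ^ p f` has degree zero and is congruent to one; invert it by a truncated series.
  set G := x' ^ p * f with hG
  have hG1 : IsOne h G := (hx'1.pow h p).mul h hf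
  obtain ⟨ν, hν0, hνn, hν⟩ := exists_trunc_inv h hG1
  obtain ⟨N, hN⟩ := exists_pow_dvd h.hA hp.out hνn hγ
  set S := ∑ i ∈ Finset.range (N + 1), (1 - G) ^ i with hS
  have hfW : f ∈ W (-(p • D)) 0 := hW.ord fun v => by simp [hford]
  have hGW : G ∈ W 0 (p * k' + 0) := by
    have := hW.mul (hW.pow_mem hx' p) hfW
    rwa [add_neg_cancel] at this
  have hSW : S ∈ W 0 (N * (p * k' + 0)) := by
    refine sum_mem fun i hi => hW.mono 0 ?_
      (by simpa using hW.pow_mem (sub_mem (hW.one_mem _) hGW) i)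
    exact Nat.mul_le_mul_right _ (Nat.lt_succ_iff.mp (Finset.mem_range.mp hi))
  have hq : x' ^ (p - 1) * f ∈ W (-D) ((p - 1) * k' + 0) := by
    have := hW.mul (hW.pow_mem hx' (p - 1)) hfW
    have e : (p - 1) • D + -(p • D) = -D := by
      obtain ⟨r, hr⟩ : ∃ r, r + 1 = p := ⟨p - 1, Nat.succ_pred_eq_of_pos hp.out.pos⟩
      have h1 : (r + 1) • D = p • D := congrArg (fun n : ℕ => n • D) hr
      have h2 : p - 1 = r := by omega
      rw [h2, ← h1, succ_nsmul, neg_add, add_neg_cancel_left]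
    rwa [e] at this
  -- The quotient is `x x' ^ (p - 1) f` times that inverse.
  refine ⟨k + ((p - 1) * k' + 0) + N * (p * k' + 0), x * (x' ^ (p - 1) * f) * S, ?_,
      (hx1.mul h ((hx'1.pow h _).mul h hf)).mul h
    (isOne_trunc h hG1 (Nat.le_add_left 1 N)), ?_, fun τ h1 h2 h3 => ?_⟩
  · have := hW.mul (hW.mul hx hq) hSW
    rwa [add_zero, ← sub_eq_add_neg] at this
  · have e : x - x' * (x * (x' ^ (p - 1) * f) * S) = -(x * (G * S - 1)) := by
      rw [hG, show x' ^ p = x' ^ (p - 1) * x' by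
        rw [← pow_succ, show p - 1 + 1 = p from Nat.succ_pred_eq_of_pos hp.out.pos]]
      ring
    rw [e]
    exact neg_mem (small_mono (pow_ne_zero _ hν0) (hN (N + 1) (Nat.le_succ N))
      (mul_left_mem_small hx1.1 (hν (N + 1))))
  · rw [map_mul, map_mul, map_mul, map_pow, h1, h2, h3, hS, map_sum]
    congr 1
    exact Finset.sum_congr rfl fun i _ => by
      rw [map_pow, map_sub, map_one, hG, map_mul, map_pow, h2, h3]

omit h in
theorem galF_mem_HD {τ : GQ} {D : Divisor QBar (FB (p * M))} {k : ℕ} {z : FB (p * M)}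
    (hz : z ∈ HD M p D k) : galF (p * M) τ z ∈ HD M p (galD τ D) k := by
  rw [mem_HD] at hz ⊢
  intro v
  set g := arithmeticGalois (L := QBar) (modularFunctionFieldFull (p * M)) τ
  have hord : ∀ w : FB (p * M), v.ord (galF (p * M) τ w) = (g⁻¹ • v).ord w := fun w => by
    have := SemilinearAut.ord_smul g (g⁻¹ • v) w
    rw [smul_inv_smul] at this
    exact this
  have hfix : galF (p * M) τ (upF M p (jM M)) = upF M p (jM M) := galF_jF τ
  have hpv : FF.poles QBar (upF M p (jM M)) v = FF.poles QBar (upF M p (jM M)) (g⁻¹ • v) := by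
    rw [FF.poles_apply, FF.poles_apply, ← hord, hfix]
  have hD : galD τ D v = D (g⁻¹ • v) := SemilinearAut.divisor_smul_apply g D v
  rcases eq_or_ne z 0 with rfl | h0
  · rw [map_zero]; exact zero_mem _
  refine FF.mem_ordGe_of_le v ?_
  rw [hord, hpv, hD]
  exact FF.le_ord_of_mem_ordGe _ h0 (hz _)

theorem galF_mem_infSp' {τ : GQ} {D : Divisor QBar (FB (p * M))} {k : ℕ} {z : FB (p * M)}
    (hz : z ∈ infSp h D k) : galF (p * M) τ z ∈ infSp h (galD τ D) k := by
  rw [mem_infSp] at hz ⊢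
  have := galF_mem_HD (τ := τ) hz
  rwa [map_mul, map_pow, galF_jF] at this

theorem galF_mem_small {τ : GQ} (hτ : τ ∈ A.inertiaSubgroupIn ℚ) {γ : QBar} {z : FB (p * M)}
    (hγ : γ ≠ 0) (hz : z ∈ small A (iota2 M p h.hqM) γ) :
    galF (p * M) τ z ∈ small A (iota2 M p h.hqM) γ := by
  have hL := resLift_of_inertia hτ
  have h0 : τ γ ≠ 0 := (_root_.map_ne_zero τ).mpr hγ
  refine small_mono h0 ?_ ?_
  · rw [← A.valuation_le_one_iff, map_mul, map_inv₀, hL.valuation_eq,
      inv_mul_cancel₀ ((Valuation.ne_zero_iff _).mpr hγ)]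
  · obtain ⟨hm, -⟩ := hL.galF_mem_loc2 M p h.hqM ⟨_, hz⟩
    rw [mem_small]
    have e : galF (p * M) τ (γ⁻¹ • z) = (τ γ)⁻¹ • galF (p * M) τ z := by
      rw [galF_smul, map_inv₀]
    rw [← e]
    exact hm

end Fermat.Agent.OrdinaryAtP

end
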